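import Fermat.Agent.FlatModel.Descent
import Fermat.Agent.Deform.MatrixRep
import Fermat.Agent.Density.Places
import Fermat.Agent.LocalDef.HopfOfModel
import Fermat.Agent.LocalDef.Qbar

/-!
# Models only depend on the action of inertia

A Galois module of finite level which agrees on inertia with one having a model has a model; in
particular twisting by characters unramified at `p` preserves flatness.
-/

set_option autoImplicit false
set_option linter.unusedSectionVars false
set_option linter.style.haveILetI false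

noncomputable section

open IsLocalRing

namespace FA.FlatModel

open FA.LocalDef

local notation "Qb" => AlgebraicClosure ℚ
local notation "GQ" => AlgebraicClosure ℚ ≃ₐ[ℚ] AlgebraicClosure ℚ

variable {p : ℕ}

/-- A module agreeing on inertia with one having a model has a model. -/
theorem hasModel_of_inertia_eq {A : ValuationSubring Qb} (hp : p.Prime) (hA : A.LiesOverPrime p)
    {V : Type} [AddCommGroup V] [Fintype V] {act act' : GQ → V → V}
    (h1 : ∀ x, act' 1 x = x) (hmul : ∀ σ τ x, act' (σ * τ) x = act' σ (act' τ x))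
    (hadd : ∀ σ x y, act' σ (x + y) = act' σ x + act' σ y)
    (hcont : ∃ F : IntermediateField ℚ Qb, FiniteDimensional ℚ F ∧
      ∀ σ ∈ F.fixingSubgroup, ∀ x, act' σ x = x)
    (h : HasModel A V act) (hI : ∀ σ ∈ A.inertiaSubgroupIn ℚ, ∀ x, act' σ x = act σ x) :
    HasModel A V act' := by
  classical
  obtain ⟨M, hM⟩ := h
  have hmem : ∀ z : Qb, A.valuation z ≤ 1 → z ∈ A := fun z => (A.valuation_le_one_iff z).mp
  refine hasModel_of_generators h1 hmul hp hA hadd hcont M.a (fun i x => hmem _ (M.int i x))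
    (fun x y hxy => ?_) (fun σ hσ i x => ?_) fun i => ?_
  · obtain ⟨d, hd⟩ := M.full fun z => if z = x then (1 : Qb) else 0
    by_contra hne
    have hx := congrFun hd x
    have hy := congrFun hd y
    simp only [Finset.sum_apply, Pi.smul_apply, smul_eq_mul, if_true, hxy] at hx
    simp only [Finset.sum_apply, Pi.smul_apply, smul_eq_mul, if_neg (Ne.symm hne), ← hx] at hy
    exact zero_ne_one hy
  · rw [hI σ hσ]
    exact hM σ (FA.LocalDef.inertia_le_decomposition hσ) i x
  · obtain ⟨c, hc, he⟩ := M.comul i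
    have e : (fun z : V × V => M.a i (z.1 + z.2)) = ∑ j, ∑ k,
        algebraMap A (V × V → Qb) ⟨c j k, hmem _ (hc j k)⟩ *
          ((fun z : V × V => M.a j z.1) * fun z : V × V => M.a k z.2) := by
      funext z
      simp only [Finset.sum_apply, Pi.mul_apply, he z.1 z.2]
      exact Finset.sum_congr rfl fun j _ => Finset.sum_congr rfl fun k _ => mul_assoc _ _ _
    rw [e]
    exact sum_mem fun j _ => sum_mem fun k _ => mul_mem (Subalgebra.algebraMap_mem _ _)
      (mul_mem (Algebra.subset_adjoin (Or.inl ⟨j, rfl⟩)) (Algebra.subset_adjoin (Or.inr ⟨k, rfl⟩)))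

/-- A finite quotient of a local ring is killed by a power of the maximal ideal. -/
theorem exists_pow_maximalIdeal_le {R : Type} [CommRing R] [IsLocalRing R] (I : Ideal R)
    [Finite (R ⧸ I)] : ∃ n, maximalIdeal R ^ n ≤ I := by
  rcases eq_or_ne I ⊤ with rfl | hne
  · exact ⟨0, le_top⟩
  haveI : Nontrivial (R ⧸ I) := Ideal.Quotient.nontrivial_iff.mpr hne
  haveI : IsLocalRing (R ⧸ I) := IsLocalRing.of_surjective' _ Ideal.Quotient.mk_surjective
  haveI : IsArtinianRing (R ⧸ I) := inferInstance
  obtain ⟨n, hn⟩ : IsNilpotent (maximalIdeal (R ⧸ I)) := by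
    have h := IsArtinianRing.isNilpotent_jacobson_bot (R := R ⧸ I)
    rwa [IsLocalRing.jacobson_eq_maximalIdeal ⊥ bot_ne_top] at h
  refine ⟨n, ?_⟩
  rw [← Ideal.mk_ker (I := I), RingHom.ker, ← Ideal.map_le_iff_le_comap, Ideal.map_pow]
  refine le_trans (Ideal.pow_right_mono ?_ n) hn.le
  haveI := IsLocalHom.of_surjective (Ideal.Quotient.mk I) Ideal.Quotient.mk_surjective
  exact ((local_hom_TFAE (Ideal.Quotient.mk I)).out 0 2).mp (inferInstance : IsLocalHom (Ideal.Quotient.mk I))

/-- A continuous representation factors through a finite level modulo a finite quotient. -/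
theorem exists_field_levelAction {R : Type} [CommRing R] [IsLocalRing R] (ρ : GaloisRepAdic R)
    (I : Ideal R) [Finite (R ⧸ I)] :
    ∃ F : IntermediateField ℚ Qb, FiniteDimensional ℚ F ∧
      ∀ σ ∈ F.fixingSubgroup, ∀ x, ρ.levelAction I σ x = x := by
  obtain ⟨n, hn⟩ := exists_pow_maximalIdeal_le I
  obtain ⟨L, hL, hLn⟩ := ρ.isAdicContinuous n
  refine ⟨L, hL, fun σ hσ x => ?_⟩
  obtain ⟨x, rfl⟩ := Submodule.Quotient.mk_surjective _ x
  exact (Submodule.Quotient.eq _).mpr
    (Submodule.smul_mono_left hn (hLn σ (fun y hy => hσ ⟨y, hy⟩) x))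

/-- **Flatness only depends on the action of inertia.** -/
theorem isFlatAt_ofMatrix_of_inertia (hp : p.Prime) {R : Type} [CommRing R] [IsLocalRing R]
    {r r' : GQ →* Matrix (Fin 2) (Fin 2) R} (hr : FA.Deform.IsContRep r)
    (hr' : FA.Deform.IsContRep r')
    (h : ∀ A : ValuationSubring Qb, A.LiesOverPrime p → ∀ σ ∈ A.inertiaSubgroupIn ℚ, r' σ = r σ)
    (hflat : (FA.Deform.ofMatrix r hr).IsFlatAt p) :
    (FA.Deform.ofMatrix r' hr').IsFlatAt p := by
  obtain ⟨A, hA⟩ := FA.Deform.exists_liesOverPrime hp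
  refine isFlatAt_of_hasModel hp hA _ hflat.1 fun I hI inst => ?_
  let _ : Fintype ((FA.Deform.ofMatrix r hr).V ⧸
      (I • (⊤ : Submodule R (FA.Deform.ofMatrix r hr).V))) := inst
  have hM := hasModel_of_isFlatAt (FA.Deform.ofMatrix r hr) hA hflat I hI
  refine hasModel_of_inertia_eq hp hA (fun x => ?_) (fun σ τ x => ?_)
    (fun σ x y => map_add _ x y) (exists_field_levelAction _ I) hM fun σ hσ x => ?_
  · obtain ⟨x, rfl⟩ := Submodule.Quotient.mk_surjective _ x
    simp [GaloisRepAdic.levelAction]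
  · obtain ⟨x, rfl⟩ := Submodule.Quotient.mk_surjective _ x
    simp [GaloisRepAdic.levelAction]
  · obtain ⟨x, rfl⟩ := Submodule.Quotient.mk_surjective _ x
    show Submodule.Quotient.mk (Matrix.toLinAlgEquiv (Pi.basisFun R (Fin 2)) (r' σ) x) =
      Submodule.Quotient.mk (Matrix.toLinAlgEquiv (Pi.basisFun R (Fin 2)) (r σ) x)
    rw [h A hA σ hσ]

end FA.FlatModel
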