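import Mathlib.Algebra.MonoidAlgebra.Basic
import Mathlib.Algebra.MonoidAlgebra.Module
import Mathlib.LinearAlgebra.Matrix.Charpoly.Coeff
import Mathlib.RingTheory.Nilpotent.Lemmas
import Mathlib.RingTheory.Ideal.MinimalPrime.Noetherian
import Mathlib.RingTheory.IntegralClosure.IsIntegralClosure.Basic
import Mathlib.RingTheory.Ideal.GoingUp
import Fermat.Agent.JTorsion.Functional

/-!
# Modules with the quadratic relation of an irreducible representation

A group action satisfying the quadratic relations of a representation with spanning image factors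
through the matrix algebra (Boston, Lenstra, Ribet). Functionals on a faithful module over a
reduced order generate an ideal containing a nonzero integer.
-/

set_option autoImplicit false
set_option linter.unusedSectionVars false
set_option linter.style.haveILetI false

noncomputable section

namespace FA.FlatModel

open Matrix

section Factor

variable {R : Type} [CommRing R] {G : Type} [Group G] (r : G →* Matrix (Fin 2) (Fin 2) R)
  {M : Type} [AddCommGroup M] [Module R M] (act : G →* Module.End R M)

/-- **The action factors through the matrices.** -/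
theorem exists_matrix_action (hspan : Submodule.span R (Set.range r) = ⊤) (h2 : IsUnit (2 : R))
    (hrel : ∀ g, act g + (r g).det • act g⁻¹ = (r g).trace • 1) :
    ∃ Ψ : Matrix (Fin 2) (Fin 2) R →ₐ[R] Module.End R M, ∀ g, Ψ (r g) = act g := by
  classical
  let E := MonoidAlgebra R G
  let φ : E →ₐ[R] Matrix (Fin 2) (Fin 2) R := MonoidAlgebra.lift R (Matrix (Fin 2) (Fin 2) R) G r
  let Φ : E →ₐ[R] Module.End R M := MonoidAlgebra.lift R (Module.End R M) G act
  -- the anti-involution `g ↦ det (r g) g⁻¹`
  let S : E →ₗ[R] E :=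
    (Finsupp.lsum R fun g => LinearMap.toSpanSingleton R E
      (MonoidAlgebra.single g⁻¹ (r g).det)).comp
      (MonoidAlgebra.coeffLinearEquiv R).toLinearMap
  have hφg : ∀ g (a : R), φ (MonoidAlgebra.single g a) = a • r g := fun g a =>
    MonoidAlgebra.lift_single ..
  have hΦg : ∀ g (a : R), Φ (MonoidAlgebra.single g a) = a • act g := fun g a =>
    MonoidAlgebra.lift_single ..
  have hSg : ∀ g (a : R), S (MonoidAlgebra.single g a) =
      MonoidAlgebra.single g⁻¹ (a * (r g).det) := fun g a => by
    show (Finsupp.lsum R fun g => LinearMap.toSpanSingleton R E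
      (MonoidAlgebra.single g⁻¹ (r g).det)) (MonoidAlgebra.single g a).coeff = _
    rw [MonoidAlgebra.coeff_single, Finsupp.lsum_single, LinearMap.toSpanSingleton_apply,
      MonoidAlgebra.smul_single, smul_eq_mul]
  have hCH : ∀ g, r g + (r g).det • r g⁻¹ = (r g).trace • 1 := fun g => by
    have h1 : (r g).det • r g⁻¹ = (r g).adjugate := by
      have h3 : (r g).adjugate * (r g * r g⁻¹) = (r g).adjugate := by
        rw [← map_mul, mul_inv_cancel, map_one, mul_one]
      rw [← h3, ← mul_assoc, adjugate_mul, smul_mul_assoc, one_mul]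
    rw [h1, adjugate_fin_two]
    ext i j
    fin_cases i <;> fin_cases j <;> simp [trace_fin_two, add_comm]
  have hΦS : ∀ x, Φ x + Φ (S x) = (φ x).trace • 1 := fun x => by
    induction x using MonoidAlgebra.induction_linear with
    | zero => simp
    | add x y hx hy =>
      rw [map_add, map_add, map_add, map_add, trace_add, add_smul, ← hx, ← hy]; abel
    | single g a =>
      rw [hSg, hφg, hΦg, hΦg, trace_smul, mul_smul, ← smul_add, hrel, smul_eq_mul, mul_smul]
  have hφS : ∀ x, φ x + φ (S x) = (φ x).trace • 1 := fun x => by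
    induction x using MonoidAlgebra.induction_linear with
    | zero => simp
    | add x y hx hy =>
      simp only [map_add, trace_add, add_smul, ← hx, ← hy]; abel
    | single g a =>
      rw [hSg, hφg, hφg, trace_smul, mul_smul, ← smul_add, hCH, smul_eq_mul, mul_smul]
  have hSmul : ∀ x y, S (x * y) = S y * S x := fun x y => by
    induction x using MonoidAlgebra.induction_linear with
    | zero => simp
    | add x x' hx hx' => rw [add_mul, map_add, hx, hx', map_add, mul_add]
    | single g a =>
      induction y using MonoidAlgebra.induction_linear with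
      | zero => simp
      | add y y' hy hy' => rw [mul_add, map_add, hy, hy', map_add, add_mul]
      | single h b =>
        rw [MonoidAlgebra.single_mul_single, hSg, hSg, hSg, MonoidAlgebra.single_mul_single,
          _root_.mul_inv_rev, map_mul, det_mul]
        congr 1
        ring
  have hker : ∀ x, φ x = 0 → Φ (S x) = -Φ x ∧ φ (S x) = 0 := fun x hx => by
    have h := hΦS x
    have h' := hφS x
    rw [hx, trace_zero, zero_smul] at h h'
    rw [zero_add] at h'
    exact ⟨eq_neg_of_add_eq_zero_right h, h'⟩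
  -- kernel elements intertwine the involution
  have hA : ∀ x z, φ x = 0 → Φ (S z) * Φ x = Φ x * Φ z := fun x z hx => by
    have h := (hker (x * z) (by rw [map_mul, hx, zero_mul])).1
    rw [hSmul, map_mul, map_mul, (hker x hx).1, mul_neg, neg_inj] at h
    exact h
  have hcomm : ∀ x z w, φ x = 0 → Φ x * Φ (z * w - w * z) = 0 := fun x z w hx => by
    have h := hA x (z * w) hx
    rw [hSmul, map_mul, map_mul, mul_assoc, hA x z hx, ← mul_assoc, hA x w hx, mul_assoc] at h
    rw [map_sub, map_mul, map_mul, mul_sub, h, sub_self]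
  have hsurj : Function.Surjective φ := fun X => by
    have hle : Submodule.span R (Set.range r) ≤ LinearMap.range φ.toLinearMap :=
      Submodule.span_le.mpr (by
        rintro _ ⟨g, rfl⟩
        exact ⟨MonoidAlgebra.single g 1, by rw [AlgHom.toLinearMap_apply, hφg, one_smul]⟩)
    obtain ⟨x, hx⟩ := hle (hspan ▸ Submodule.mem_top : X ∈ Submodule.span R (Set.range r))
    exact ⟨x, hx⟩
  -- the kernel acts as zero
  have hzero : ∀ x, φ x = 0 → Φ x = 0 := fun x hx => by
    obtain ⟨Z, hZ⟩ := hsurj !![0, 1; 0, 0]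
    obtain ⟨W, hW⟩ := hsurj !![0, 0; 1, 0]
    set k := (Z * W - W * Z) * (Z * W - W * Z) - 1 with hk
    have hk0 : φ k = 0 := by
      rw [hk, map_sub, map_mul, map_sub, map_mul, map_mul, hZ, hW, map_one, sub_eq_zero]
      ext i j
      fin_cases i <;> fin_cases j <;> simp [Matrix.mul_apply, Fin.sum_univ_two]
    have h1 : Φ x = -(Φ x * Φ k) := by
      have h : Φ x * Φ (Z * W - W * Z) * Φ (Z * W - W * Z) = 0 := by rw [hcomm x Z W hx, zero_mul]
      rw [mul_assoc, ← map_mul, show (Z * W - W * Z) * (Z * W - W * Z) = k + 1 by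
        rw [hk, sub_add_cancel], map_add, map_one, mul_add, mul_one] at h
      exact eq_neg_of_add_eq_zero_right h
    have hkk : Φ k * Φ k = 0 := by
      have h := hA k k hk0
      rw [(hker k hk0).1, neg_mul] at h
      obtain ⟨u, hu⟩ := h2
      have h3 : (2 : R) • (Φ k * Φ k) = 0 := by
        rw [two_smul]
        exact neg_eq_iff_add_eq_zero.mp h
      rw [← hu, ← Units.smul_def, smul_eq_zero_iff_eq] at h3
      exact h3
    rw [h1, h1, neg_mul, neg_neg, mul_assoc, hkk, mul_zero]
  have heq : ∀ x y, φ x = φ y → Φ x = Φ y := fun x y h => sub_eq_zero.mp (by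
    rw [← map_sub]; exact hzero _ (by rw [map_sub, h, sub_self]))
  let s := Function.surjInv hsurj
  have hs : ∀ X, φ (s X) = X := Function.surjInv_eq hsurj
  refine ⟨AlgHom.ofLinearMap
    { toFun := fun X => Φ (s X)
      map_add' := fun X Y => by
        rw [← map_add]; exact heq _ _ (by rw [map_add, hs, hs, hs])
      map_smul' := fun a X => by
        rw [RingHom.id_apply, ← map_smul]; exact heq _ _ (by rw [map_smul, hs, hs]) }
    (show Φ (s 1) = 1 from (heq _ 1 (by rw [hs, map_one])).trans (map_one Φ))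
    (fun X Y => show Φ (s (X * Y)) = Φ (s X) * Φ (s Y) by
      rw [← map_mul]; exact heq _ _ (by rw [map_mul, hs, hs, hs])), fun g => ?_⟩
  show Φ (s (r g)) = act g
  rw [heq (s (r g)) (MonoidAlgebra.single g 1) (by rw [hs, hφg, one_smul]), hΦg, one_smul]

/-- An element killed by all columns with given entries kills the module. -/
theorem smul_eq_zero_of_col (Ψ : Matrix (Fin 2) (Fin 2) R →ₐ[R] Module.End R M) {v : Fin 2 → R}
    (h : ∀ w, Ψ !![v 0, 0; v 1, 0] w = 0) (i : Fin 2) (w : M) : v i • w = 0 := by
  have h0 : Ψ !![v 0, 0; v 1, 0] = 0 := LinearMap.ext h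
  have h1 : v i • (1 : Matrix (Fin 2) (Fin 2) R) =
      Matrix.single 0 i 1 * !![v 0, 0; v 1, 0] +
        Matrix.single 1 i 1 * !![v 0, 0; v 1, 0] * Matrix.single 0 1 1 := by
    ext a b
    fin_cases i <;> fin_cases a <;> fin_cases b <;>
      simp [Matrix.mul_apply, Matrix.single_apply]
  have h2 := congrArg Ψ h1
  simp only [map_smul, map_one, map_add, map_mul, h0, mul_zero, zero_mul, add_zero] at h2
  exact LinearMap.congr_fun h2 w

end Factor

section Functionals

variable {T : Type} [CommRing T] [Module.Finite ℤ T] [IsReduced T]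
  {X : Type} [AddCommGroup X] [Module T X] [Module.Finite T X]

/-- **The values of functionals** on a faithful module generate an ideal containing an integer. -/
theorem exists_int_mem_span_functionals (hX : ∀ t : T, (∀ x : X, t • x = 0) → t = 0) :
    ∃ c : ℕ, c ≠ 0 ∧
      (c : T) ∈ Ideal.span {t | ∃ (g : X →ₗ[T] T) (x : X), g x = t} := by
  classical
  set τ := Ideal.span {t | ∃ (g : X →ₗ[T] T) (x : X), g x = t}
  by_contra hc
  push Not at hc
  let Z : Submonoid T := (nonZeroDivisors ℕ).map (Nat.castRingHom T).toMonoidHom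
  have hdis : Disjoint (τ : Set T) (Z : Set T) := by
    rw [Set.disjoint_left]
    rintro _ ht ⟨c, hc0, rfl⟩
    exact hc c (nonZeroDivisors.ne_zero hc0) ht
  obtain ⟨P, hP, hτP, hPZ⟩ := Ideal.exists_le_prime_disjoint τ Z hdis
  have hPint : ∀ z : ℤ, algebraMap ℤ T z ∈ P → z = 0 := fun z hz => by
    by_contra hne
    refine Set.disjoint_left.mp hPZ (show ((z.natAbs : ℕ) : T) ∈ P from ?_)
      ⟨z.natAbs, mem_nonZeroDivisors_of_ne_zero (Int.natAbs_ne_zero.mpr hne), rfl⟩
    rw [eq_intCast] at hz
    rcases Int.natAbs_eq z with h | h <;> rw [h] at hz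
    · rw [Int.cast_natCast] at hz; exact hz
    · rw [Int.cast_neg, Int.cast_natCast] at hz; simpa using P.neg_mem hz
  -- `P` is minimal
  haveI : Algebra.IsIntegral ℤ T := Algebra.IsIntegral.of_finite ℤ T
  haveI : IsNoetherianRing T := IsNoetherianRing.of_finite ℤ T
  have hmin : P ∈ minimalPrimes T := by
    refine ⟨⟨hP, bot_le⟩, fun Q hQ hQP => ?_⟩
    by_contra hne
    haveI := hQ.1
    obtain ⟨x, hxP, hxQ⟩ := SetLike.not_le_iff_exists.mp hne
    have hlt := Ideal.comap_lt_comap_of_integral_mem_sdiff (R := ℤ) hQP ⟨hxP, hxQ⟩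
      (Algebra.IsIntegral.isIntegral x)
    refine hlt.not_ge fun z hz => ?_
    rw [hPint z hz]
    exact zero_mem _
  -- an element with annihilator `P`
  have hfin : (minimalPrimes T).Finite := minimalPrimes.finite_of_isNoetherianRing T
  have hex : ∀ Q : Ideal T, ∃ e : T, Q ∈ minimalPrimes T → Q ≠ P → e ∈ Q ∧ e ∉ P := fun Q => by
    by_cases h : Q ∈ minimalPrimes T ∧ Q ≠ P
    · obtain ⟨e, he, he'⟩ := SetLike.not_le_iff_exists.mp
        (fun hle => h.2 (le_antisymm hle (hmin.2 ⟨h.1.1.1, bot_le⟩ hle)))
      exact ⟨e, fun _ _ => ⟨he, he'⟩⟩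
    · exact ⟨0, fun h1 h2 => absurd ⟨h1, h2⟩ h⟩
  choose e he using hex
  set u := ∏ Q ∈ hfin.toFinset.erase P, e Q with hu
  have huP : u ∉ P := fun h => by
    obtain ⟨Q, hQ, hQ'⟩ := hP.prod_mem_iff.mp h
    rw [Finset.mem_erase, Set.Finite.mem_toFinset] at hQ
    exact (he Q hQ.2 hQ.1).2 hQ'
  have hkill : ∀ a ∈ P, u * a = 0 := fun a ha => by
    have : u * a ∈ sInf ((⊥ : Ideal T).minimalPrimes) := by
      rw [Submodule.mem_sInf]
      intro Q hQ
      rcases eq_or_ne Q P with rfl | hne
      · exact Ideal.mul_mem_left _ _ ha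
      · refine Ideal.mul_mem_right _ _ (hQ.1.1.prod_mem_iff.mpr ⟨Q, ?_, (he Q hQ hne).1⟩)
        exact Finset.mem_erase.mpr ⟨hne, hfin.mem_toFinset.mpr hQ⟩
    rw [Ideal.sInf_minimalPrimes] at this
    exact (Ideal.mem_radical_iff.mp this).elim fun n hn => IsNilpotent.eq_zero ⟨n, hn⟩
  -- a functional into `T ⧸ P`, multiplied by it
  haveI : IsDomain (T ⧸ P) := Ideal.Quotient.isDomain P
  obtain ⟨g, x, hg⟩ := FA.JTorsion.exists_functional_domain (R := T ⧸ P) hX
  let μ : (T ⧸ P) →ₗ[T] T := Submodule.liftQ P (LinearMap.toSpanSingleton T T u) fun a ha => by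
    rw [LinearMap.mem_ker, LinearMap.toSpanSingleton_apply, smul_eq_mul, mul_comm, hkill a ha]
  have hmem : μ (g x) ∈ P := hτP (Ideal.subset_span ⟨μ.comp g, x, rfl⟩)
  obtain ⟨a, ha⟩ := Ideal.Quotient.mk_surjective (g x)
  rw [← ha] at hmem hg
  have hau : a * u ∈ P := hmem
  rcases hP.mem_or_mem hau with h | h
  · exact hg (Ideal.Quotient.eq_zero_iff_mem.mpr h)
  · exact huP h

end Functionals

end FA.FlatModel
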