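import Fermat.Agent.FlatModel.Modular
import Fermat.Agent.FlatModel.Isotypic
import Fermat.Agent.FlatModel.Inertia
import Fermat.Agent.JTorsion.TraceTools
import Fermat.Agent.JTorsion.LatMod
import Fermat.Agent.JTorsion.Attach
import Fermat.Agent.JTorsion.Point
import Fermat.Agent.JTorsion.GoodRedAll
import Fermat.Agent.LocalDef.Transfer
import Fermat.Agent.Period.Integral
import Fermat.Agent.Petersson.Semisimple
import Fermat.Agent.Density.Places

/-!
# Representations with Hecke traces are flat at primes not dividing the level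

Modulo `p ^ n` such a representation is a subquotient of a sum of copies of the `p ^ n` torsion of
the Jacobian: the action on the torsion factors through the matrices, and the Hecke module has
enough functionals.
-/

set_option autoImplicit false
set_option linter.unusedSectionVars false
set_option linter.style.haveILetI false
set_option synthInstance.maxHeartbeats 100000
set_option maxHeartbeats 1000000

noncomputable section

open IsLocalRing TensorProduct Matrix

namespace FA.FlatModel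

open FA.LocalDef FA.JTorsion FA.Level ModularCurve

local notation "Qb" => AlgebraicClosure ℚ
local notation "GQ" => AlgebraicClosure ℚ ≃ₐ[ℚ] AlgebraicClosure ℚ

/-- The column with given entries. -/
def colMat {R : Type} [CommRing R] : (Fin 2 → R) →+ Matrix (Fin 2) (Fin 2) R :=
  AddMonoidHom.mk' (fun v => !![v 0, 0; v 1, 0]) fun v w => by
    ext i j; fin_cases i <;> fin_cases j <;> simp

theorem mul_colMat {R : Type} [CommRing R] (X : Matrix (Fin 2) (Fin 2) R) (v : Fin 2 → R) :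
    colMat (X *ᵥ v) = X * colMat v := by
  ext i j
  fin_cases i <;> fin_cases j <;>
    simp [colMat, Matrix.mul_apply, Fin.sum_univ_two]

theorem modN_finite [Algebra Qb ℂ] (N : ℕ) [NeZero N] (S : Set ℕ) (n : ℕ) [NeZero n] :
    Finite (ModN N S n) := by
  haveI := tors_finite (lvlGamma0 N) Qb n
  exact Finite.of_injective (fun q => (⟨toTors N S n q, liftedTors_le (toTors_mem N S n q)⟩ :
    tors (lvlGamma0 N) Qb n)) fun a b h => toTors_injective N S n (congrArg Subtype.val h)

section Level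

variable {T R : Type} [CommRing T] [CommRing R] [IsLocalRing R] [Algebra T R]
  {Y : Type} [AddCommGroup Y] [Module T Y] [Fintype Y] {A : ValuationSubring Qb}

/-- A finite level is a subquotient of a tensor product with a module with the Hecke relation, as
soon as that module has enough functionals. -/
theorem transfer_level {Q : ∀ (V : Type) [AddCommGroup V] [Fintype V], (GQ → V → V) → Prop}
    (hQ : IsTransfer A Q) (g₀ : GQ →* Module.End T Y) (hY : Q Y fun σ x => g₀ σ x)
    (hg₀ : ∃ L : IntermediateField ℚ Qb, FiniteDimensional ℚ L ∧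
      ∀ σ : GQ, (∀ a ∈ L, σ a = a) → g₀ σ = 1)
    (P : Ideal R) [Finite (R ⧸ P)] (ρ : GaloisRepAdic R) (b : Module.Basis (Fin 2) R ρ.V)
    (hspan : Submodule.span R (Set.range (FA.Deform.matrixOf ρ b)) = ⊤) (h2 : IsUnit (2 : R))
    (bad : Finset ℕ) (t : ℕ → T)
    (hfrob : ∀ ℓ : ℕ, ℓ.Prime → ℓ ∉ bad →
      ∀ B : ValuationSubring Qb, B.LiesOverPrime ℓ → ∀ τ : GQ, B.IsFrobeniusAt τ ℓ →
        (∀ y, g₀ τ y + ℓ • g₀ τ⁻¹ y = t ℓ • y) ∧
        (FA.Deform.matrixOf ρ b τ).trace = algebraMap T R (t ℓ) ∧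
          (FA.Deform.matrixOf ρ b τ).det = (ℓ : R))
    (I : Ideal R) [Fintype (ρ.V ⧸ (I • (⊤ : Submodule R ρ.V)))]
    (hfun : ∀ a : R, (∀ (g : Y →ₗ[T] R ⧸ P) (y : Y), Ideal.Quotient.mk P a * g y = 0) → a ∈ I) :
    Q (ρ.V ⧸ (I • (⊤ : Submodule R ρ.V))) fun σ x => ρ.levelAction I σ x := by
  classical
  let M := (R ⧸ P) ⊗[T] Y
  let act : GQ →* Module.End R M :=
    { toFun := fun σ => (LinearMap.baseChange (R ⧸ P) (g₀ σ)).restrictScalars R
      map_one' := LinearMap.ext fun y => by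
        induction y using TensorProduct.induction_on with
        | zero => simp
        | tmul q x => simp
        | add y z hy hz => rw [map_add, map_add, hy, hz]
      map_mul' := fun σ τ => LinearMap.ext fun y => by
        induction y using TensorProduct.induction_on with
        | zero => simp
        | tmul q x => simp
        | add y z hy hz => rw [map_add, map_add, hy, hz] }
  have hact : ∀ σ (q : R ⧸ P) (x : Y), act σ (q ⊗ₜ[T] x) = q ⊗ₜ g₀ σ x := fun σ q x => rfl
  have hkill : ∀ a a' : R, Ideal.Quotient.mk P a = Ideal.Quotient.mk P a' →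
      ∀ y : M, a • y = a' • y := fun a a' h y => by
    rw [← algebraMap_smul (R ⧸ P) a, ← algebraMap_smul (R ⧸ P) a']
    exact congrArg (· • y) h
  -- the quadratic relation
  let r := FA.Deform.matrixOf ρ b
  let rn := FA.Deform.mapRep (Ideal.Quotient.mk P) r
  let K := (g₀.prod rn).ker
  obtain ⟨j, hj⟩ := exists_pow_maximalIdeal_le P
  obtain ⟨L₁, hL₁, h₁⟩ := hg₀
  obtain ⟨L₂, hL₂, h₂⟩ := FA.Deform.isContRep_matrixOf ρ b j
  have hK : IsOpen (K : Set GQ) :=
    Subgroup.isOpen_mono (H₁ := (L₁ ⊔ L₂).fixingSubgroup) (fun τ hτ => by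
      have hfix := (IntermediateField.mem_fixingSubgroup_iff _ _).1 hτ
      refine MonoidHom.mem_ker.2 (Prod.ext
        (h₁ τ fun a ha => hfix a ((le_sup_left : L₁ ≤ L₁ ⊔ L₂) ha)) ?_)
      show (Ideal.Quotient.mk P).mapMatrix (r τ) = 1
      rw [← map_one (Ideal.Quotient.mk P).mapMatrix]
      ext i l
      exact Ideal.Quotient.eq.2
        (hj (h₂ τ (fun a ha => hfix a ((le_sup_right : L₂ ≤ L₁ ⊔ L₂) ha)) i l)))
      (IntermediateField.fixingSubgroup_isOpen _)
  have hrel : ∀ σ, act σ + (r σ).det • act σ⁻¹ = (r σ).trace • 1 := by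
    refine fun σ => FA.Density.forall_of_frobenius_pow K hK
      (fun τ => act τ + (r τ).det • act τ⁻¹ = (r τ).trace • 1) ?_ bad ?_ σ
    · intro τ η hη hτ
      obtain ⟨e1, e2⟩ := Prod.ext_iff.1 (MonoidHom.mem_ker.1 hη)
      change g₀ η = 1 at e1
      change rn η = 1 at e2
      have e1' : g₀ η⁻¹ = 1 := by
        have h4 : g₀ η⁻¹ * g₀ η = 1 := by rw [← map_mul, inv_mul_cancel, map_one]
        rwa [e1, mul_one] at h4
      have a1 : ∀ η', g₀ η' = 1 → act η' = 1 := fun η' h => LinearMap.ext fun y => by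
        induction y using TensorProduct.induction_on with
        | zero => simp
        | tmul q x => rw [hact, h]; rfl
        | add y z hy hz => rw [map_add, map_add, hy, hz]
      have e3 : rn (τ * η) = rn τ := by rw [map_mul, e2, mul_one]
      have e4 : Ideal.Quotient.mk P (r (τ * η)).trace = Ideal.Quotient.mk P (r τ).trace := by
        simp only [Matrix.trace_fin_two, map_add]
        exact congrArg₂ (· + ·) (congrFun (congrFun e3 0) 0) (congrFun (congrFun e3 1) 1)
      have e5 : Ideal.Quotient.mk P (r (τ * η)).det = Ideal.Quotient.mk P (r τ).det := by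
        rw [RingHom.map_det, RingHom.map_det]
        exact congrArg Matrix.det e3
      refine LinearMap.ext fun y => ?_
      have := LinearMap.congr_fun hτ y
      simp only [LinearMap.add_apply, LinearMap.smul_apply, Module.End.one_apply] at this ⊢
      rw [hkill _ _ e4, hkill _ _ e5, map_mul, _root_.mul_inv_rev, map_mul, a1 η e1, a1 _ e1',
        mul_one, one_mul]
      exact this
    · intro ℓ hℓ hℓS B hB τ hτ e
      obtain ⟨hg, htr, hdet⟩ := hfrob ℓ hℓ hℓS B hB τ hτ
      have h1 : act τ + (ℓ : R) • act τ⁻¹ = algebraMap T R (t ℓ) • 1 := LinearMap.ext fun y => by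
        induction y using TensorProduct.induction_on with
        | zero => simp
        | tmul q x =>
          simp only [LinearMap.add_apply, LinearMap.smul_apply, Module.End.one_apply, hact]
          rw [Nat.cast_smul_eq_nsmul, ← TensorProduct.tmul_smul, ← TensorProduct.tmul_add, hg,
            TensorProduct.tmul_smul, algebraMap_smul]
        | add y z hy hz => rw [map_add, map_add, hy, hz]
      have hpow := pow_add_smul_pow (u := act τ) (v := act τ⁻¹)
        (by rw [← map_mul, mul_inv_cancel, map_one]) (by rw [← map_mul, inv_mul_cancel, map_one]) h1 e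
      rw [← map_pow, ← map_pow, inv_pow] at hpow
      rw [show r (τ ^ e) = r τ ^ e from map_pow r τ e, trace_pow_fin_two, Matrix.det_pow, htr, hdet]
      exact hpow
  obtain ⟨Ψ, hΨ⟩ := exists_matrix_action r act hspan h2 hrel
  -- the model of the module
  letI : Fintype (R ⧸ P) := Fintype.ofFinite _
  let sumMap : ((R ⧸ P) → Y) →+ M :=
    AddMonoidHom.mk' (fun f => ∑ q, q ⊗ₜ[T] f q) fun f g => by
      simp [TensorProduct.tmul_add, Finset.sum_add_distrib]
  have hsurj : Function.Surjective sumMap := fun y => by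
    induction y using TensorProduct.induction_on with
    | zero => exact ⟨0, map_zero _⟩
    | tmul q x =>
      refine ⟨Pi.single q x, ?_⟩
      show ∑ q', q' ⊗ₜ[T] _ = _
      rw [Finset.sum_eq_single q (fun q' _ h => by simp [h]) (by simp)]
      simp
    | add y z hy hz =>
      obtain ⟨f, rfl⟩ := hy
      obtain ⟨g, rfl⟩ := hz
      exact ⟨f + g, map_add _ _ _⟩
  haveI : Finite M := Finite.of_surjective _ hsurj
  letI : Fintype M := Fintype.ofFinite M
  have hMmodel : Q M fun σ y => act σ y := by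
    refine hQ.of_surjective (hQ.pi hY (R ⧸ P)) sumMap hsurj
      fun σ _ f => ?_
    show ∑ q, q ⊗ₜ[T] g₀ σ (f q) = act σ (∑ q, q ⊗ₜ[T] f q)
    rw [map_sum]
    exact Finset.sum_congr rfl fun q _ => (hact σ q _).symm
  -- the map from the representation
  let F : ρ.V →+ (M → M) := AddMonoidHom.mk' (fun x w => Ψ (colMat (b.equivFun x)) w) fun x y => by
    funext w
    simp only [map_add, LinearMap.add_apply, Pi.add_apply]
  have hF : ∀ σ x, F (ρ.ρ σ x) = fun w => act σ (F x w) := fun σ x => funext fun w => by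
    show Ψ (colMat (b.equivFun (ρ.ρ σ x))) w = act σ (Ψ (colMat (b.equivFun x)) w)
    rw [show b.equivFun (ρ.ρ σ x) = r σ *ᵥ b.equivFun x from
      (LinearMap.toMatrix_mulVec_repr b b (ρ.ρ σ) x).symm, mul_colMat, map_mul, hΨ]
    rfl
  have hker : ∀ x, F x = 0 → x ∈ I • (⊤ : Submodule R ρ.V) := by
    intro x hx
    rw [← b.sum_equivFun x]
    refine Submodule.sum_mem _ fun i _ =>
      Submodule.smul_mem_smul (hfun _ fun g y => ?_) Submodule.mem_top
    have h := congrArg (LinearMap.liftBaseChange (R ⧸ P) g)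
      (smul_eq_zero_of_col Ψ (fun w => congrFun hx w) i ((1 : R ⧸ P) ⊗ₜ[T] y))
    rw [TensorProduct.smul_tmul', LinearMap.liftBaseChange_tmul, map_zero,
      ← Algebra.algebraMap_eq_smul_one, smul_eq_mul] at h
    exact h
  let U := F.range
  let _ : Fintype U := Fintype.ofFinite U
  let act' : GQ → U → U := fun σ x => ⟨fun w => act σ (x.1 w), by
    obtain ⟨y, hy⟩ := x.2
    exact ⟨ρ.ρ σ y, by rw [hF, hy]⟩⟩
  have hU : Q U act' :=
    hQ.of_injective (hQ.pi hMmodel M) U.subtype Subtype.coe_injective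
      fun σ _ x => rfl
  let q : ρ.V →+ ρ.V ⧸ (I • (⊤ : Submodule R ρ.V)) := (I • (⊤ : Submodule R ρ.V)).mkQ.toAddMonoidHom
  let ψ : U →+ ρ.V ⧸ (I • (⊤ : Submodule R ρ.V)) :=
    AddMonoidHom.liftOfSurjective F.rangeRestrict F.rangeRestrict_surjective
      ⟨q, fun x hx => (Submodule.Quotient.mk_eq_zero _).mpr (hker x (congrArg Subtype.val hx))⟩
  have hψ : ∀ x, ψ (F.rangeRestrict x) = q x := fun x =>
    AddMonoidHom.liftOfRightInverse_comp_apply _ _ _ _ x
  refine hQ.of_surjective hU ψ (fun y => ?_) fun σ _ x => ?_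
  · obtain ⟨x, rfl⟩ := Submodule.Quotient.mk_surjective _ y
    exact ⟨_, hψ x⟩
  · obtain ⟨x, rfl⟩ := F.rangeRestrict_surjective x
    have h1 : act' σ (F.rangeRestrict x) = F.rangeRestrict (ρ.ρ σ x) :=
      Subtype.ext (hF σ x).symm
    refine ((congrArg ψ h1).trans (hψ _)).trans ?_
    exact (congrArg (ρ.levelAction I σ) (hψ x)).symm

end Level

variable {p N : ℕ} [NeZero N] {S : Finset ℕ} {R : Type} [CommRing R] [IsLocalRing R]

/-- The residue field is finite. -/
theorem finite_residueField (hp : p.Prime) (hpR : (p : R) ∈ maximalIdeal R)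
    (hfin : ∀ n : ℕ, Finite (R ⧸ Ideal.span {(p : R) ^ n})) : Finite (ResidueField R) := by
  haveI := hfin 1
  refine Finite.of_surjective (Ideal.Quotient.factor (S := Ideal.span {(p : R) ^ 1})
    (T := maximalIdeal R) ?_) (Ideal.Quotient.factor_surjective _)
  rw [Ideal.span_le, Set.singleton_subset_iff, pow_one]
  exact hpR

/-- The image of an operator on the lattice modulo `n`. -/
abbrev opImage [Algebra Qb ℂ] (N : ℕ) [NeZero N] (S : Set ℕ) (n : ℕ)
    (h : CuspForm.heckeAlgebra N 2 S) : Submodule (CuspForm.heckeAlgebra N 2 S) (ModN N S n) :=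
  LinearMap.range (h • LinearMap.id)

/-- The Galois action on the image of an operator. -/
def galImage [Algebra Qb ℂ] (N : ℕ) [NeZero N] (S : Set ℕ) (n : ℕ) [NeZero n]
    (h : CuspForm.heckeAlgebra N 2 S) :
    GQ →* Module.End (CuspForm.heckeAlgebra N 2 S) (opImage N S n h) where
  toFun σ := (galMod N S n σ).restrict (p := opImage N S n h) (q := opImage N S n h) fun x hx => by
    obtain ⟨y, rfl⟩ := hx
    exact ⟨galMod N S n σ y, (map_smul (galMod N S n σ) h y).symm⟩
  map_one' := LinearMap.ext fun x => Subtype.ext (by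
    show galMod N S n 1 (x : ModN N S n) = x
    rw [map_one]; rfl)
  map_mul' σ τ := LinearMap.ext fun x => Subtype.ext (by
    show galMod N S n (σ * τ) (x : ModN N S n) = galMod N S n σ (galMod N S n τ x)
    rw [map_mul]; rfl)

theorem exists_field_galImage [Algebra Qb ℂ] (N : ℕ) [NeZero N] (S : Set ℕ) (n : ℕ) [NeZero n]
    (h : CuspForm.heckeAlgebra N 2 S) :
    ∃ L : IntermediateField ℚ Qb, FiniteDimensional ℚ L ∧
      ∀ σ : GQ, (∀ a ∈ L, σ a = a) → galImage N S n h σ = 1 := by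
  obtain ⟨L, hL, hL'⟩ := exists_field_galMod N S n
  exact ⟨L, hL, fun σ hσ => LinearMap.ext fun x =>
    Subtype.ext (LinearMap.congr_fun (hL' σ hσ) (x : ModN N S n))⟩

/-- **Finite levels of representations with Hecke traces inherit the properties of the image of an
operator not killed by the eigen system** which transfer. -/
theorem transfer_of_hecke_image [Algebra Qb ℂ] [Fact p.Prime] (hp2 : p ≠ 2)
    (hNS : ∀ q : ℕ, q.Prime → q ∣ N → q ∈ S) (hpR : (p : R) ∈ maximalIdeal R)
    (hreg : (p : R) ∈ nonZeroDivisors R)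
    (hfin : ∀ n : ℕ, Finite (R ⧸ Ideal.span {(p : R) ^ n}))
    (π : CuspForm.heckeAlgebra N 2 (↑S : Set ℕ) →+* R)
    (ρ : GaloisRepAdic R) (b : Module.Basis (Fin 2) R ρ.V)
    (hspan : Submodule.span R (Set.range (FA.Deform.matrixOf ρ b)) = ⊤)
    (bad : Finset ℕ)
    (hfrob : ∀ (ℓ : ℕ) (hℓ : ℓ.Prime) (hℓN : ¬ ℓ ∣ N) (hℓS : ℓ ∉ (↑S : Set ℕ)), ℓ ∉ bad →
      ∀ B : ValuationSubring Qb, B.LiesOverPrime ℓ → ∀ τ : GQ, B.IsFrobeniusAt τ ℓ →
        (FA.Deform.matrixOf ρ b τ).trace = π (CuspForm.heckeAlgebra.T (k := 2) hℓ hℓN hℓS) ∧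
          (FA.Deform.matrixOf ρ b τ).det = (ℓ : R))
    {A : ValuationSubring Qb}
    {Q : ∀ (V : Type) [AddCommGroup V] [Fintype V], (GQ → V → V) → Prop} (hQ : IsTransfer A Q)
    (h : CuspForm.heckeAlgebra N 2 (↑S : Set ℕ)) {c₀ : ℕ}
    (hh : (p : R) ^ c₀ ∈ Ideal.span {π h})
    (hX : ∀ (n : ℕ) [NeZero (p ^ n)] [Fintype (opImage N (↑S : Set ℕ) (p ^ n) h)],
      Q (opImage N (↑S : Set ℕ) (p ^ n) h) fun σ x => galImage N (↑S : Set ℕ) (p ^ n) h σ x)
    (I : Ideal R) [Finite (R ⧸ I)] [Fintype (ρ.V ⧸ (I • (⊤ : Submodule R ρ.V)))] :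
    Q (ρ.V ⧸ (I • (⊤ : Submodule R ρ.V))) fun σ x => ρ.levelAction I σ x := by
  classical
  have hp : p.Prime := Fact.out
  haveI : NeZero p := ⟨hp.ne_zero⟩
  have hunit : ∀ c : ℕ, ¬ p ∣ c → IsUnit (c : R) := fun c hc => by
    refine IsLocalRing.notMem_maximalIdeal.mp fun hm => (maximalIdeal.isMaximal R).ne_top ?_
    obtain ⟨x, y, hxy⟩ := (Nat.isCoprime_iff_coprime.mpr (hp.coprime_iff_not_dvd.mpr hc) :
      IsCoprime (p : ℤ) (c : ℤ))
    refine (Ideal.eq_top_iff_one _).mpr ?_
    have h := congrArg (fun z : ℤ => (z : R)) hxy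
    push_cast at h
    rw [← h]
    exact add_mem (Ideal.mul_mem_left _ _ hpR) (Ideal.mul_mem_left _ _ hm)
  have h2 : IsUnit (2 : R) := by
    simpa using hunit 2 fun h => hp2 ((Nat.prime_dvd_prime_iff_eq hp Nat.prime_two).mp h)
  -- the saturation constant
  let T := CuspForm.heckeAlgebra N 2 (↑S : Set ℕ)
  haveI : Module.Finite ℤ T := FA.Period.moduleFinite_heckeAlgebra N 2 (↑S : Set ℕ)
  haveI : IsReduced T := FA.Petersson.isReduced_heckeAlgebra
    (fun q hq h => Finset.mem_coe.mpr (hNS q hq h))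
  obtain ⟨c, hc0, hc⟩ := exists_int_mem_span_functionals (T := T) (X := LatMod N (↑S : Set ℕ))
    fun _ h => latMod_faithful N (↑S : Set ℕ) h
  obtain ⟨v, c', hc', rfl⟩ := Nat.exists_eq_pow_mul_and_not_dvd hc0 p hp.ne_one
  obtain ⟨k, hk⟩ := exists_pow_maximalIdeal_le I
  set n := k + c₀ + v with hn
  letI : Algebra T R := π.toAlgebra
  haveI : Finite (R ⧸ Ideal.span {(p : R) ^ n}) := hfin n
  haveI := modN_finite N (↑S : Set ℕ) (p ^ n)
  letI : Fintype (ModN N (↑S : Set ℕ) (p ^ n)) := Fintype.ofFinite _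
  let t : ℕ → T := fun ℓ =>
    if h : ℓ.Prime ∧ ¬ ℓ ∣ N ∧ ℓ ∉ (↑S : Set ℕ) then
      CuspForm.heckeAlgebra.T (k := 2) h.1 h.2.1 h.2.2 else 0
  letI : Fintype (opImage N (↑S : Set ℕ) (p ^ n) h) := Fintype.ofFinite _
  refine transfer_level hQ (galImage N (↑S : Set ℕ) (p ^ n) h) ?_
    (exists_field_galImage N (↑S : Set ℕ) (p ^ n) h) (Ideal.span {(p : R) ^ n}) ρ b hspan h2
    (S ∪ N.primeFactors ∪ bad ∪ {p}) t (fun ℓ hℓ hℓS B hB τ hτ => ?_) I fun a ha => ?_
  · exact hX n
  · simp only [Finset.mem_union, Nat.mem_primeFactors, Finset.mem_singleton, not_or] at hℓS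
    obtain ⟨⟨⟨hℓS, hℓN'⟩, hℓbad⟩, hℓp⟩ := hℓS
    have hℓN : ¬ ℓ ∣ N := fun hd => hℓN' ⟨hℓ, hd, NeZero.ne N⟩
    have hℓS' : ℓ ∉ (↑S : Set ℕ) := by simpa using hℓS
    have hℓn : ¬ ℓ ∣ p ^ n := fun h =>
      hℓp ((Nat.prime_dvd_prime_iff_eq hℓ hp).1 (hℓ.dvd_of_dvd_pow h))
    rw [show t ℓ = CuspForm.heckeAlgebra.T (k := 2) hℓ hℓN hℓS' from dif_pos ⟨hℓ, hℓN, hℓS'⟩]
    exact ⟨fun y => Subtype.ext
        (galMod_frobenius N (↑S : Set ℕ) (p ^ n) (goodRed_all N) hℓ hℓN hℓn hB hℓS' hτ y.1),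
      hfrob ℓ hℓ hℓN hℓS' hℓbad B hB τ hτ⟩
  · have hmem : ∀ t ∈ Ideal.span {t : T | ∃ (g : LatMod N (↑S : Set ℕ) →ₗ[T] T)
        (y : LatMod N (↑S : Set ℕ)), g y = t}, a * π h * π t ∈ Ideal.span {(p : R) ^ n} := by
      intro t ht
      induction ht using Submodule.span_induction with
      | mem t ht =>
        obtain ⟨g, y, rfl⟩ := ht
        let gbar : ModN N (↑S : Set ℕ) (p ^ n) →ₗ[T] R ⧸ Ideal.span {(p : R) ^ n} :=
          Submodule.liftQ _ ((Algebra.linearMap T (R ⧸ Ideal.span {(p : R) ^ n})).comp g)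
            fun z hz => by
              obtain ⟨z', rfl⟩ := (mem_nMultiples N _).1 hz
              rw [LinearMap.mem_ker, map_nsmul, nsmul_eq_mul, Nat.cast_pow,
                ← map_natCast (Ideal.Quotient.mk (Ideal.span {(p : R) ^ n})), ← map_pow,
                Ideal.Quotient.eq_zero_iff_mem.2 (Ideal.mem_span_singleton_self _), zero_mul]
        refine Ideal.Quotient.eq_zero_iff_mem.1 ?_
        rw [map_mul, map_mul, mul_assoc]
        have e := ha (gbar.comp (opImage N (↑S : Set ℕ) (p ^ n) h).subtype)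
          ⟨h • Submodule.Quotient.mk y, Submodule.Quotient.mk y, rfl⟩
        rw [LinearMap.comp_apply, Submodule.subtype_apply, map_smul, Algebra.smul_def] at e
        exact e
      | zero => simp
      | add t t' _ _ ht ht' => rw [map_add, mul_add]; exact add_mem ht ht'
      | smul u t _ ht => rw [smul_eq_mul, map_mul, mul_left_comm]; exact Ideal.mul_mem_left _ _ ht
    obtain ⟨s, hs⟩ := Ideal.mem_span_singleton'.mp (hmem _ hc)
    rw [map_natCast, Nat.cast_mul, Nat.cast_pow, hn, pow_add] at hs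
    have h0 : (a * π h * c') = s * (p : R) ^ (k + c₀) := by
      refine sub_eq_zero.mp ((mem_nonZeroDivisors_iff_right.mp (pow_mem hreg v)) _ ?_)
      linear_combination -hs
    obtain ⟨u, hu⟩ := hunit c' hc'
    obtain ⟨r, hr⟩ := Ideal.mem_span_singleton'.mp hh
    rw [← hu] at h0
    have h1 : a * u = r * s * (p : R) ^ k := by
      refine sub_eq_zero.mp ((mem_nonZeroDivisors_iff_right.mp (pow_mem hreg c₀)) _ ?_)
      linear_combination r * h0 - a * (u : R) * hr
    rw [← Units.mul_inv_cancel_right a u, h1]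
    exact Ideal.mul_mem_right _ _ (Ideal.mul_mem_left _ _ (hk (Ideal.pow_mem_pow hpR k)))

/-- **Finite levels of representations with Hecke traces inherit the properties of the torsion**
which transfer. -/
theorem transfer_of_hecke [Algebra Qb ℂ] [Fact p.Prime] (hp2 : p ≠ 2)
    (hNS : ∀ q : ℕ, q.Prime → q ∣ N → q ∈ S) (hpR : (p : R) ∈ maximalIdeal R)
    (hreg : (p : R) ∈ nonZeroDivisors R)
    (hfin : ∀ n : ℕ, Finite (R ⧸ Ideal.span {(p : R) ^ n}))
    (π : CuspForm.heckeAlgebra N 2 (↑S : Set ℕ) →+* R)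
    (ρ : GaloisRepAdic R) (b : Module.Basis (Fin 2) R ρ.V)
    (hspan : Submodule.span R (Set.range (FA.Deform.matrixOf ρ b)) = ⊤)
    (bad : Finset ℕ)
    (hfrob : ∀ (ℓ : ℕ) (hℓ : ℓ.Prime) (hℓN : ¬ ℓ ∣ N) (hℓS : ℓ ∉ (↑S : Set ℕ)), ℓ ∉ bad →
      ∀ B : ValuationSubring Qb, B.LiesOverPrime ℓ → ∀ τ : GQ, B.IsFrobeniusAt τ ℓ →
        (FA.Deform.matrixOf ρ b τ).trace = π (CuspForm.heckeAlgebra.T (k := 2) hℓ hℓN hℓS) ∧
          (FA.Deform.matrixOf ρ b τ).det = (ℓ : R))
    {A : ValuationSubring Qb}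
    {Q : ∀ (V : Type) [AddCommGroup V] [Fintype V], (GQ → V → V) → Prop} (hQ : IsTransfer A Q)
    (hX : ∀ (n : ℕ) [NeZero (p ^ n)] [Fintype (ModN N (↑S : Set ℕ) (p ^ n))],
      Q (ModN N (↑S : Set ℕ) (p ^ n)) fun σ x => galMod N (↑S : Set ℕ) (p ^ n) σ x)
    (I : Ideal R) [Finite (R ⧸ I)] [Fintype (ρ.V ⧸ (I • (⊤ : Submodule R ρ.V)))] :
    Q (ρ.V ⧸ (I • (⊤ : Submodule R ρ.V))) fun σ x => ρ.levelAction I σ x := by
  classical
  refine transfer_of_hecke_image hp2 hNS hpR hreg hfin π ρ b hspan bad hfrob hQ 1 (c₀ := 0)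
    (by rw [pow_zero, map_one]; exact Ideal.mem_span_singleton_self _) (fun n inst inst' => ?_) I
  haveI := modN_finite N (↑S : Set ℕ) (p ^ n)
  letI : Fintype (ModN N (↑S : Set ℕ) (p ^ n)) := Fintype.ofFinite _
  exact hQ.of_injective (hX n) (opImage N (↑S : Set ℕ) (p ^ n) 1).toAddSubgroup.subtype
    Subtype.val_injective fun σ _ x => rfl

/-- **Representations with Hecke traces are flat** at primes not dividing the level. -/
theorem isFlatAt_of_hecke (hp : p.Prime) (hp2 : p ≠ 2) (hpN : ¬ p ∣ N)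
    (hNS : ∀ q : ℕ, q.Prime → q ∣ N → q ∈ S) (hpR : (p : R) ∈ maximalIdeal R)
    (hreg : (p : R) ∈ nonZeroDivisors R)
    (hfin : ∀ n : ℕ, Finite (R ⧸ Ideal.span {(p : R) ^ n}))
    (π : CuspForm.heckeAlgebra N 2 (↑S : Set ℕ) →+* R)
    (ρ : GaloisRepAdic R) (b : Module.Basis (Fin 2) R ρ.V)
    (hspan : Submodule.span R (Set.range (FA.Deform.matrixOf ρ b)) = ⊤)
    (bad : Finset ℕ)
    (hfrob : ∀ (ℓ : ℕ) (hℓ : ℓ.Prime) (hℓN : ¬ ℓ ∣ N) (hℓS : ℓ ∉ (↑S : Set ℕ)), ℓ ∉ bad →
      ∀ B : ValuationSubring Qb, B.LiesOverPrime ℓ → ∀ τ : GQ, B.IsFrobeniusAt τ ℓ →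
        (FA.Deform.matrixOf ρ b τ).trace = π (CuspForm.heckeAlgebra.T (k := 2) hℓ hℓN hℓS) ∧
          (FA.Deform.matrixOf ρ b τ).det = (ℓ : R)) :
    ρ.IsFlatAt p := by
  classical
  haveI : Fact p.Prime := ⟨hp⟩
  obtain ⟨alg⟩ := exists_algebra_qbar
  letI := alg
  obtain ⟨A, hA⟩ := FA.Deform.exists_liesOverPrime hp
  refine isFlatAt_of_hasModel hp hA ρ (finite_residueField hp hpR hfin) fun I hI inst =>
    transfer_of_hecke hp2 hNS hpR hreg hfin π ρ b hspan bad hfrob isTransfer_hasModel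
      (fun n _ _ => hasModel_jZero N (ℓ := p) hpN hA (toTors N (↑S : Set ℕ) (p ^ n))
        (toTors_injective N (↑S : Set ℕ) (p ^ n)) _
        fun σ x => toTors_galMod N (↑S : Set ℕ) (p ^ n) σ x) I

section Finite

variable {O R : Type} [CommRing O] [IsDomain O] [IsDiscreteValuationRing O] [CharZero O]
  [CommRing R] [Algebra O R] [Module.Finite O R]

/-- Quotients of a finite algebra by powers of a prime are finite. -/
theorem finite_quotient_prime_pow [Finite (ResidueField O)] {p : ℕ} (hp : p.Prime) (n : ℕ) :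
    Finite (R ⧸ Ideal.span {(p : R) ^ n}) := by
  obtain ⟨ϖ, hϖ⟩ := IsDiscreteValuationRing.exists_irreducible O
  have hp0 : ((p : O) ^ n) ≠ 0 := pow_ne_zero _ (Nat.cast_ne_zero.mpr hp.ne_zero)
  obtain ⟨m, u, hu⟩ := IsDiscreteValuationRing.eq_unit_mul_pow_irreducible hp0 hϖ
  haveI : Finite (O ⧸ maximalIdeal O) := ‹Finite (ResidueField O)›
  haveI : Finite (O ⧸ maximalIdeal O ^ m) := Ideal.finite_quotient_pow (IsNoetherian.noetherian _) m
  have hle : (maximalIdeal O ^ m).map (algebraMap O R) ≤ Ideal.span {(p : R) ^ n} := by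
    rw [Ideal.map_pow, hϖ.maximalIdeal_eq, Ideal.map_span, Set.image_singleton,
      Ideal.span_singleton_pow, Ideal.span_singleton_le_span_singleton, ← map_pow]
    refine ⟨algebraMap O R ↑u⁻¹, ?_⟩
    rw [← map_natCast (algebraMap O R) p, ← map_pow, ← map_mul, hu, mul_comm (u : O),
      mul_assoc, Units.mul_inv, mul_one]
  haveI : Module.Finite (O ⧸ maximalIdeal O ^ m) (R ⧸ (maximalIdeal O ^ m).map (algebraMap O R)) :=
    Module.Finite.of_restrictScalars_finite O _ _
  haveI := Module.finite_of_finite (O ⧸ maximalIdeal O ^ m)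
    (M := R ⧸ (maximalIdeal O ^ m).map (algebraMap O R))
  exact Finite.of_surjective (Ideal.Quotient.factor hle) (Ideal.Quotient.factor_surjective hle)

/-- A prime is regular on a free algebra. -/
theorem natCast_mem_nonZeroDivisors [Module.Free O R] {p : ℕ} (hp : p.Prime) :
    (p : R) ∈ nonZeroDivisors R := by
  refine mem_nonZeroDivisors_iff_right.mpr fun x hx => ?_
  have h : (p : O) • x = 0 := by rw [Algebra.smul_def, map_natCast, mul_comm, hx]
  exact (smul_eq_zero.mp h).resolve_left (Nat.cast_ne_zero.mpr hp.ne_zero)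

end Finite

end FA.FlatModel
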