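import Fermat.Agent.FlatModel.GroupAlg
import Fermat.Agent.FlatModel.Hecke
import Fermat.Agent.JTorsion.Unramified
import Fermat.Agent.ModField.Semistable.Chebotarev

/-!
# Finite levels of representations with Hecke traces at any residue characteristic

Relations of the group ring on a high torsion level hold in the representation modulo a given
power of the maximal ideal, so its finite levels are subquotients of powers of that torsion.  No
assumption is made on the parity of the residue characteristic.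
-/

set_option autoImplicit false
set_option linter.style.haveILetI false
set_option linter.unusedSectionVars false
set_option synthInstance.maxHeartbeats 100000
set_option maxHeartbeats 1000000

noncomputable section

namespace FA.FlatModel

open FA.Level ModularCurve IsLocalRing FA.JTorsion

local notation "Qb" => AlgebraicClosure ℚ

/-- Linear endomorphisms as additive ones. -/
def intEnd {R M : Type*} [CommRing R] [AddCommGroup M] [Module R M] :
    Module.End R M →* Module.End ℤ M where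
  toFun f := f.toAddMonoidHom.toIntLinearMap
  map_one' := LinearMap.ext fun _ => rfl
  map_mul' _ _ := LinearMap.ext fun _ => rfl

/-- The action at a finite level as a homomorphism. -/
def levelHom {R : Type} [CommRing R] [IsLocalRing R] (ρ : GaloisRepAdic R) (I : Ideal R) :
    GalQ →* Module.End R (ρ.V ⧸ (I • (⊤ : Submodule R ρ.V))) where
  toFun := ρ.levelAction I
  map_one' := LinearMap.ext fun x => by
    obtain ⟨x, rfl⟩ := Submodule.Quotient.mk_surjective _ x
    simp [GaloisRepAdic.levelAction]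
  map_mul' σ τ := LinearMap.ext fun x => by
    obtain ⟨x, rfl⟩ := Submodule.Quotient.mk_surjective _ x
    simp [GaloisRepAdic.levelAction]

variable {p N : ℕ} [NeZero N] {S : Finset ℕ} {R : Type} [CommRing R] [IsLocalRing R]

/-- **Finite levels of representations with Hecke traces inherit the properties of the torsion**
which transfer. -/
theorem transfer_of_traces [Algebra Qb ℂ] [Fact p.Prime] (hpR : (p : R) ∈ maximalIdeal R)
    (π : CuspForm.heckeAlgebra N 2 (↑S : Set ℕ) →+* R)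
    (ρ : GaloisRepAdic R) (b : Module.Basis (Fin 2) R ρ.V)
    (hspan : Submodule.span R (Set.range (FA.Deform.matrixOf ρ b)) = ⊤)
    (bad : Finset ℕ)
    (hfrob : ∀ (ℓ : ℕ) (hℓ : ℓ.Prime) (hℓN : ¬ ℓ ∣ N) (hℓS : ℓ ∉ (↑S : Set ℕ)), ℓ ∉ bad →
      ∀ B : ValuationSubring Qb, B.LiesOverPrime ℓ → ∀ τ : GalQ, B.IsFrobeniusAt τ ℓ →
        (FA.Deform.matrixOf ρ b τ).trace = π (CuspForm.heckeAlgebra.T (k := 2) hℓ hℓN hℓS) ∧
          (FA.Deform.matrixOf ρ b τ).det = (ℓ : R))
    {A : ValuationSubring Qb}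
    {Q : ∀ (V : Type) [AddCommGroup V] [Fintype V],
      ((Qb ≃ₐ[ℚ] Qb) → V → V) → Prop} (hQ : FA.LocalDef.IsTransfer A Q)
    (hX : ∀ (n : ℕ) [NeZero (p ^ n)] [Fintype (ModN N (↑S : Set ℕ) (p ^ n))],
      Q (ModN N (↑S : Set ℕ) (p ^ n)) fun σ x => galMod N (↑S : Set ℕ) (p ^ n) σ x)
    (I : Ideal R) [Finite (R ⧸ I)] [Fintype (ρ.V ⧸ (I • (⊤ : Submodule R ρ.V)))] :
    Q (ρ.V ⧸ (I • (⊤ : Submodule R ρ.V))) fun σ x => ρ.levelAction I σ x := by
  classical
  have hp : p.Prime := Fact.out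
  haveI : NeZero p := ⟨hp.ne_zero⟩
  haveI := latMod_free N (↑S : Set ℕ)
  obtain ⟨c, hc⟩ := exists_saturation p hp.ne_zero
    (fun _ h => latMod_faithful N (↑S : Set ℕ) h)
  obtain ⟨j, hj⟩ := exists_pow_maximalIdeal_le I
  set n := j + c
  let T := CuspForm.heckeAlgebra N 2 (↑S : Set ℕ)
  let act := galMod N (↑S : Set ℕ) (p ^ n)
  let mk := Ideal.Quotient.mk (maximalIdeal R ^ n)
  let r := FA.Deform.matrixOf ρ b
  have hkill : ∀ x : ModN N (↑S : Set ℕ) (p ^ n), p ^ n • x = 0 := fun x => by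
    rw [← nsmul_mod_eq (N := N) (S := (↑S : Set ℕ)) (p ^ n) x, Nat.mod_self, zero_nsmul]
  have hchar : ((p ^ n : ℕ) : R ⧸ maximalIdeal R ^ n) = 0 := by
    rw [← map_natCast mk, Nat.cast_pow]
    exact Ideal.Quotient.eq_zero_iff_mem.2 (Ideal.pow_mem_pow hpR n)
  have hcont : ∃ L : IntermediateField ℚ Qb, FiniteDimensional ℚ L ∧
      ∀ σ : GalQ, (∀ a ∈ L, σ a = a) → FA.Deform.mapRep mk r σ = 1 := by
    obtain ⟨L, hL, h⟩ := FA.Deform.isContRep_matrixOf ρ b n
    refine ⟨L, hL, fun σ hσ => ?_⟩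
    show mk.mapMatrix (r σ) = 1
    rw [← map_one mk.mapMatrix]
    ext i k
    exact Ideal.Quotient.eq.2 (h σ hσ i k)
  choose h hrel htr hdet using fun τ => FA.ModField.exists_hecke_of_gal p (D := T) n hkill act hchar
    (FA.Deform.mapRep mk r) (mk.comp π) (exists_field_galMod N (↑S : Set ℕ) (p ^ n)) hcont
    (S ∪ N.primeFactors ∪ bad ∪ {p}) (by simp) (fun ℓ hℓ hℓS B hB σ hσ => by
      simp only [Finset.mem_union, Nat.mem_primeFactors, Finset.mem_singleton, not_or] at hℓS
      obtain ⟨⟨⟨hℓS, hℓN'⟩, hℓbad⟩, hℓp⟩ := hℓS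
      have hℓN : ¬ ℓ ∣ N := fun hd => hℓN' ⟨hℓ, hd, NeZero.ne N⟩
      have hℓS' : ℓ ∉ (↑S : Set ℕ) := by simpa using hℓS
      have hℓn : ¬ ℓ ∣ p ^ n := fun h =>
        hℓp ((Nat.prime_dvd_prime_iff_eq hℓ hp).1 (hℓ.dvd_of_dvd_pow h))
      obtain ⟨ht, hd⟩ := hfrob ℓ hℓ hℓN hℓS' hℓbad B hB σ hσ
      refine ⟨CuspForm.heckeAlgebra.T (k := 2) hℓ hℓN hℓS', fun x =>
        galMod_frobenius N (↑S : Set ℕ) (p ^ n) (goodRed_all N) hℓ hℓN hℓn hB hℓS' hσ x, ?_, ?_⟩
      · show (mk.mapMatrix (r σ)).trace = mk (π _)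
        rw [← ht, Matrix.trace_fin_two, Matrix.trace_fin_two, map_add]
        rfl
      · show (mk.mapMatrix (r σ)).det = _
        rw [← RingHom.map_det, hd, map_natCast]) τ
  haveI := modN_finite N (↑S : Set ℕ) (p ^ n)
  let _ : Fintype (ModN N (↑S : Set ℕ) (p ^ n)) := Fintype.ofFinite _
  let actX := intEnd.comp act
  let actV := intEnd.comp (levelHom ρ I)
  refine transfer_of_groupAlgebra hQ actX actV (hX n) fun a ha => ?_
  let cn : GalQ → T := fun g =>
    (((FA.ModField.cycMod p n g : (ZMod (p ^ n))ˣ) : ZMod (p ^ n)).val : T)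
  have hcm : ∀ g k : GalQ, ∀ x : ModN N (↑S : Set ℕ) (p ^ n),
      cn (g * k) • x = cn g • cn k • x := by
    intro g k x
    simp only [cn, Nat.cast_smul_eq_nsmul, map_mul, Units.val_mul, ZMod.val_mul, nsmul_mod_eq,
      mul_smul]
  have hcu : ∀ (g : GalQ) (x : ModN N (↑S : Set ℕ) (p ^ n)), cn g • x = 0 → x = 0 := by
    intro g x hx
    have h1 := hcm g⁻¹ g x
    rw [hx, smul_zero, inv_mul_cancel] at h1
    simp only [cn, map_one, Units.val_one, Nat.cast_smul_eq_nsmul] at h1
    rcases Nat.eq_zero_or_pos n with hn | hn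
    · simpa [hn] using hkill x
    · haveI : Fact (1 < p ^ n) := ⟨Nat.one_lt_pow hn.ne' hp.one_lt⟩
      rwa [ZMod.val_one, one_smul] at h1
  have hsat : ∀ t : T, (∀ x : ModN N (↑S : Set ℕ) (p ^ n), t • x = 0) →
      π t ∈ maximalIdeal R ^ j := by
    intro t ht
    obtain ⟨t', ht'⟩ := hc j t fun z => by
      have e := ht (Submodule.Quotient.mk z)
      rw [← Submodule.Quotient.mk_smul, Submodule.Quotient.mk_eq_zero, mem_nMultiples] at e
      obtain ⟨y, hy⟩ := e
      exact ⟨y, hy.symm⟩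
    rw [ht', map_nsmul, nsmul_eq_mul, Nat.cast_pow]
    exact Ideal.mul_mem_right _ _ (Ideal.pow_mem_pow hpR j)
  have hM := entries_mem act cn hcm hcu h
    (fun g x => by rw [Nat.cast_smul_eq_nsmul]; exact hrel g x) r π (maximalIdeal R ^ j)
    (fun g => by
      refine Ideal.pow_le_pow_right (Nat.le_add_right j c) (Ideal.Quotient.eq.1 ?_)
      rw [← RingHom.comp_apply, ← htr g, Matrix.trace_fin_two, Matrix.trace_fin_two, map_add]
      rfl)
    hsat hspan (fun σ : a.support => a σ) (fun σ => (σ : GalQ))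
    (fun x => by
      rw [Finset.sum_coe_sort a.support fun σ => a σ • act σ x]
      have e := LinearMap.congr_fun ha x
      rw [Finsupp.linearCombination_apply, Finsupp.sum, LinearMap.sum_apply] at e
      exact e)
  refine LinearMap.ext fun x => ?_
  obtain ⟨v, rfl⟩ := Submodule.Quotient.mk_surjective _ x
  have hL : LinearMap.toMatrix b b (∑ σ ∈ a.support, a σ • ρ.ρ σ) =
      ∑ σ : a.support, a σ • r σ := by
    rw [Finset.sum_coe_sort a.support fun σ => a σ • r σ, map_sum]
    exact Finset.sum_congr rfl fun σ _ => map_zsmul _ _ _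
  have hv : (∑ σ ∈ a.support, a σ • ρ.ρ σ) v ∈ I • (⊤ : Submodule R ρ.V) := by
    rw [← Module.Basis.sum_repr b ((∑ σ ∈ a.support, a σ • ρ.ρ σ) v)]
    refine Submodule.sum_mem _ fun i _ => Submodule.smul_mem_smul (hj ?_) Submodule.mem_top
    rw [← LinearMap.toMatrix_mulVec_repr b b, hL, Matrix.mulVec, dotProduct]
    exact Ideal.sum_mem _ fun l _ => Ideal.mul_mem_right _ _ (hM i l)
  rw [Finsupp.linearCombination_apply, Finsupp.sum, LinearMap.sum_apply, LinearMap.zero_apply,
    ← (Submodule.Quotient.mk_eq_zero (I • (⊤ : Submodule R ρ.V))).2 hv, LinearMap.sum_apply]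
  show ∑ σ ∈ a.support, a σ • (I • (⊤ : Submodule R ρ.V)).mkQ (ρ.ρ σ v) =
    (I • (⊤ : Submodule R ρ.V)).mkQ _
  rw [map_sum]
  exact Finset.sum_congr rfl fun σ _ => (map_zsmul _ _ _).symm

end FA.FlatModel
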