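import Fermat.Agent.LocalDef.GlobalModel
import Fermat.Agent.LocalDef.FlatBridge
import Fermat.Agent.Local.Inertia
import Fermat.Agent.TW.LocalQ
import Mathlib.LinearAlgebra.Vandermonde
import Mathlib.RingTheory.Adjoin.FG
import Mathlib.RingTheory.IntegralClosure.IsIntegralClosure.Basic

/-!
# Models from generators fixed by inertia

A finite separating family of integral functions fixed by inertia, whose algebra is closed under
the addition map, gives a model compatible with the decomposition group: the traces along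
Frobenius of their multiples by roots of unity are fixed by the decomposition group and generate
an algebra closed under addition.
-/

set_option autoImplicit false
set_option linter.unusedSectionVars false
set_option linter.style.haveILetI false
set_option maxHeartbeats 1000000

noncomputable section

open FA.Deform FA.Local
open scoped Pointwise

namespace FA.FlatModel

open FA.LocalDef

local notation "Qb" => AlgebraicClosure ℚ
local notation "GQ" => AlgebraicClosure ℚ ≃ₐ[ℚ] AlgebraicClosure ℚ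

variable {A : ValuationSubring Qb} {p : ℕ}

/-- Roots of unity of order prime to `p` are separated by reduction. -/
theorem root_eq_one (hp : p.Prime) (hA : A.LiesOverPrime p) {n : ℕ} (hn : ¬ p ∣ n) {ζ : Qb}
    (hζ : ζ ^ n = 1) (h : A.valuation (ζ - 1) < 1) : ζ = 1 := by
  have hn0 : n ≠ 0 := fun h0 => hn (h0 ▸ dvd_zero p)
  by_contra hne
  have hv : A.valuation ζ ≤ 1 :=
    (map_eq_one_of_pow_eq_one A.valuation hn0 hζ).le
  have hs : ∑ i ∈ Finset.range n, ζ ^ i = 0 := by
    have := geom_sum_mul ζ n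
    rw [hζ, sub_self, mul_eq_zero] at this
    exact this.resolve_right (sub_ne_zero.mpr hne)
  have hlt : A.valuation ((∑ i ∈ Finset.range n, ζ ^ i) - (n : Qb)) < 1 := by
    rw [show (n : Qb) = ∑ _i ∈ Finset.range n, 1 by simp, ← Finset.sum_sub_distrib]
    refine A.valuation.map_sum_lt one_ne_zero fun i _ => ?_
    rw [← geom_sum_mul ζ i, map_mul]
    refine lt_of_le_of_lt (mul_le_of_le_one_left' (A.valuation.map_sum_le fun j _ => ?_)) h
    exact map_pow_le_one hv j
  rw [hs, zero_sub, Valuation.map_neg, valuation_natCast_eq_one hA] at hlt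
  · exact lt_irrefl _ hlt
  · exact Nat.coprime_comm.mp ((Nat.Prime.coprime_iff_not_dvd hp).mpr hn)

/-- Inertia fixes the roots of unity of order prime to `p`. -/
theorem inertia_fixes (hp : p.Prime) (hA : A.LiesOverPrime p) {n : ℕ} (hn : ¬ p ∣ n) {σ : GQ}
    (hσ : σ ∈ A.inertiaSubgroupIn ℚ) {ζ : Qb} (hζ : ζ ^ n = 1) : σ ζ = ζ := by
  haveI : Algebra.IsAlgebraic ℚ Qb := AlgebraicClosure.isAlgebraic ℚ
  have hn0 : n ≠ 0 := fun h0 => hn (h0 ▸ dvd_zero p)
  have hζ0 : ζ ≠ 0 := fun h => by simp [h, zero_pow hn0] at hζ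
  have hv : A.valuation ζ = 1 := map_eq_one_of_pow_eq_one A.valuation hn0 hζ
  refine (div_eq_one_iff_eq hζ0).mp (root_eq_one hp hA hn ?_ ?_)
  · rw [div_pow, ← map_pow, hζ, map_one, div_one]
  · rw [div_sub_one hζ0, map_div₀, hv, div_one]
    exact (inert_of_mem_inertiaSubgroupIn A hσ).sub_lt ζ hv.le

/-- A Frobenius element raises these roots of unity to the power `p`. -/
theorem frobenius_root (hp : p.Prime) (hA : A.LiesOverPrime p) {F : GQ}
    (hF : A.IsFrobeniusAt F p) {n : ℕ} (hn : ¬ p ∣ n) {ζ : Qb} (hζ : ζ ^ n = 1) :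
    F ζ = ζ ^ p := by
  have hn0 : n ≠ 0 := fun h0 => hn (h0 ▸ dvd_zero p)
  have hζ0 : ζ ≠ 0 := fun h => by simp [h, zero_pow hn0] at hζ
  have hv : A.valuation ζ ≤ 1 := (map_eq_one_of_pow_eq_one A.valuation hn0 hζ).le
  have hFv := decomp_map_le hF.mem_decompositionSubgroup hv
  have hres : res A (F ζ) = res A ζ ^ p := by
    rw [res_eq hv, res_eq hFv]
    have := hF.smul_residue_eq (IsLocalRing.residue A ⟨ζ, mem_of_map_le hv⟩)
    rwa [← IsLocalRing.ResidueField.residue_smul] at this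
  have hpv := map_pow_le_one hv p
  have hv1 : A.valuation (ζ ^ p) = 1 := by
    rw [map_pow, map_eq_one_of_pow_eq_one A.valuation hn0 hζ, one_pow]
  refine (div_eq_one_iff_eq (pow_ne_zero p hζ0)).mp (root_eq_one hp hA hn ?_ ?_)
  · rw [div_pow, ← map_pow, hζ, map_one, ← pow_mul, mul_comm p n, pow_mul, hζ, one_pow, div_one]
  · rw [div_sub_one (pow_ne_zero p hζ0), map_div₀, hv1, div_one]
    have hsub : A.valuation (F ζ - ζ ^ p) ≤ 1 := A.valuation.map_sub_le hFv hpv
    refine (res_eq_zero_iff hsub).mp ?_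
    have e := res_add hsub hpv
    rw [sub_add_cancel, hres, res_pow hv] at e
    exact left_eq_add.mp (by rw [add_comm]; exact e)

theorem conj_mem_inertia {d σ : GQ} (hd : d ∈ A.decompositionSubgroup ℚ)
    (hσ : σ ∈ A.inertiaSubgroupIn ℚ) : d * σ * d⁻¹ ∈ A.inertiaSubgroupIn ℚ := by
  obtain ⟨τ, hτ, rfl⟩ := hσ
  exact ⟨(⟨d, hd⟩ : A.decompositionSubgroup ℚ) * τ * (⟨d, hd⟩ : A.decompositionSubgroup ℚ)⁻¹,
    (MonoidHom.normal_ker _).conj_mem τ hτ _, by simp⟩

variable {V : Type} [AddCommGroup V] [Fintype V] {act : GQ → V → V}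

/-- The transported function. -/
def twist (act : GQ → V → V) (σ : GQ) : (V → Qb) →+* (V → Qb) :=
  RingHom.pi fun x => (σ : Qb →+* Qb).comp (Pi.evalRingHom (fun _ : V => Qb) (act σ⁻¹ x))

/-- The transported function on pairs. -/
def twist₂ (act : GQ → V → V) (σ : GQ) : (V × V → Qb) →+* (V × V → Qb) :=
  RingHom.pi fun x => (σ : Qb →+* Qb).comp
    (Pi.evalRingHom (fun _ : V × V => Qb) (act σ⁻¹ x.1, act σ⁻¹ x.2))

theorem twist_apply (σ : GQ) (f : V → Qb) (x : V) : twist act σ f x = σ (f (act σ⁻¹ x)) := rfl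

theorem twist₂_apply (σ : GQ) (f : V × V → Qb) (x : V × V) :
    twist₂ act σ f x = σ (f (act σ⁻¹ x.1, act σ⁻¹ x.2)) := rfl

variable (h1 : ∀ x, act 1 x = x) (hmul : ∀ σ τ x, act (σ * τ) x = act σ (act τ x))

include h1 hmul

theorem twist_mul (σ τ : GQ) (f : V → Qb) : twist act (σ * τ) f = twist act σ (twist act τ f) :=
  funext fun x => by simp only [twist_apply, mul_inv_rev, hmul, AlgEquiv.mul_apply]

theorem twist_eq_self_iff (σ : GQ) (f : V → Qb) :
    twist act σ f = f ↔ ∀ x, σ (f x) = f (act σ x) := by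
  refine ⟨fun h x => ?_, fun h => funext fun x => ?_⟩
  · conv_rhs => rw [← h]
    rw [twist_apply, ← hmul, inv_mul_cancel, h1]
  · rw [twist_apply, h, ← hmul, mul_inv_cancel, h1]

/-- The Frobenius traces. -/
theorem exists_fixed_generators (hp : p.Prime) (hA : A.LiesOverPrime p)
    (hcont : ∃ F₀ : IntermediateField ℚ Qb, FiniteDimensional ℚ F₀ ∧
      ∀ σ ∈ F₀.fixingSubgroup, ∀ x, act σ x = x)
    {Γ : Type} [Finite Γ] (φ : Γ → V → Qb) (hint : ∀ γ x, φ γ x ∈ A)
    (hI : ∀ σ ∈ A.inertiaSubgroupIn ℚ, ∀ γ x, σ (φ γ x) = φ γ (act σ x)) :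
    ∃ Fr ∈ A.decompositionSubgroup ℚ, ∃ (e : ℕ) (ψ : Γ × Fin e → V → Qb), (∀ i x, ψ i x ∈ A) ∧
      (∀ σ ∈ A.decompositionSubgroup ℚ, ∀ i, twist act σ (ψ i) = ψ i) ∧
      (∀ γ, φ γ ∈ Algebra.adjoin A (Set.range ψ)) ∧
      ∀ z, ∃ c : A, ψ z = ∑ l : Fin e, twist act (Fr ^ (l : ℕ)) (c • φ z.1) := by
  classical
  haveI := Fintype.ofFinite Γ
  haveI : Fact p.Prime := ⟨hp⟩
  haveI : Algebra.IsAlgebraic ℚ Qb := AlgebraicClosure.isAlgebraic ℚ
  haveI : IsGalois ℚ Qb := { }
  obtain ⟨F₀, hF₀, hfix⟩ := hcont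
  obtain ⟨Fr, hFr⟩ := exists_isFrobeniusAt hp hA
  have hFrD := hFr.mem_decompositionSubgroup
  -- a Galois layer seeing the functions
  let M₀ : IntermediateField ℚ Qb :=
    F₀ ⊔ IntermediateField.adjoin ℚ (Set.range fun z : Γ × V => φ z.1 z.2)
  haveI : FiniteDimensional ℚ (IntermediateField.adjoin ℚ (Set.range fun z : Γ × V => φ z.1 z.2)) :=
    IntermediateField.finiteDimensional_adjoin fun a _ =>
      ((AlgebraicClosure.isAlgebraic ℚ).isAlgebraic a).isIntegral
  haveI : FiniteDimensional ℚ M₀ := IntermediateField.finiteDimensional_sup _ _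
  let M : IntermediateField ℚ Qb := IntermediateField.normalClosure ℚ M₀ Qb
  haveI : FiniteDimensional ℚ M := normalClosure.is_finiteDimensional ℚ M₀ Qb
  haveI : Normal ℚ M := normalClosure.normal ℚ M₀ Qb
  haveI : IsGalois ℚ M := IsGalois.mk
  have hM : ∀ σ ∈ M.fixingSubgroup, ∀ γ, twist act σ (φ γ) = φ γ := by
    intro σ hσ γ
    have hle : M₀ ≤ M := M₀.le_normalClosure
    rw [twist_eq_self_iff h1 hmul]
    intro x
    rw [hfix σ fun y => hσ ⟨(y : Qb), hle (le_sup_left (b := IntermediateField.adjoin ℚ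
      (Set.range fun z : Γ × V => φ z.1 z.2)) y.2)⟩]
    exact hσ ⟨φ γ x, hle (le_sup_right (a := F₀) (IntermediateField.subset_adjoin ℚ _ ⟨(γ, x), rfl⟩))⟩
  obtain ⟨e, he0, he⟩ : ∃ e : ℕ, 0 < e ∧ Fr ^ e ∈ M.fixingSubgroup := by
    refine ⟨orderOf (resHom M Fr), orderOf_pos _, ?_⟩
    have h := pow_orderOf_eq_one (resHom M Fr)
    rw [← map_pow] at h
    intro y
    have h2 := AlgEquiv.restrictNormal_commutes (Fr ^ orderOf (resHom M Fr)) M y
    rw [show (Fr ^ orderOf (resHom M Fr)).restrictNormal M = 1 from h] at h2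
    exact h2.symm
  -- the root of unity
  set n := p ^ e - 1 with hn
  have hpe : 1 < p ^ e := Nat.one_lt_pow he0.ne' hp.one_lt
  have hnp : ¬ p ∣ n := fun h => by
    have h2 := Nat.dvd_sub (dvd_pow_self p he0.ne') h
    rw [hn, Nat.sub_sub_self hpe.le] at h2
    exact hp.not_dvd_one h2
  haveI : NeZero n := ⟨by omega⟩
  obtain ⟨ζ, hζ⟩ := HasEnoughRootsOfUnity.exists_primitiveRoot Qb n
  have hζn := hζ.pow_eq_one
  have hζv : A.valuation ζ ≤ 1 := (map_eq_one_of_pow_eq_one A.valuation (NeZero.ne n) hζn).le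
  let ζA : A := ⟨ζ, mem_of_map_le hζv⟩
  have hFζ : ∀ i : ℕ, (Fr ^ i) ζ = ζ ^ p ^ i := by
    intro i
    induction i with
    | zero => simp
    | succ i ih =>
      rw [pow_succ', AlgEquiv.mul_apply, ih, map_pow, frobenius_root hp hA hFr hnp hζn, ← pow_mul,
        ← pow_succ']
  let ψ : Γ × Fin e → V → Qb := fun z =>
    ∑ i : Fin e, twist act (Fr ^ (i : ℕ)) ((ζA ^ (z.2 : ℕ)) • φ z.1)
  have hsmul : ∀ (σ : GQ) (a : A) (f : V → Qb),
      twist act σ (a • f) = σ (a : Qb) • twist act σ f := fun σ a f => funext fun x => by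
    simp only [twist_apply, Pi.smul_apply]
    rw [Algebra.smul_def, map_mul]
    rfl
  refine ⟨Fr, hFrD, e, ψ, fun z x => ?_, fun σ hσ z => ?_, fun γ => ?_, fun z => ?_⟩
  · simp only [ψ, Finset.sum_apply]
    refine sum_mem fun i _ => ?_
    rw [twist_apply]
    exact mem_of_map_le (decomp_map_le (pow_mem hFrD _)
      ((A.valuation_le_one_iff _).mpr (mul_mem (ζA ^ (z.2 : ℕ)).2 (hint _ _))))
  · -- fixed by the decomposition group
    set a := (ζA ^ (z.2 : ℕ)) • φ z.1 with ha
    let M' : IntermediateField ℚ Qb := IntermediateField.normalClosure ℚ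
      (M ⊔ IntermediateField.adjoin ℚ {ζ} : IntermediateField ℚ Qb) Qb
    haveI : FiniteDimensional ℚ (IntermediateField.adjoin ℚ ({ζ} : Set Qb)) :=
      IntermediateField.adjoin.finiteDimensional
        ((AlgebraicClosure.isAlgebraic ℚ).isAlgebraic ζ).isIntegral
    haveI : FiniteDimensional ℚ (M ⊔ IntermediateField.adjoin ℚ {ζ} : IntermediateField ℚ Qb) :=
      IntermediateField.finiteDimensional_sup _ _
    haveI : FiniteDimensional ℚ M' := normalClosure.is_finiteDimensional ℚ _ Qb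
    haveI : Normal ℚ M' := normalClosure.normal ℚ _ Qb
    haveI : IsGalois ℚ M' := IsGalois.mk
    obtain ⟨i, ι, hι, m, hm, rfl⟩ := FA.TW.exists_frobenius_decomp hp hA hFr M'.fixingSubgroup
      M'.fixingSubgroup_isOpen hσ
    have hle : M ⊔ IntermediateField.adjoin ℚ {ζ} ≤ M' := IntermediateField.le_normalClosure _
    have hn' : ∀ m ∈ M'.fixingSubgroup, twist act m a = a := fun m hm => by
      rw [ha, hsmul, hM m (fun y => hm ⟨(y : Qb), hle (le_sup_left
        (b := IntermediateField.adjoin ℚ {ζ}) y.2)⟩)]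
      have : m ((ζA ^ (z.2 : ℕ) : A) : Qb) = ((ζA ^ (z.2 : ℕ) : A) : Qb) := by
        show m (ζ ^ (z.2 : ℕ)) = ζ ^ (z.2 : ℕ)
        rw [map_pow, show m ζ = ζ from hm ⟨ζ, hle (le_sup_right (a := M)
          (IntermediateField.mem_adjoin_simple_self ℚ ζ))⟩]
      rw [this]
      rfl
    have hι' : ∀ ι ∈ A.inertiaSubgroupIn ℚ, twist act ι a = a := fun ι hι => by
      rw [ha, hsmul, (twist_eq_self_iff h1 hmul ι _).mpr (hI ι hι z.1)]
      have : ι ((ζA ^ (z.2 : ℕ) : A) : Qb) = ((ζA ^ (z.2 : ℕ) : A) : Qb) := by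
        show ι (ζ ^ (z.2 : ℕ)) = ζ ^ (z.2 : ℕ)
        rw [map_pow, inertia_fixes hp hA hnp hι hζn]
      rw [this]
      rfl
    have hFe : twist act (Fr ^ e) a = a := by
      rw [ha, hsmul, hM _ he]
      have : (Fr ^ e) ((ζA ^ (z.2 : ℕ) : A) : Qb) = ((ζA ^ (z.2 : ℕ) : A) : Qb) := by
        show (Fr ^ e) (ζ ^ (z.2 : ℕ)) = ζ ^ (z.2 : ℕ)
        rw [map_pow, hFζ, show p ^ e = n + 1 by omega, pow_succ ζ n, hζn, one_mul]
      rw [this]
      rfl
    have hFr1 : twist act Fr (ψ z) = ψ z := by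
      simp only [ψ, map_sum, ← ha, ← twist_mul h1 hmul, ← pow_succ']
      rw [Fin.sum_univ_eq_sum_range (fun i => twist act (Fr ^ (i + 1)) a),
        Fin.sum_univ_eq_sum_range (fun i => twist act (Fr ^ i) a)]
      have h2 := Finset.sum_range_succ' (fun i => twist act (Fr ^ i) a) e
      rw [Finset.sum_range_succ, hFe, show twist act (Fr ^ 0) a = a from
        (twist_eq_self_iff h1 hmul _ _).mpr fun x => by simp [h1]] at h2
      exact (add_right_cancel h2).symm
    have hconj : ∀ τ : GQ, (∀ i : ℕ, twist act ((Fr ^ i)⁻¹ * τ * Fr ^ i) a = a) →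
        twist act τ (ψ z) = ψ z := fun τ hτ => by
      simp only [ψ, map_sum, ← ha]
      refine Finset.sum_congr rfl fun i _ => ?_
      rw [← twist_mul h1 hmul, show τ * Fr ^ (i : ℕ) = Fr ^ (i : ℕ) * ((Fr ^ (i : ℕ))⁻¹ * τ * Fr ^ (i : ℕ))
        by group, twist_mul h1 hmul, hτ]
    rw [twist_mul h1 hmul, hconj m fun i => hn' _ ?_, twist_mul h1 hmul,
      hconj ι fun i => hι' _ ?_]
    · clear hσ
      induction i with
      | zero => exact (twist_eq_self_iff h1 hmul _ _).mpr fun x => by simp [h1]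
      | succ i ih => rw [pow_succ, twist_mul h1 hmul, hFr1, ih]
    · have := conj_mem_inertia (inv_mem (pow_mem hFrD i)) hι
      rwa [inv_inv] at this
    · haveI : M'.fixingSubgroup.Normal :=
        (InfiniteGalois.normal_iff_isGalois M').mpr inferInstance
      have := ‹M'.fixingSubgroup.Normal›.conj_mem m hm (Fr ^ i)⁻¹
      rwa [inv_inv] at this
  · -- the original functions are recovered
    let x : Fin e → A := fun i => ζA ^ p ^ (i : ℕ)
    have hr : IsPrimitiveRoot (IsLocalRing.residue A ζA) n := by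
      refine ⟨by rw [← map_pow, show ζA ^ n = 1 from Subtype.ext hζn, map_one], fun l hl => ?_⟩
      refine hζ.dvd_of_pow_eq_one l (root_eq_one hp hA hnp ?_ ?_)
      · rw [← pow_mul, mul_comm, pow_mul, hζn, one_pow]
      · rw [← map_pow, ← sub_eq_zero, ← map_one (IsLocalRing.residue A), ← map_sub,
          IsLocalRing.residue_eq_zero_iff, ← A.coe_mem_nonunits_iff, A.mem_nonunits_iff] at hl
        exact hl
    have hinj : Function.Injective fun i : Fin e => IsLocalRing.residue A (x i) := by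
      intro i j hij
      simp only [x, map_pow] at hij
      rcases Nat.lt_or_ge 1 e with h2 | h2
      · have hlt : ∀ l : Fin e, p ^ (l : ℕ) < n := fun l => by
          have h3 : p ^ ((l : ℕ) + 1) ≤ p ^ e := Nat.pow_le_pow_right hp.pos l.2
          have h4 : 2 * p ^ (l : ℕ) ≤ p ^ ((l : ℕ) + 1) := by
            rw [pow_succ, mul_comm]; exact Nat.mul_le_mul_left _ hp.two_le
          have h5 : p ^ 2 ≤ p ^ e := Nat.pow_le_pow_right hp.pos h2
          have h6 := Nat.pow_le_pow_left hp.two_le 2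
          omega
        exact Fin.ext (Nat.pow_right_injective hp.two_le (hr.pow_inj (hlt i) (hlt j) hij))
      · exact Fin.ext (by omega)
    have hu : IsUnit (Matrix.vandermonde x).det := by
      rw [← IsLocalRing.residue_ne_zero_iff_isUnit, RingHom.map_det, RingHom.mapMatrix_apply,
        show (Matrix.vandermonde x).map (IsLocalRing.residue A) =
          Matrix.vandermonde fun i => IsLocalRing.residue A (x i) from
          Matrix.ext fun i j => by simp [Matrix.vandermonde_apply]]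
      exact Matrix.det_vandermonde_ne_zero_iff.mpr hinj
    set W := (Matrix.vandermonde x)⁻¹
    have hW := Matrix.mul_nonsing_inv (Matrix.vandermonde x) hu
    suffices h : φ γ = ∑ j : Fin e, W j ⟨0, he0⟩ • ψ (γ, j) by
      rw [h]
      exact sum_mem fun j _ => Subalgebra.smul_mem _ (Algebra.subset_adjoin (Set.mem_range_self _)) _
    funext y
    simp only [ψ, Finset.sum_apply, Pi.smul_apply, hsmul, Finset.smul_sum]
    rw [Finset.sum_comm, Finset.sum_eq_single ⟨0, he0⟩ (fun i _ hi => ?_)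
      fun h => absurd (Finset.mem_univ _) h]
    · have h3 := congrArg (fun a : A => (a : Qb)) (congrFun (congrFun hW ⟨0, he0⟩) ⟨0, he0⟩)
      simp only [Matrix.mul_apply, Matrix.vandermonde_apply, x, Matrix.one_apply_eq,
        AddSubmonoidClass.coe_finsetSum, MulMemClass.coe_mul, SubmonoidClass.coe_pow,
        OneMemClass.coe_one] at h3
      simp only [Algebra.smul_def, Algebra.algebraMap_self_apply, ← mul_assoc, ← Finset.sum_mul]
      rw [twist_apply]
      simp only [SubmonoidClass.coe_pow, map_pow, pow_zero, inv_one, h1, AlgEquiv.one_apply]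
      calc φ γ y = (∑ j : Fin e, (ζ ^ p ^ 0) ^ (j : ℕ) * (W j ⟨0, he0⟩ : Qb)) * φ γ y := by
            rw [h3, one_mul]
        _ = _ := by
            rw [Finset.sum_mul, Finset.sum_mul]
            refine Finset.sum_congr rfl fun j _ => ?_
            rw [pow_zero, pow_one, mul_comm (ζ ^ (j : ℕ))]
            rfl
    · have h3 := congrArg (fun a : A => (a : Qb)) (congrFun (congrFun hW i) ⟨0, he0⟩)
      simp only [Matrix.mul_apply, Matrix.vandermonde_apply, x, Matrix.one_apply_ne hi,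
        AddSubmonoidClass.coe_finsetSum, MulMemClass.coe_mul, SubmonoidClass.coe_pow,
        ZeroMemClass.coe_zero] at h3
      calc _ = (∑ j : Fin e, (ζ ^ p ^ (i : ℕ)) ^ (j : ℕ) * (W j ⟨0, he0⟩ : Qb)) *
            twist act (Fr ^ (i : ℕ)) (φ γ) y := by
            rw [Finset.sum_mul]
            refine Finset.sum_congr rfl fun j _ => ?_
            rw [Algebra.smul_def, smul_eq_mul]
            show ((W j ⟨0, he0⟩ : A) : Qb) * ((Fr ^ (i : ℕ)) (ζ ^ (j : ℕ)) * _) = _
            rw [map_pow, hFζ]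
            ring
        _ = 0 := by rw [h3, zero_mul]
  · exact ⟨ζA ^ (z.2 : ℕ), rfl⟩

/-- **A model from generators fixed by inertia.** -/
theorem hasModel_of_generators (hp : p.Prime) (hA : A.LiesOverPrime p)
    (hadd : ∀ σ x y, act σ (x + y) = act σ x + act σ y)
    (hcont : ∃ F₀ : IntermediateField ℚ Qb, FiniteDimensional ℚ F₀ ∧
      ∀ σ ∈ F₀.fixingSubgroup, ∀ x, act σ x = x)
    {Γ : Type} [Finite Γ] (φ : Γ → V → Qb) (hint : ∀ γ x, φ γ x ∈ A)
    (hsep : ∀ x y, (∀ γ, φ γ x = φ γ y) → x = y)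
    (hI : ∀ σ ∈ A.inertiaSubgroupIn ℚ, ∀ γ x, σ (φ γ x) = φ γ (act σ x))
    (hcomul : ∀ γ, (fun z : V × V => φ γ (z.1 + z.2)) ∈ Algebra.adjoin A
      (Set.range (fun γ (z : V × V) => φ γ z.1) ∪ Set.range fun γ (z : V × V) => φ γ z.2)) :
    HasModel A V act := by
  classical
  haveI := Fintype.ofFinite Γ
  obtain ⟨Fr, hFrD, e, ψ, hψA, hψD, hψφ, hψS⟩ := exists_fixed_generators h1 hmul hp hA hcont φ hint hI
  let fst : (V → Qb) →ₐ[A] (V × V → Qb) :=
    AlgHom.pi fun z : V × V => Pi.evalAlgHom A (fun _ : V => Qb) z.1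
  let snd : (V → Qb) →ₐ[A] (V × V → Qb) :=
    AlgHom.pi fun z : V × V => Pi.evalAlgHom A (fun _ : V => Qb) z.2
  let addh : (V → Qb) →ₐ[A] (V × V → Qb) :=
    AlgHom.pi fun z : V × V => Pi.evalAlgHom A (fun _ : V => Qb) (z.1 + z.2)
  set R := Algebra.adjoin A (Set.range ψ) with hR
  set P₂ := Algebra.adjoin A (fst '' Set.range ψ ∪ snd '' Set.range ψ) with hP₂
  have hfst : ∀ a ∈ R, fst a ∈ P₂ := fun a ha => by
    have : fst a ∈ R.map fst := ⟨a, ha, rfl⟩
    rw [hR, ← Algebra.adjoin_image] at this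
    exact Algebra.adjoin_mono Set.subset_union_left this
  have hsnd : ∀ a ∈ R, snd a ∈ P₂ := fun a ha => by
    have : snd a ∈ R.map snd := ⟨a, ha, rfl⟩
    rw [hR, ← Algebra.adjoin_image] at this
    exact Algebra.adjoin_mono Set.subset_union_right this
  have hφadd : ∀ γ, addh (φ γ) ∈ P₂ := fun γ => by
    refine Algebra.adjoin_le ?_ (hcomul γ)
    rintro _ (⟨δ, rfl⟩ | ⟨δ, rfl⟩)
    · exact hfst _ (hψφ δ)
    · exact hsnd _ (hψφ δ)
  have htw : ∀ σ ∈ A.decompositionSubgroup ℚ, ∀ f ∈ P₂, twist₂ act σ f ∈ P₂ := by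
    intro σ hσ f hf
    induction hf using Algebra.adjoin_induction with
    | mem g hg =>
      rcases hg with ⟨_, ⟨i, rfl⟩, rfl⟩ | ⟨_, ⟨i, rfl⟩, rfl⟩
      · have : twist₂ act σ (fst (ψ i)) = fst (twist act σ (ψ i)) := rfl
        rw [this, hψD σ hσ i]
        exact Algebra.subset_adjoin (Or.inl ⟨_, ⟨i, rfl⟩, rfl⟩)
      · have : twist₂ act σ (snd (ψ i)) = snd (twist act σ (ψ i)) := rfl
        rw [this, hψD σ hσ i]
        exact Algebra.subset_adjoin (Or.inr ⟨_, ⟨i, rfl⟩, rfl⟩)
    | algebraMap r =>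
      have : twist₂ act σ (algebraMap A (V × V → Qb) r) = algebraMap A (V × V → Qb)
          ⟨σ r, mem_of_map_le (decomp_map_le hσ (A.valuation_le_one r))⟩ := rfl
      rw [this]
      exact Subalgebra.algebraMap_mem _ _
    | add x y _ _ hx hy => rw [map_add]; exact add_mem hx hy
    | mul x y _ _ hx hy => rw [map_mul]; exact mul_mem hx hy
  have hadd' : ∀ (σ : GQ) (f : V → Qb), addh (twist act σ f) = twist₂ act σ (addh f) :=
    fun σ f => funext fun z => by
      show σ (f (act σ⁻¹ (z.1 + z.2))) = σ (f (act σ⁻¹ z.1 + act σ⁻¹ z.2))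
      rw [hadd]
  have hψadd : ∀ i, addh (ψ i) ∈ P₂ := fun i => by
    obtain ⟨c, he⟩ := hψS i
    rw [he, map_sum]
    refine sum_mem fun l _ => ?_
    rw [hadd']
    exact htw _ (pow_mem hFrD _) _ (by rw [map_smul]; exact Subalgebra.smul_mem _ (hφadd _) _)
  have hRadd : ∀ a ∈ R, addh a ∈ P₂ := fun a ha => by
    have : R ≤ P₂.comap addh := Algebra.adjoin_le (by rintro _ ⟨i, rfl⟩; exact hψadd i)
    exact this ha
  have hmonR : ∀ {m : V → Qb}, m ∈ Submonoid.closure (Set.range ψ) → m ∈ R := fun {m} hm => by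
    have h : Submonoid.closure (Set.range ψ) ≤ R.toSubsemiring.toSubmonoid :=
      Submonoid.closure_le.mpr Algebra.subset_adjoin
    exact h hm
  -- a finite family of monomials
  have hintg : ∀ f ∈ Set.range ψ, IsIntegral A f := by
    rintro _ ⟨i, rfl⟩
    refine ⟨∏ x, (Polynomial.X - Polynomial.C (⟨ψ i x, hψA i x⟩ : A)),
      Polynomial.monic_prod_of_monic _ _ fun x _ => Polynomial.monic_X_sub_C _, funext fun x => ?_⟩
    have e : Polynomial.eval₂ (algebraMap A (V → Qb)) (ψ i)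
        (∏ x, (Polynomial.X - Polynomial.C (⟨ψ i x, hψA i x⟩ : A))) x =
        Polynomial.eval₂ (algebraMap A Qb) (ψ i x)
          (∏ x, (Polynomial.X - Polynomial.C (⟨ψ i x, hψA i x⟩ : A))) :=
      Polynomial.hom_eval₂ _ (algebraMap A (V → Qb)) (Pi.evalRingHom (fun _ : V => Qb) x) (ψ i)
    rw [e, Polynomial.eval₂_finsetProd]
    exact Finset.prod_eq_zero (Finset.mem_univ x) (by
      rw [Polynomial.eval₂_sub, Polynomial.eval₂_X, Polynomial.eval₂_C]
      exact sub_self _)
  have hfg : (Subalgebra.toSubmodule R).FG := fg_adjoin_of_finite (Set.finite_range ψ) hintg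
  rw [hR, Algebra.adjoin_eq_span] at hfg
  obtain ⟨T, hT, hTspan⟩ := Submodule.fg_span_iff_fg_span_finset_subset _ |>.mp hfg
  have hmonD : ∀ m ∈ Submonoid.closure (Set.range ψ), ∀ σ ∈ A.decompositionSubgroup ℚ,
      twist act σ m = m := fun m hm σ hσ => by
    induction hm using Submonoid.closure_induction with
    | mem x hx => obtain ⟨i, rfl⟩ := hx; exact hψD σ hσ i
    | one => exact map_one _
    | mul x y _ _ hx hy => rw [map_mul, hx, hy]
  let f : T → V → Qb := fun t => t
  have hRspan : ∀ a ∈ R, a ∈ Submodule.span A (Set.range f) := fun a ha => by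
    rw [← Subalgebra.mem_toSubmodule, hR, Algebra.adjoin_eq_span, hTspan] at ha
    rwa [show Set.range f = (T : Set (V → Qb)) from Subtype.range_coe]
  have hfR : ∀ t, f t ∈ R := fun t => by
    rw [← Subalgebra.mem_toSubmodule, hR, Algebra.adjoin_eq_span]
    exact Submodule.subset_span (hT t.2)
  have hcoef : ∀ a ∈ R, ∃ c : T → Qb, (∀ t, A.valuation (c t) ≤ 1) ∧
      ∀ x, a x = ∑ t, c t * f t x := fun a ha => by
    obtain ⟨c, hc⟩ := (Submodule.mem_span_range_iff_exists_fun A).mp (hRspan a ha)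
    exact ⟨fun t => c t, fun t => A.valuation_le_one _, fun x => by rw [← hc]; simp; rfl⟩
  have hP₂span : ∀ g ∈ P₂, g ∈ Submodule.span A (Set.range fun z : T × T => fst (f z.1) * snd (f z.2)) := by
    intro g hg
    rw [← Subalgebra.mem_toSubmodule, hP₂, Algebra.adjoin_eq_span, Submonoid.closure_union] at hg
    refine (Submodule.span_le (p := Submodule.span A _)).mpr ?_ hg
    intro m hm
    obtain ⟨a, ha, b, hb, rfl⟩ := Submonoid.mem_sup.mp hm
    rw [show (fst : (V → Qb) → (V × V → Qb)) '' Set.range ψ =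
      (fst.toRingHom.toMonoidHom : (V → Qb) → (V × V → Qb)) '' Set.range ψ from rfl,
      ← MonoidHom.map_mclosure] at ha
    rw [show (snd : (V → Qb) → (V × V → Qb)) '' Set.range ψ =
      (snd.toRingHom.toMonoidHom : (V → Qb) → (V × V → Qb)) '' Set.range ψ from rfl,
      ← MonoidHom.map_mclosure] at hb
    obtain ⟨a, ha, rfl⟩ := ha
    obtain ⟨b, hb, rfl⟩ := hb
    have ha' := hRspan a (hmonR ha)
    have hb' := hRspan b (hmonR hb)
    obtain ⟨c, hc⟩ := (Submodule.mem_span_range_iff_exists_fun A).mp ha'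
    obtain ⟨d, hd⟩ := (Submodule.mem_span_range_iff_exists_fun A).mp hb'
    show fst a * snd b ∈ _
    rw [← hc, ← hd, map_sum, map_sum, Finset.sum_mul_sum]
    refine sum_mem fun i _ => sum_mem fun j _ => ?_
    rw [map_smul, map_smul, smul_mul_smul_comm]
    exact Submodule.smul_mem _ _ (Submodule.subset_span ⟨(i, j), rfl⟩)
  -- the functions span
  have hspan : Submodule.span Qb (Set.range f) = ⊤ := by
    have hle : Subalgebra.toSubmodule (Algebra.adjoin Qb (Set.range ψ)) ≤
        Submodule.span Qb (Set.range f) := by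
      rw [Algebra.adjoin_eq_span, Submodule.span_le]
      intro m hm
      exact Submodule.span_le_restrictScalars A Qb _
        (hRspan m (hmonR hm))
    refine eq_top_iff.mpr fun g _ => hle ?_
    set B := Algebra.adjoin Qb (Set.range ψ)
    have hφB : ∀ γ, φ γ ∈ B := fun γ =>
      (Algebra.adjoin_le (Algebra.subset_adjoin) : R ≤ B.restrictScalars A) (hψφ γ)
    have hind : ∀ x, (Pi.single x (1 : Qb) : V → Qb) ∈ B := fun x => by
      have hy : ∀ y ∈ Finset.univ.erase x, ∃ h ∈ B, h x = 1 ∧ h y = 0 := fun y hy => by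
        obtain ⟨γ, hγ⟩ : ∃ γ, φ γ x ≠ φ γ y := by
          by_contra hh
          push Not at hh
          exact Finset.ne_of_mem_erase hy (hsep x y hh).symm
        refine ⟨(φ γ x - φ γ y)⁻¹ • (φ γ - algebraMap Qb (V → Qb) (φ γ y)),
          Subalgebra.smul_mem _ (sub_mem (hφB γ) (Subalgebra.algebraMap_mem _ _)) _, ?_, ?_⟩
        · simp [sub_ne_zero.mpr hγ]
        · simp
      choose! h hhB hhx hhy using hy
      have he : (Pi.single x (1 : Qb) : V → Qb) = ∏ y ∈ Finset.univ.erase x, h y := funext fun z => by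
        rw [Finset.prod_apply]
        rcases eq_or_ne z x with rfl | hz
        · rw [Pi.single_eq_same, Finset.prod_eq_one fun y hy => hhx y hy]
        · rw [Pi.single_eq_of_ne hz]
          exact (Finset.prod_eq_zero (f := fun y => h y z)
            (Finset.mem_erase.mpr ⟨hz, Finset.mem_univ z⟩)
            (hhy z (Finset.mem_erase.mpr ⟨hz, Finset.mem_univ z⟩))).symm
      rw [he]
      exact prod_mem fun y hy => hhB y hy
    rw [Subalgebra.mem_toSubmodule, show g = ∑ x, g x • (Pi.single x (1 : Qb) : V → Qb) from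
      pi_eq_sum_univ' g]
    exact sum_mem fun x _ => Subalgebra.smul_mem _ (hind x) _
  obtain ⟨Mo, gi, hgi, -⟩ := exists_model_of_family (v := A.valuation) f hspan
    (fun t x => (A.valuation_le_one_iff _).mpr (by
      have h : R ≤ (⊥ : Subalgebra A Qb).comap (Pi.evalAlgHom A (fun _ : V => Qb) x) :=
        Algebra.adjoin_le (by
          rintro _ ⟨i, rfl⟩
          exact ⟨⟨ψ i x, hψA i x⟩, rfl⟩)
      obtain ⟨a, ha⟩ := h (hfR t)
      rw [show f t x = (a : Qb) from ha.symm]
      exact a.2))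
    (by
      obtain ⟨c, hc, hcx⟩ := hcoef 1 (one_mem R)
      exact ⟨c, hc, fun x => hcx x⟩)
    (fun i j => by
      obtain ⟨c, hc, hcx⟩ := hcoef _ (mul_mem (hfR i) (hfR j))
      exact ⟨c, hc, fun x => hcx x⟩)
    (fun i => by
      obtain ⟨c, hc⟩ := (Submodule.mem_span_range_iff_exists_fun A).mp
        (hP₂span _ (hRadd _ (hfR i)))
      refine ⟨fun j k => c (j, k), fun j k => A.valuation_le_one _, fun x y => ?_⟩
      have := congrFun hc (x, y)
      show addh (f i) (x, y) = _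
      rw [← this]
      simp [Fintype.sum_prod_type, Finset.sum_apply, Algebra.smul_def, mul_assoc, fst, snd])
  refine ⟨Mo, fun σ hσ i x => ?_⟩
  rw [hgi]
  exact ((twist_eq_self_iff h1 hmul σ _).mp (hmonD _ (hT (gi i).2) σ hσ)) x

end FA.FlatModel
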