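import Fermat.Agent.LocalDef.Transfer
import Fermat.Agent.RT.LocalFromPoints
import Mathlib.LinearAlgebra.Matrix.Trace
import Mathlib.LinearAlgebra.Finsupp.LinearCombination

/-!
# Relations in the group ring of a module with quadratic relations

If a group acts on a module over `R` with `g + c g g⁻¹` scalar and a residually irreducible two
dimensional representation has traces congruent to these scalars, every relation in the integral
group ring which holds on the module holds in the representation.  A group acting through such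
relations inherits models: it is a subquotient of products.
-/

set_option autoImplicit false
set_option linter.unusedSectionVars false

noncomputable section

namespace FA.FlatModel

open Matrix

section Relations

variable {G R X T : Type*} [Group G] [CommRing R] [AddCommGroup X] [Module R X] [CommRing T]
  (act : G →* Module.End R X) (c : G → R) (hc : ∀ g k (x : X), c (g * k) • x = c g • c k • x)
  (hcu : ∀ g (x : X), c g • x = 0 → x = 0)
  (h : G → R) (hrel : ∀ g (x : X), act g x + c g • act g⁻¹ x = h g • x)
  (r : G →* Matrix (Fin 2) (Fin 2) T) (π : R →+* T) (J : Ideal T)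
  (htr : ∀ g, (r g).trace - π (h g) ∈ J)
  (hsat : ∀ t : R, (∀ x : X, t • x = 0) → π t ∈ J)
  (hspan : Submodule.span T (Set.range r) = ⊤)

include hspan in
theorem forall_mem_of_span (φ : Matrix (Fin 2) (Fin 2) T →ₗ[T] T) (hφ : ∀ g, φ (r g) ∈ J)
    (M : Matrix (Fin 2) (Fin 2) T) : φ M ∈ J := by
  have hle : Submodule.span T (Set.range r) ≤ Submodule.comap φ J :=
    Submodule.span_le.2 (by rintro _ ⟨g, rfl⟩; exact hφ g)
  exact hle (hspan ▸ Submodule.mem_top)

include hc hcu hrel htr hsat hspan

/-- The scalar of a relation lies in `J`. -/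
theorem scalar_mem {ι : Type*} [Fintype ι] (z : ι → ℤ) (g : ι → G)
    (ha : ∀ x, ∑ i, z i • act (g i) x = 0) : π (∑ i, z i • h (g i)) ∈ J := by
  set E : G → R := fun k => ∑ i, z i • h (g i * k) with hE
  set e := E 1 with he
  let J0 : G → Module.End R X := fun k => c k • act k⁻¹
  have hJ0 : ∀ k l x, J0 (k * l) x = J0 l (J0 k x) := fun k l x => by
    simp only [J0, LinearMap.smul_apply, map_smul, _root_.mul_inv_rev, map_mul, Module.End.mul_apply]
    rw [hc, smul_comm]
  have h0 : ∀ k x, E k • x = J0 k (∑ i, z i • J0 (g i) x) := fun k x => by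
    have h1 : ∑ i, z i • act (g i * k) x = 0 := by
      simpa only [map_mul, Module.End.mul_apply] using ha (act k x)
    simp only [hE, Finset.sum_smul, smul_assoc, ← hrel, smul_add, Finset.sum_add_distrib, h1,
      zero_add, map_sum, map_zsmul, ← hJ0]
    rfl
  have h1 : ∀ k x, E k • x = e • J0 k x := fun k x => by
    have h2 := h0 1 x
    rw [← he] at h2
    have h3 : J0 1 = 1 := LinearMap.ext fun y => by
      have h4 := hJ0 1 1 y
      rw [mul_one] at h4
      have hu : c 1 • (act 1⁻¹ (J0 1 y) - y) = 0 := by
        rw [smul_sub, sub_eq_zero]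
        refine h4.symm.trans ?_
        simp only [J0, LinearMap.smul_apply, inv_one, map_one, Module.End.one_apply]
      have h5 := sub_eq_zero.1 (hcu 1 _ hu)
      simpa only [inv_one, map_one, Module.End.one_apply] using h5
    rw [h3, Module.End.one_apply] at h2
    rw [h0, ← h2, map_smul]
  have hcomm : ∀ k l (x : X), e • act (k * l) x = e • act (l * k) x := fun k l x => by
    have h2 : e • J0 k⁻¹ (J0 l⁻¹ x) = e • J0 l⁻¹ (J0 k⁻¹ x) := by
      rw [← h1, ← map_smul (J0 l⁻¹), h1, map_smul]
    simp only [J0, LinearMap.smul_apply, inv_inv, map_smul, ← Module.End.mul_apply, ← map_mul] at h2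
    have hswap : ∀ a b : R, ∀ y : X, e • a • b • y = a • b • e • y := fun a b y => by
      rw [smul_comm e a, smul_comm e b]
    rw [hswap, hswap, smul_comm (c l⁻¹) (c k⁻¹), ← sub_eq_zero, ← smul_sub, ← smul_sub] at h2
    exact sub_eq_zero.1 (hcu _ _ (hcu _ _ h2))
  have hkey : ∀ a b u : G, ∀ x : X, (e * (h (a * b * u) - h (b * a * u))) • x = 0 := by
    intro a b u x
    have e1 : e • act (a * b * u) x = e • act (b * a * u) x := by
      simp only [map_mul _ (_ * _) u, Module.End.mul_apply]
      exact hcomm a b _
    have e2 : e • c (a * b * u) • act (a * b * u)⁻¹ x = e • c (b * a * u) • act (b * a * u)⁻¹ x := by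
      simp only [_root_.mul_inv_rev, map_mul, Module.End.mul_apply, hc]
      rw [smul_comm (c a) (c b)]
      simp only [smul_comm e (c _)]
      simp only [← map_smul]
      have := hcomm b⁻¹ a⁻¹ (c b • c a • c u • x)
      simp only [map_mul, Module.End.mul_apply] at this
      simp only [smul_comm _ e, map_smul] at this ⊢
      simpa only [map_smul] using congrArg (act u⁻¹) this
    rw [mul_smul, sub_smul, smul_sub, ← hrel, ← hrel, smul_add, smul_add, e1, e2, sub_self]
  have hmem : ∀ a b u : G, π e * ((r a * r b - r b * r a) * r u).trace ∈ J := fun a b u => by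
    have h2 := hsat _ (hkey a b u)
    rw [map_mul, map_sub] at h2
    have h3 := Ideal.mul_mem_left J (π e) (sub_mem (htr (a * b * u)) (htr (b * a * u)))
    convert add_mem h2 h3 using 1
    rw [sub_mul, Matrix.trace_sub, map_mul, map_mul, map_mul, map_mul]
    ring
  have hall : ∀ A B U : Matrix (Fin 2) (Fin 2) T, π e * ((A * B - B * A) * U).trace ∈ J := by
    intro A B U
    refine forall_mem_of_span r J hspan
      (π e • ((Matrix.traceLinearMap (Fin 2) T T).comp ((LinearMap.mulRight T U).comp
        (LinearMap.mulRight T B - LinearMap.mulLeft T B)))) (fun a => ?_) A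
    refine forall_mem_of_span r J hspan
      (π e • ((Matrix.traceLinearMap (Fin 2) T T).comp ((LinearMap.mulRight T U).comp
        (LinearMap.mulLeft T (r a) - LinearMap.mulRight T (r a))))) (fun b => ?_) B
    exact forall_mem_of_span r J hspan
      (π e • ((Matrix.traceLinearMap (Fin 2) T T).comp (LinearMap.mulLeft T (r a * r b - r b * r a))))
      (fun u => hmem a b u) U
  have h5 := hall (Matrix.single 0 0 1) (Matrix.single 0 1 1) (Matrix.single 1 0 1)
  simpa [he, hE, Matrix.trace_fin_two, Matrix.mul_apply, Fin.sum_univ_two] using h5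

/-- A relation on the module holds in the representation modulo `J`. -/
theorem entries_mem {ι : Type*} [Fintype ι] (z : ι → ℤ) (g : ι → G)
    (ha : ∀ x, ∑ i, z i • act (g i) x = 0) (a b : Fin 2) :
    (∑ i, z i • r (g i)) a b ∈ J := by
  set M := ∑ i, z i • r (g i)
  have hN : (M * Matrix.single b a 1).trace ∈ J := by
    refine forall_mem_of_span r J hspan
      ((Matrix.traceLinearMap (Fin 2) T T).comp (LinearMap.mulLeft T M)) (fun k => ?_) _
    have h1 := scalar_mem act c hc hcu h hrel r π J htr hsat hspan z (fun i => g i * k) fun x => by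
      simpa only [map_mul, Module.End.mul_apply] using ha (act k x)
    have h2 : (M * r k).trace - π (∑ i, z i • h (g i * k)) ∈ J := by
      simp only [M, Finset.sum_mul, Matrix.trace_sum, smul_mul_assoc, Matrix.trace_smul, map_sum,
        map_zsmul, ← map_mul, ← Finset.sum_sub_distrib, ← smul_sub]
      exact sum_mem fun i _ => zsmul_mem (htr _) _
    simpa using add_mem h2 h1
  rwa [Matrix.trace_mul_single, MulOpposite.op_one, one_smul] at hN

end Relations

open FA.LocalDef in
/-- A group acting through the relations of a module inherits the properties which transfer. -/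
theorem transfer_of_groupAlgebra {A : ValuationSubring (AlgebraicClosure ℚ)}
    {P : ∀ (V : Type) [AddCommGroup V] [Fintype V],
      ((AlgebraicClosure ℚ ≃ₐ[ℚ] AlgebraicClosure ℚ) → V → V) → Prop} (hP : IsTransfer A P)
    {X V : Type} [AddCommGroup X] [Fintype X] [AddCommGroup V] [Fintype V]
    (actX : (AlgebraicClosure ℚ ≃ₐ[ℚ] AlgebraicClosure ℚ) →* Module.End ℤ X)
    (actV : (AlgebraicClosure ℚ ≃ₐ[ℚ] AlgebraicClosure ℚ) →* Module.End ℤ V)
    (hX : P X fun σ x => actX σ x)
    (hker : ∀ a, Finsupp.linearCombination ℤ actX a = 0 → Finsupp.linearCombination ℤ actV a = 0) :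
    P V fun σ x => actV σ x := by
  classical
  let GQ := AlgebraicClosure ℚ ≃ₐ[ℚ] AlgebraicClosure ℚ
  let Θ : (V → GQ →₀ ℤ) →+ (V × X → X) := AddMonoidHom.mk'
    (fun a z => Finsupp.linearCombination ℤ actX (a z.1) z.2)
    fun a b => funext fun z => by simp [map_add]
  let q : (V → GQ →₀ ℤ) →+ V := AddMonoidHom.mk'
    (fun a => ∑ v, Finsupp.linearCombination ℤ actV (a v) v)
    fun a b => by simp [map_add, Finset.sum_add_distrib]
  have hq0 : ∀ a, Θ a = 0 → q a = 0 := fun a h => Finset.sum_eq_zero fun v _ => by
    rw [hker _ (LinearMap.ext fun x => congrFun h (v, x))]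
    rfl
  have hmapD : ∀ {W : Type} [AddCommGroup W] (f : GQ →* Module.End ℤ W) (σ : GQ) (b : GQ →₀ ℤ),
      Finsupp.linearCombination ℤ f (Finsupp.mapDomain (σ * ·) b) =
        f σ * Finsupp.linearCombination ℤ f b := by
    intro W _ f σ b
    rw [Finsupp.linearCombination_mapDomain]
    simp only [Finsupp.linearCombination_apply, Finsupp.sum, Function.comp_apply, map_mul,
      Finset.mul_sum, mul_smul_comm]
  let tr : GQ → (V → GQ →₀ ℤ) → (V → GQ →₀ ℤ) := fun σ a v => Finsupp.mapDomain (σ * ·) (a v)
  have hΘ : ∀ σ a, Θ (tr σ a) = fun z => actX σ (Θ a z) := fun σ a => funext fun z => by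
    show Finsupp.linearCombination ℤ actX (tr σ a z.1) z.2 = _
    rw [hmapD, Module.End.mul_apply]
    rfl
  have hq : ∀ σ a, q (tr σ a) = actV σ (q a) := fun σ a => by
    show ∑ v, _ = actV σ (∑ v, _)
    rw [map_sum]
    exact Finset.sum_congr rfl fun v _ => by rw [hmapD, Module.End.mul_apply]
  let Y := Θ.range
  let _ : Fintype Y := Fintype.ofFinite _
  let actY : GQ → Y → Y := fun σ y => ⟨fun z => actX σ (y.1 z), by
    obtain ⟨a, ha⟩ := y.2
    exact ⟨tr σ a, by rw [hΘ, ha]⟩⟩
  have hY : P Y actY :=
    hP.of_injective (hP.pi hX (V × X)) Y.subtype Subtype.coe_injective fun σ _ x => rfl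
  let π : Y →+ V := AddMonoidHom.liftOfSurjective Θ.rangeRestrict Θ.rangeRestrict_surjective
    ⟨q, fun a ha => hq0 a (congrArg Subtype.val ha)⟩
  have hπ : ∀ a, π (Θ.rangeRestrict a) = q a := fun a =>
    AddMonoidHom.liftOfRightInverse_comp_apply _ _ _ _ a
  refine hP.of_surjective hY π (fun y => ?_) fun σ _ x => ?_
  · refine ⟨Θ.rangeRestrict fun v => if v = y then Finsupp.single 1 1 else 0, ?_⟩
    rw [hπ]
    show ∑ v, _ = y
    rw [Finset.sum_eq_single y (fun v _ hv => by simp [hv]) (by simp)]
    simp
  · obtain ⟨a, rfl⟩ := Θ.rangeRestrict_surjective x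
    have h1 : actY σ (Θ.rangeRestrict a) = Θ.rangeRestrict (tr σ a) :=
      Subtype.ext (hΘ σ a).symm
    rw [h1, hπ, hπ, hq]

open FA.LocalDef in
/-- A group acting through the relations of a module with a model has a model. -/
theorem hasModel_of_groupAlgebra {A : ValuationSubring (AlgebraicClosure ℚ)} {X V : Type}
    [AddCommGroup X] [Fintype X] [AddCommGroup V] [Fintype V]
    (actX : (AlgebraicClosure ℚ ≃ₐ[ℚ] AlgebraicClosure ℚ) →* Module.End ℤ X)
    (actV : (AlgebraicClosure ℚ ≃ₐ[ℚ] AlgebraicClosure ℚ) →* Module.End ℤ V)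
    (hX : HasModel A X fun σ x => actX σ x)
    (hker : ∀ a, Finsupp.linearCombination ℤ actX a = 0 → Finsupp.linearCombination ℤ actV a = 0) :
    HasModel A V fun σ x => actV σ x :=
  transfer_of_groupAlgebra isTransfer_hasModel actX actV hX hker

end FA.FlatModel
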