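import Fermat.Agent.FlatModel.Setup
import Fermat.Agent.FlatModel.Descent
import Fermat.Agent.LocalDef.HopfOfModel
import Fermat.Agent.CurveRed.GoodReduction
import Fermat.Agent.ModField.Congruence.Export
import Fermat.Agent.Level.Series
import Fermat.Agent.JTorsion.GaloisTors

/-!
# Finite stable subgroups of `J₀(N)` have models at places not dividing `N`
-/

set_option autoImplicit false
set_option linter.style.haveILetI false
set_option linter.unusedSectionVars false
set_option synthInstance.maxHeartbeats 400000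
set_option maxHeartbeats 1600000

noncomputable section

namespace FA.FlatModel

open ModularCurve AlgebraicCurve FA.Curve FA.CurveRed FA.ModField FA.LocalDef

local notation "Qb" => AlgebraicClosure ℚ
local notation "GQ" => AlgebraicClosure ℚ ≃ₐ[ℚ] AlgebraicClosure ℚ

theorem order_jq (R : Type) [CommRing R] [Nontrivial R] : (jqModC R).order = -1 := by
  refine le_antisymm (HahnSeries.order_le_of_coeff_ne_zero ?_) ?_
  · rw [coeff_jqModC_neg_one]; exact one_ne_zero
  · by_contra hlt
    exact HahnSeries.coeff_order_eq_zero.not.mpr (jqModC_ne_zero_of_nontrivial R)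
      (coeff_jqModC_of_lt R (not_le.mp hlt))

/-- Residue classes of algebraic numbers are algebraic over the prime field. -/
theorem exists_root_lift {A : ValuationSubring Qb} {p : ℕ} (hp : p.Prime)
    (hA : A.LiesOverPrime p) (b : IsLocalRing.ResidueField A) :
    ∃ a : A, IsLocalRing.residue A a = b ∧
      ∀ σ ∈ A.inertiaSubgroupIn ℚ, σ (a : Qb) = a := by
  classical
  rcases eq_or_ne b 0 with rfl | hb
  · exact ⟨0, map_zero _, fun σ _ => map_zero σ⟩
  haveI := Fact.mk hp
  haveI : CharP (IsLocalRing.ResidueField A) p := residueAt_charP hA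
  letI : Algebra (ZMod p) (IsLocalRing.ResidueField A) := ZMod.algebra _ p
  obtain ⟨x, rfl⟩ := IsLocalRing.residue_surjective b
  have halg : IsAlgebraic (ZMod p) (IsLocalRing.residue A x) := by
    obtain ⟨f, hf0, hf⟩ : ∃ f : Polynomial ℤ, f ≠ 0 ∧ Polynomial.aeval (x : Qb) f = 0 :=
      (IsFractionRing.isAlgebraic_iff ℤ ℚ Qb).mpr
        ((AlgebraicClosure.isAlgebraic ℚ).isAlgebraic _)
    have hg : Polynomial.aeval x f.primPart = 0 := by
      refine Subtype.ext ?_
      have h := hf
      rw [f.eq_C_content_mul_primPart, map_mul, Polynomial.aeval_C, mul_eq_zero] at h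
      have h2 : Polynomial.aeval (x : Qb) f.primPart = 0 := h.resolve_left (by
        simpa using mt Polynomial.content_eq_zero_iff.mp hf0)
      rw [ZeroMemClass.coe_zero, ← h2]
      exact (Polynomial.map_aeval_eq_aeval_map (φ := RingHom.id ℤ) (ψ := A.subtype)
        (RingHom.ext_int _ _) f.primPart x).trans (by rw [Polynomial.map_id]; rfl)
    refine ⟨f.primPart.map (Int.castRingHom (ZMod p)), fun h0 => ?_, ?_⟩
    · have hdvd : Polynomial.C (p : ℤ) ∣ f.primPart := by
        rw [Polynomial.C_dvd_iff_dvd_coeff]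
        intro i
        rw [← ZMod.intCast_zmod_eq_zero_iff_dvd]
        simpa using congrArg (fun q : Polynomial (ZMod p) => q.coeff i) h0
      exact (Nat.prime_iff_prime_int.mp hp).not_isUnit (f.isPrimitive_primPart (p : ℤ) hdvd)
    · refine (Polynomial.map_aeval_eq_aeval_map (φ := Int.castRingHom (ZMod p))
        (ψ := IsLocalRing.residue A) (RingHom.ext_int _ _) f.primPart x).symm.trans ?_
      rw [hg, map_zero]
  set K := IntermediateField.adjoin (ZMod p) {IsLocalRing.residue A x}
  haveI : FiniteDimensional (ZMod p) K := IntermediateField.adjoin.finiteDimensional halg.isIntegral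
  haveI : Finite K := Module.finite_of_finite (ZMod p)
  haveI : Fintype K := Fintype.ofFinite K
  set n := Fintype.card K - 1
  have hcard : 1 < Fintype.card K := Fintype.one_lt_card
  have hn0 : 0 < n := Nat.sub_pos_of_lt hcard
  have hn : ¬ p ∣ n := by
    intro hd
    haveI : CharP K p := (Algebra.charP_iff (ZMod p) K p).1 inferInstance
    obtain ⟨m, -, hm⟩ := FiniteField.card K p
    have h1 : p ∣ Fintype.card K := hm ▸ dvd_pow_self p m.ne_zero
    have h2 : p ∣ Fintype.card K - n := Nat.dvd_sub h1 hd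
    rw [show Fintype.card K - n = 1 by omega] at h2
    exact hp.not_dvd_one h2
  have hbn : IsLocalRing.residue A x ^ n = 1 := by
    have h := FiniteField.pow_card_sub_one_eq_one
      (⟨_, IntermediateField.mem_adjoin_simple_self (ZMod p) _⟩ : K)
      (fun h => hb (congrArg Subtype.val h))
    exact congrArg Subtype.val h
  haveI : NeZero (n : Qb) := ⟨Nat.cast_ne_zero.2 hn0.ne'⟩
  obtain ⟨ζ, hζ⟩ := HasEnoughRootsOfUnity.exists_primitiveRoot Qb n
  have hv : A.valuation ζ = 1 := map_eq_one_of_pow_eq_one A.valuation hn0.ne' hζ.pow_eq_one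
  set z : A := ⟨ζ, (A.valuation_le_one_iff ζ).1 hv.le⟩
  have hzn : z ^ n = 1 := Subtype.ext (by rw [SubmonoidClass.coe_pow]; exact hζ.pow_eq_one)
  have hz : IsPrimitiveRoot (IsLocalRing.residue A z) n := by
    refine ⟨by rw [← map_pow, hzn, map_one], fun l hl => hζ.dvd_of_pow_eq_one l ?_⟩
    refine root_eq_one hp hA hn (by rw [← pow_mul, mul_comm, pow_mul, hζ.pow_eq_one, one_pow]) ?_
    rw [← map_pow, ← sub_eq_zero, ← map_one (IsLocalRing.residue A), ← map_sub,
      residueAt_eq_zero] at hl
    simpa [z] using hl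
  haveI : NeZero n := ⟨hn0.ne'⟩
  obtain ⟨i, -, hi⟩ := hz.eq_pow_of_pow_eq_one hbn
  refine ⟨z ^ i, by rw [map_pow, hi], fun σ hσ => ?_⟩
  rw [SubmonoidClass.coe_pow, map_pow]
  exact congrArg (· ^ i) (inertia_fixes hp hA hn hσ hζ.pow_eq_one)

section Series

variable (N : ℕ) [NeZero N] (L : Type) [Field L] [Algebra ℚ L] [Algebra L ℂ] [IsAlgClosed L]
variable {A : ValuationSubring L} {k : Type} [Field k] [IsAlgClosed k] {π : A →+* k}
  (hπs : Function.Surjective π) (hπ0 : ∀ a : A, π a = 0 ↔ A.valuation a < 1)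
  (h : ReductionInputsAlong A π N)

/-- An automorphism which is trivial on the residue field preserves reductions. -/
theorem red_galAut {σ : L ≃ₐ[ℚ] L} (hσ : InducesOn L π σ (RingHom.id k)) {f : levelField N L}
    {r : modularFunctionFieldFullC k N} (hf : (redOf N L hπs hπ0 h).Red f r) :
    (redOf N L hπs hπ0 h).Red (galAut N L σ • f) r := by
  have hmem : ∀ a : A, σ (a : L) ∈ A := fun a => by
    obtain ⟨b, hb, -⟩ := hσ a
    exact hb ▸ b.2
  let s : A →+* A := ((σ : L →+* L).comp A.subtype).codRestrict A hmem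
  have hs : π.comp s = π := RingHom.ext fun a => by
    obtain ⟨b, hb, hb'⟩ := hσ a
    have : s a = b := Subtype.ext hb.symm
    rw [RingHom.comp_apply, this, hb', RingHom.id_apply]
  have hup : ∀ y : LaurentSeries A, coeffMap (A.subtype : A →+* L) (coeffMap s y) =
      coeffMap (σ : L →+* L) (coeffMap (A.subtype : A →+* L) y) := fun y => by
    rw [coeffMap_coeffMap, coeffMap_coeffMap]
    exact coeffMap_congr (RingHom.ext fun _ => rfl) y
  have hdown : ∀ y : LaurentSeries A, coeffMap π (coeffMap s y) = coeffMap π y := fun y => by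
    rw [coeffMap_coeffMap, hs]
  have key : ∀ y : intSeries A π N, ∃ y' : intSeries A π N,
      toUp A π N y' = galAut N L σ • toUp A π N y ∧ toDown A π N y' = toDown A π N y := by
    intro y
    refine ⟨⟨coeffMap s y, ?_, ?_⟩, Subtype.ext (hup y), Subtype.ext (hdown y)⟩
    · show coeffMap _ (coeffMap s (y : LaurentSeries A)) ∈ upField (L := L) N
      rw [hup]
      exact (galAut N L σ • toUp A π N y).2
    · show coeffMap _ (coeffMap s (y : LaurentSeries A)) ∈ modularFunctionFieldFullC k N
      rw [hdown]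
      exact y.2.2
  obtain ⟨hmf, hr⟩ := hf
  have hq : IsQuot (toUp A π N) (toDown A π N) f r := hr ▸ isQuot_redFun (toUp A π N) (toDown A π N)
    (quotData hπs hπ0 h.choose_spec.1 h.choose_spec.2).u_inj ⟨f, hmf⟩
  obtain ⟨y, y', hy', hfy, hry⟩ := hq
  obtain ⟨z, hz, hzd⟩ := key y
  obtain ⟨z', hz', hzd'⟩ := key y'
  have hq' : IsQuot (toUp A π N) (toDown A π N) (galAut N L σ • f) r :=
    ⟨z, z', hzd'.symm ▸ hy', by rw [hz', hz, ← hfy]; exact (smul_mul' _ _ _).symm,
      by rw [hzd', hzd, hry]⟩
  exact ⟨⟨_, hq'⟩, redFun_eq _ _ (quotData hπs hπ0 h.choose_spec.1 h.choose_spec.2).u_inj hq'⟩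

end Series

variable (N : ℕ) [NeZero N] {ℓ : ℕ} [hℓ : Fact ℓ.Prime] (hℓN : ¬ ℓ ∣ N)
  {A : ValuationSubring Qb} (hA : A.LiesOverPrime ℓ)

include hℓN hA

/-- A finite Galois stable group of classes has a model at every place over `ℓ ∤ N`. -/
theorem hasModel_jZero {V : Type} [AddCommGroup V] [Fintype V] (ι : V →+ JZero N)
    (hι : Function.Injective ι) (act : GQ → V → V)
    (hact : ∀ σ x, ι (act σ x) = σ • ι x) : HasModel A V act := by
  classical
  haveI : Algebra.IsAlgebraic ℚ Qb := AlgebraicClosure.isAlgebraic ℚ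
  letI : Algebra Qb ℂ := (IsAlgClosed.lift (R := ℚ) (S := Qb) (M := ℂ)).toRingHom.toAlgebra
  haveI := residueAt_charP (ℓ := ℓ) hA
  haveI : IsAlgClosed (IsLocalRing.ResidueField A) := FA.CurveRed.isAlgClosed_residueField A
  obtain ⟨hin, hg⟩ := FA.CurveRed.Modular.reductionInputsModL N hℓ.out hℓN A hA
  have hF := isFunctionField_level Qb N
  have hk := isFunctionField_fullC (IsLocalRing.ResidueField A) N
  obtain ⟨Q₀, hQ₀⟩ : ∃ Q₀ : Place (IsLocalRing.ResidueField A)
      (modularFunctionFieldFullC (IsLocalRing.ResidueField A) N),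
      Q₀.ord (redGen N (IsLocalRing.ResidueField A) 0) = -1 := by
    rcases FA.Level.exists_place_of_embedding
        (modularFunctionFieldFullC (IsLocalRing.ResidueField A) N).val with h0 | ⟨v, m, hm, h0⟩
    · exact absurd ((h0 (jBar _ N)).symm.trans (order_jq _)) (by norm_num)
    · have h1 : m * v.ord (jBar (IsLocalRing.ResidueField A) N) = -1 :=
        (h0 (jBar _ N)).symm.trans (order_jq _)
      have hm1 : m = 1 := Int.eq_one_of_dvd_one hm.le ⟨-v.ord (jBar _ N), by linarith⟩
      refine ⟨v, ?_⟩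
      rw [redGen_zero]
      rwa [hm1, one_mul] at h1
  obtain ⟨Γ, hΓ, φ, hint, hsep, hcomul, hT⟩ := exists_generators
    (R := redOf N Qb IsLocalRing.residue_surjective residueAt_eq_zero hin) hF hk
    (T := (fun σ => galAut N Qb σ) '' (A.inertiaSubgroupIn ℚ : Set GQ)) hg
    (by
      rintro _ ⟨σ, hσ, rfl⟩ f r hfr
      exact red_galAut N Qb IsLocalRing.residue_surjective residueAt_eq_zero hin (inducesOn_inertia hσ) hfr)
    (fun b => by
      obtain ⟨a, ha, hfix⟩ := exists_root_lift hℓ.out hA b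
      refine ⟨a, ha, ?_⟩
      rintro _ ⟨σ, hσ, rfl⟩
      exact hfix σ hσ)
    (red_levelGen N Qb IsLocalRing.residue_surjective residueAt_eq_zero hin 0) (levelGen_zero_transcendental N Qb)
    (redGen_zero_transcendental N)
    (finrank_gen_zero N ℓ hℓN Qb IsLocalRing.residue_surjective residueAt_eq_zero hin).le hQ₀
    (by
      rintro _ ⟨σ, hσ, rfl⟩
      exact galAut_levelGen N Qb σ 0)
    ι hι
  refine hasModel_of_generators (fun x => hι (by rw [hact, one_smul]))
    (fun σ τ x => hι (by rw [hact, hact, hact, mul_smul])) hℓ.out hA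
    (fun σ x y => hι (by rw [hact, map_add, map_add, hact, hact, smul_add])) ?_ φ hint hsep
    (fun σ hσ γ x => hT _ ⟨σ, hσ, rfl⟩ (act σ) (hact σ) γ x) hcomul
  obtain ⟨F₀, hF₀, hfix⟩ := FA.JTorsion.exists_field_fix N (Set.range ι) (Set.finite_range _)
  exact ⟨F₀, hF₀, fun σ hσ x => hι (by
    rw [hact]
    exact hfix σ ((IntermediateField.mem_fixingSubgroup_iff F₀ σ).1 hσ) _ ⟨x, rfl⟩)⟩

omit hℓN hA

end FA.FlatModel
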