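import Fermat.Agent.JTorsion.Unramified
import Fermat.Agent.JTorsion.GoodRedAll
import Fermat.Agent.FlatModel.GroupAlg
import Fermat.Agent.FlatModel.HeckeTraces
import Fermat.Agent.FlatModel.Modular

/-!
# Hecke Galois data are flat at primes not dividing the level

The finite levels of a Hecke Galois datum are subquotients of powers of the torsion of the
Jacobian.
-/

set_option autoImplicit false
set_option linter.style.haveILetI false
set_option linter.unusedSectionVars false
set_option synthInstance.maxHeartbeats 100000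
set_option maxHeartbeats 1000000

noncomputable section

namespace FA.FlatModel

open FA.Level ModularCurve IsLocalRing Polynomial FA.JTorsion

local notation "Qb" => AlgebraicClosure ℚ

variable {p : ℕ} {N : ℕ} [NeZero N] {S : Finset ℕ}
  {O : Type} [CommRing O] [IsDomain O] [IsDiscreteValuationRing O]
  [IsAdicComplete (maximalIdeal O) O]
  {θ : CuspForm.heckeAlgebra N 2 (↑S : Set ℕ) →+* ResidueField O}
  {T : Type} [CommRing T] [IsLocalRing T] [IsNoetherianRing T]
  [IsAdicComplete (maximalIdeal T) T] [Algebra O T] [IsLocalHom (algebraMap O T)]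
  [Module.Finite O T] [Module.Free O T]

/-- The residue characteristic lies in the maximal ideal. -/
theorem natCast_mem_maximalIdeal (hpO : (p : O) ∈ maximalIdeal O) : (p : T) ∈ maximalIdeal T := by
  have h := Ideal.mem_map_of_mem (algebraMap O T) hpO
  rw [map_natCast] at h
  have hle : (maximalIdeal O).map (algebraMap O T) ≤ maximalIdeal T :=
    ((local_hom_TFAE (algebraMap O T)).out 0 2).mp (inferInstance : IsLocalHom (algebraMap O T))
  exact hle h

/-- **Finite levels of a Hecke Galois datum inherit the properties of the torsion** which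
transfer. -/
theorem transfer_of_datum [Algebra Qb ℂ] [Fact p.Prime]
    (hpO : (p : O) ∈ maximalIdeal O) (hpS : p ∈ S)
    (H : CuspForm.HeckeGaloisRepDatum N (↑S : Set ℕ) O θ T) {A : ValuationSubring Qb}
    {Q : ∀ (V : Type) [AddCommGroup V] [Fintype V],
      ((Qb ≃ₐ[ℚ] Qb) → V → V) → Prop} (hQ : FA.LocalDef.IsTransfer A Q)
    (hX : ∀ (n : ℕ) [NeZero (p ^ n)] [Fintype (ModN N (↑S : Set ℕ) (p ^ n))],
      Q (ModN N (↑S : Set ℕ) (p ^ n)) fun σ x => galMod N (↑S : Set ℕ) (p ^ n) σ x)
    (I : Ideal T) [hI : Finite (T ⧸ I)] [Fintype (H.ρ.V ⧸ (I • (⊤ : Submodule T H.ρ.V)))] :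
    Q (H.ρ.V ⧸ (I • (⊤ : Submodule T H.ρ.V))) fun σ x => H.ρ.levelAction I σ x :=
  transfer_of_traces (natCast_mem_maximalIdeal hpO) H.π H.ρ (FA.Deform.repBasis H.ρ)
    (span_matrixOf_eq_top H.ρ H.residual_absIrr _) ∅
    (fun ℓ hℓ hℓN hℓS _ B hB τ hτ =>
      trace_det_frobenius H (FA.Deform.repBasis H.ρ) ℓ hℓ hℓN hℓS B hB τ hτ) hQ hX I

/-- **Flatness at a prime not dividing the level.** -/
theorem isFlatAt_of_datum [Finite (ResidueField O)] (hp : p.Prime)
    (hpO : (p : O) ∈ maximalIdeal O) (hpN : ¬ p ∣ N) (hpS : p ∈ S)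
    (H : CuspForm.HeckeGaloisRepDatum N (↑S : Set ℕ) O θ T) : H.ρ.IsFlatAt p := by
  classical
  obtain ⟨alg⟩ := exists_algebra_qbar
  letI := alg
  haveI : Fact p.Prime := ⟨hp⟩
  obtain ⟨A, hA⟩ := FA.Deform.exists_liesOverPrime hp
  haveI hres : Finite (ResidueField T) :=
    Finite.of_surjective (fun a : ResidueField O => ResidueField.map (algebraMap O T) a) fun y => by
      obtain ⟨a, ha⟩ := H.residue_surjective y
      exact ⟨residue O a, (ResidueField.map_residue (algebraMap O T) a).trans ha⟩
  exact FA.LocalDef.isFlatAt_of_hasModel hp hA H.ρ hres fun I hI ft =>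
    transfer_of_datum hpO hpS H FA.LocalDef.isTransfer_hasModel
      (fun n _ _ => hasModel_jZero N hpN hA (toTors N (↑S : Set ℕ) (p ^ n))
        (toTors_injective N _ _) _ fun σ x => toTors_galMod N (↑S : Set ℕ) (p ^ n) σ x) I

end FA.FlatModel
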