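import Fermat.Agent.FlatModel.Step

/-!
# Nonspecial divisors avoiding a finite set

For finitely many divisors of degree zero there is an effective divisor of degree `g`, supported
outside a given finite set, all whose translates have a single section.
-/

set_option autoImplicit false
set_option linter.style.haveILetI false
set_option linter.unusedSectionVars false

noncomputable section

namespace FA.FlatModel

open AlgebraicCurve FA.Curve

variable {K F : Type*} [Field K] [IsAlgClosed K] [Field F] [Algebra K F]
  (hF : IsFunctionField K F)

include hF

/-- If all points of a finite set are not base points of `D + v`, they impose independent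
conditions. -/
theorem ell_add_sum (D : Divisor K F) (S : Finset (Place K F))
    (hS : ∀ v ∈ S, ell D < ell (D + Finsupp.single v 1)) :
    ell D + S.card ≤ ell (D + ∑ v ∈ S, Finsupp.single v 1) := by
  classical
  induction S using Finset.induction with
  | empty => simp
  | @insert v S hv ih =>
    have h1 := ih fun w hw => hS w (Finset.mem_insert_of_mem hw)
    have hsum0 : (0 : Divisor K F) ≤ ∑ w ∈ S, Finsupp.single w 1 :=
      Finset.sum_nonneg fun w _ => Finsupp.single_nonneg.2 zero_le_one
    have hSv : (∑ w ∈ S, Finsupp.single w (1 : ℤ)) v = 0 := by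
      rw [Finsupp.finsetSum_apply]
      exact Finset.sum_eq_zero fun w hw =>
        Finsupp.single_eq_of_ne fun h => hv (h ▸ hw)
    haveI := finite_riemannRochSpace hF (D + Finsupp.single v 1)
    haveI := finite_riemannRochSpace hF (D + ∑ w ∈ insert v S, Finsupp.single w 1)
    obtain ⟨f, hf, hfD⟩ : ∃ f ∈ riemannRochSpace (D + Finsupp.single v 1),
        f ∉ riemannRochSpace D := by
      by_contra hno
      push Not at hno
      haveI := finite_riemannRochSpace hF D
      have h2 := Submodule.finrank_mono (show riemannRochSpace (D + Finsupp.single v 1) ≤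
        riemannRochSpace D from hno)
      have h3 := hS v (Finset.mem_insert_self v S)
      simp only [ell] at h3
      omega
    have hle : riemannRochSpace (D + ∑ w ∈ S, Finsupp.single w 1) <
        riemannRochSpace (D + ∑ w ∈ insert v S, Finsupp.single w 1) := by
      rw [Finset.sum_insert hv]
      refine lt_of_le_of_ne (riemannRochSpace_mono (add_le_add le_rfl
        (le_add_of_nonneg_left (Finsupp.single_nonneg.2 zero_le_one)))) fun he => hfD ?_
      have hf' : f ∈ riemannRochSpace (D + ∑ w ∈ S, Finsupp.single w 1) := by
        rw [he]
        exact riemannRochSpace_mono (add_le_add le_rfl (le_add_of_nonneg_right hsum0)) hf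
      rw [FA.Curve.mem_riemannRochSpace] at hf hf' ⊢
      intro w
      rcases eq_or_ne w v with rfl | hw
      · have := hf' w
        rw [Finsupp.add_apply, hSv, add_zero] at this
        exact this
      · simpa [Finsupp.single_eq_of_ne hw] using hf w
    have h4 := Submodule.finrank_lt_finrank_of_lt hle
    simp only [ell] at h1 ⊢
    rw [Finset.card_insert_of_notMem hv]
    push_cast
    omega

/-- Outside a finite set a new point lowers the dimension of a special divisor relatively. -/
theorem finite_growing (D : Divisor K F)
    (hD : Divisor.degree D + 1 - ell D < FA.Curve.genus K F) :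
    {v : Place K F | ell D < ell (D + Finsupp.single v 1)}.Finite := by
  classical
  by_contra hinf
  obtain ⟨c, hc⟩ := exists_threshold hF
  obtain ⟨S, hSsub, hScard⟩ :=
    Set.Infinite.exists_subset_card_eq hinf (c - Divisor.degree D).toNat
  have h1 := ell_add_sum hF D S fun v hv => hSsub hv
  have hd : Divisor.degree (D + ∑ v ∈ S, Finsupp.single v 1) = Divisor.degree D + S.card := by
    rw [map_add, map_sum]
    simp [hF.deg_eq_one]
  have h2 := hc _ (by rw [hd]; omega)
  rw [hd] at h2
  omega

/-- An effective divisor of degree `g` avoiding a finite set whose translates have one section. -/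
theorem exists_general {W : Type*} [Finite W] (w : W → Divisor K F)
    (hw : ∀ i, Divisor.degree (w i) = 0) {Bad : Set (Place K F)} (hBad : Bad.Finite) :
    ∃ E : Divisor K F, 0 ≤ E ∧ Divisor.degree E = FA.Curve.genus K F ∧
      (∀ v ∈ E.support, v ∉ Bad) ∧ ∀ i, ell (E + w i) ≤ 1 := by
  classical
  suffices h : ∀ n : ℕ, n ≤ FA.Curve.genus K F → ∃ E : Divisor K F, 0 ≤ E ∧
      Divisor.degree E = n ∧ (∀ v ∈ E.support, v ∉ Bad) ∧
      ∀ i, (n : ℤ) ≤ Divisor.degree (E + w i) + 1 - ell (E + w i) by
    obtain ⟨E, h1, h2, h3, h4⟩ := h _ le_rfl
    refine ⟨E, h1, h2, h3, fun i => ?_⟩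
    have := h4 i
    rw [map_add, h2, hw] at this
    omega
  intro n
  induction n with
  | zero =>
    intro _
    refine ⟨0, le_rfl, by simp, by simp, fun i => ?_⟩
    have := ell_le_max hF (0 + w i)
    rw [map_add, map_zero, hw] at this ⊢
    omega
  | succ n ih =>
    intro hn
    obtain ⟨E, h1, h2, h3, h4⟩ := ih (by omega)
    have hfin : ∀ i, {v : Place K F | ¬ ((n : ℤ) + 1 ≤
        Divisor.degree (E + w i + Finsupp.single v 1) + 1 - ell (E + w i + Finsupp.single v 1))}.Finite := by
      intro i
      have hd : ∀ v : Place K F, Divisor.degree (E + w i + Finsupp.single v 1) =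
          Divisor.degree (E + w i) + 1 := fun v => by simp [hF.deg_eq_one]
      rcases lt_or_ge (Divisor.degree (E + w i) + 1 - ell (E + w i)) ((n : ℤ) + 1) with hlt | hge
      · refine (finite_growing hF (E + w i) (by omega)).subset fun v hv => ?_
        simp only [Set.mem_setOf_eq, hd] at hv ⊢
        have := h4 i
        omega
      · refine Set.Finite.subset Set.finite_empty fun v hv => absurd ?_ hv
        have := defect_mono hF (D := E + w i) (D' := E + w i + Finsupp.single v 1)
          (le_add_of_nonneg_right (Finsupp.single_nonneg.2 zero_le_one))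
        simp only [defect] at this
        omega
    haveI := Fintype.ofFinite W
    haveI := infinite_places hF
    obtain ⟨v, hv⟩ := ((Set.finite_iUnion hfin).union hBad).infinite_compl.nonempty
    simp only [Set.mem_compl_iff, Set.mem_union, Set.mem_iUnion, Set.mem_setOf_eq, not_or,
      not_exists, not_not] at hv
    refine ⟨E + Finsupp.single v 1, add_nonneg h1 (Finsupp.single_nonneg.2 zero_le_one), ?_, ?_,
      fun i => ?_⟩
    · rw [map_add, h2, Divisor.degree_single, hF.deg_eq_one]; push_cast; ring
    · intro u hu
      rcases Finset.mem_union.1 (Finsupp.support_add hu) with h | h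
      · exact h3 u h
      · rw [Finset.mem_singleton.1 (Finsupp.support_single_subset h)]; exact hv.2
    · rw [show E + Finsupp.single v 1 + w i = E + w i + Finsupp.single v 1 by abel]
      exact_mod_cast hv.1 i

end FA.FlatModel
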