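import Fermat.Agent.FlatModel.Step

/-!
# Echelon coordinates of lifted subspaces and congruence rings
-/

set_option autoImplicit false
set_option linter.style.haveILetI false
set_option linter.unusedSectionVars false

noncomputable section

namespace FA.FlatModel

open AlgebraicCurve FA.Curve FA.CurveRed

section Alg

variable {K k : Type*} [Field K] [Field k] {A : ValuationSubring K} (π : A →+* k)

/-- Functions with values in `A` and constant residue. -/
def congAlg (P : Type*) : Subalgebra A (P → K) where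
  carrier := {f | (∀ p, f p ∈ A) ∧ ∀ p q (hp : f p ∈ A) (hq : f q ∈ A), π ⟨f p, hp⟩ = π ⟨f q, hq⟩}
  mul_mem' {f g} hf hg := ⟨fun p => mul_mem (hf.1 p) (hg.1 p), fun p q hp hq => by
    rw [show (⟨(f * g) p, hp⟩ : A) = ⟨f p, hf.1 p⟩ * ⟨g p, hg.1 p⟩ from rfl,
      show (⟨(f * g) q, hq⟩ : A) = ⟨f q, hf.1 q⟩ * ⟨g q, hg.1 q⟩ from rfl, map_mul, map_mul,
      hf.2 p q _ (hf.1 q), hg.2 p q _ (hg.1 q)]⟩
  add_mem' {f g} hf hg := ⟨fun p => add_mem (hf.1 p) (hg.1 p), fun p q hp hq => by
    rw [show (⟨(f + g) p, hp⟩ : A) = ⟨f p, hf.1 p⟩ + ⟨g p, hg.1 p⟩ from rfl,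
      show (⟨(f + g) q, hq⟩ : A) = ⟨f q, hf.1 q⟩ + ⟨g q, hg.1 q⟩ from rfl, map_add, map_add,
      hf.2 p q _ (hf.1 q), hg.2 p q _ (hg.1 q)]⟩
  algebraMap_mem' a := ⟨fun _ => a.2, fun _ _ _ _ => rfl⟩

variable {π}

theorem isUnit_of_map_ne_zero (hπ0 : ∀ a : A, π a = 0 ↔ A.valuation a < 1) {a : A} (h : π a ≠ 0) :
    IsUnit a := (A.valuation_eq_one_iff a).2 <|
  le_antisymm (A.valuation_le_one a) (not_lt.1 fun hlt => h ((hπ0 a).2 hlt))

/-- A subalgebra of functions with constant residue is a congruence ring. -/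
def locData (hπs : Function.Surjective π) (hπ0 : ∀ a : A, π a = 0 ↔ A.valuation a < 1) {P : Type*}
    [Finite P] (p₀ : P) (S : Subalgebra A (P → K)) (hS : S ≤ congAlg π P) :
    LocData K k π P S where
  ev p := (Pi.evalRingHom (fun _ : P => K) p).comp (S.val : S →+* (P → K))
  res := π.comp (((Pi.evalRingHom (fun _ : P => K) p₀).comp (S.val : S →+* (P → K))).codRestrict
    A.toSubring fun s => (hS s.2).1 p₀)
  res_surjective c := by
    obtain ⟨a, rfl⟩ := hπs c
    exact ⟨algebraMap A S a, rfl⟩
  const := algebraMap A S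
  ev_const _ _ := rfl
  res_const _ := rfl
  ev_res p s := ⟨(hS s.2).1 p, (hS s.2).2 p p₀ _ _⟩
  isUnit s hs := by
    classical
    haveI := Fintype.ofFinite P
    set q : Polynomial A := ∏ p, (Polynomial.X - Polynomial.C (⟨(s : P → K) p, (hS s.2).1 p⟩ : A))
    have hq : Polynomial.aeval s q = 0 := Subtype.ext (funext fun p => by
      have e : ((Polynomial.aeval s q : S) : P → K) p =
          Polynomial.eval₂ (algebraMap A K) ((s : P → K) p) q := by
        rw [Polynomial.aeval_def]
        exact Polynomial.hom_eval₂ q (algebraMap A S)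
          ((Pi.evalRingHom (fun _ : P => K) p).comp (S.val : S →+* (P → K))) s
      rw [e, Polynomial.eval₂_finsetProd]
      exact Finset.prod_eq_zero (Finset.mem_univ p) (by
        rw [Polynomial.eval₂_sub, Polynomial.eval₂_X, Polynomial.eval₂_C]
        exact sub_self _))
    have hu : IsUnit (q.coeff 0) := isUnit_of_map_ne_zero hπ0 (by
      rw [Polynomial.coeff_zero_eq_eval_zero, Polynomial.eval_prod, map_prod]
      refine Finset.prod_ne_zero_iff.2 fun p _ => ?_
      rw [Polynomial.eval_sub, Polynomial.eval_X, Polynomial.eval_C, zero_sub, map_neg, neg_ne_zero,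
        (hS s.2).2 p p₀ ((hS s.2).1 p) ((hS s.2).1 p₀)]
      exact hs)
    rw [← Polynomial.X_mul_divX_add q, map_add, map_mul, Polynomial.aeval_X,
      Polynomial.aeval_C, add_eq_zero_iff_eq_neg] at hq
    refine isUnit_of_mul_isUnit_left (y := Polynomial.aeval s q.divX) ?_
    rw [hq]
    exact (hu.map (algebraMap A S)).neg

theorem locData_ev (hπs : Function.Surjective π) (hπ0 : ∀ a : A, π a = 0 ↔ A.valuation a < 1)
    {P : Type*} [Finite P] (p₀ : P) (S : Subalgebra A (P → K)) (hS : S ≤ congAlg π P) (p : P)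
    (s : S) : (locData hπs hπ0 p₀ S hS).ev p s = (s : P → K) p := rfl

end Alg

section Echelon

variable {K F : Type*} [Field K] [Field F] [Algebra K F] {ι : Type*} [Fintype ι] {d : ℕ}

theorem exists_pivots {k : Type*} [Field k] (M : Fin d → ι → k) (hM : LinearIndependent k M) :
    ∃ J : Fin d → ι, IsUnit (Matrix.of fun m m' => M m (J m') : Matrix (Fin d) (Fin d) k).det := by
  classical
  obtain ⟨κ, a, -, hsp, hli⟩ := exists_linearIndependent' (K := k) fun i m => M m i
  have htop : Submodule.span k (Set.range fun i m => M m i) = ⊤ := by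
    have h := LinearIndependent.rank_matrix (M := Matrix.of M) hM
    refine Submodule.eq_top_of_finrank_eq ?_
    rw [Matrix.rank_eq_finrank_span_cols] at h
    rw [Module.finrank_fintype_fun_eq_card, ← h]
    rfl
  rw [htop] at hsp
  let B : Module.Basis κ k (Fin d → k) := Module.Basis.mk hli hsp.ge
  let e : Fin d ≃ κ := (Pi.basisFun k (Fin d)).indexEquiv B
  refine ⟨a ∘ e, ?_⟩
  rw [← Matrix.det_transpose, ← Matrix.isUnit_iff_isUnit_det,
    ← Matrix.linearIndependent_rows_iff_isUnit]
  exact hli.comp e e.injective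

/-- The vectors of an echelon basis are unique. -/
theorem echelon_unique {z : ι → F} (hz : LinearIndependent K z) {a b : Fin d → ι → K}
    {J : Fin d → ι} (ha : ∀ m m', a m (J m') = if m = m' then 1 else 0)
    (hb : ∀ m m', b m (J m') = if m = m' then 1 else 0)
    (hle : ∀ m, ∑ i, b m i • z i ∈ Submodule.span K (Set.range fun n => ∑ i, a n i • z i)) :
    a = b := by
  classical
  funext m i
  obtain ⟨c, hc⟩ := (Submodule.mem_span_range_iff_exists_fun K).1 (hle m)
  have h1 : (fun i => ∑ n, c n * a n i) = b m := funext fun i => by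
    have h2 : ∑ i, (∑ n, c n * a n i - b m i) • z i = 0 := by
      simp only [sub_smul, Finset.sum_sub_distrib, Finset.sum_smul, mul_smul]
      rw [Finset.sum_comm, sub_eq_zero, ← hc]
      simp [Finset.smul_sum]
    exact sub_eq_zero.1 (Fintype.linearIndependent_iff.1 hz _ h2 i)
  have h3 : ∀ m', c m' = if m = m' then 1 else 0 := fun m' => by
    have h4 := congrFun h1 (J m')
    rw [hb] at h4
    rw [← h4, Finset.sum_eq_single m' (fun n _ hn => by rw [ha, if_neg hn, mul_zero])
      (fun h => absurd (Finset.mem_univ m') h), ha, if_pos rfl, mul_one]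
  rw [← h1]
  simp [h3]

end Echelon

end FA.FlatModel
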