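import Fermat.Agent.FlatModel.RR
import Fermat.Agent.FlatModel.Echelon
import Fermat.Prelude.Def_AlgebraicCurve_BaseChangeGalois

/-!
# Coefficients at a pole

Let `x` have a simple pole at `Q` after reduction and degree not dropping.  Then one place `P`
over `Q` is a pole of `x`, and the coefficients in powers of `x⁻¹` at `P` of the functions of
`L(m · (x)_∞)` are integral on integral functions, detect their reductions and commute with the
automorphisms fixing `x`.
-/

set_option autoImplicit false
set_option linter.style.haveILetI false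
set_option linter.unusedSectionVars false

noncomputable section

namespace FA.FlatModel

open AlgebraicCurve FA.Curve FA.CurveRed FA.ModField

variable {K F k Fk : Type*} [Field K] [IsAlgClosed K] [Field F] [Algebra K F] [Field k]
  [IsAlgClosed k] [Field Fk] [Algebra k Fk] {A : ValuationSubring K}
  {R : Reduction K F k Fk A} (hF : IsFunctionField K F) (hk : IsFunctionField k Fk)

include hF hk

/-- Specialisation of the polar divisor. -/
theorem push_poleDiv {x : F} {xb : Fk} (hx : R.Red x xb) (hxK : Transcendental K x)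
    (hxb : Transcendental k xb)
    (hdeg : Module.finrank (IntermediateField.adjoin K {x}) F ≤
      Module.finrank (IntermediateField.adjoin k {xb}) Fk) :
    R.push (poleDiv hF x) = poleDiv hk xb := by
  classical
  have hx0 : xb ≠ 0 := fun h => hxb (h ▸ isAlgebraic_zero)
  have hle : poleDiv hk xb ≤ R.push (poleDiv hF x) := by
    refine Finsupp.le_def.2 fun Q => ?_
    have h0 : (0 : Divisor K F) ≤ divOf hF x + poleDiv hF x := Finsupp.le_def.2 fun P => by
      simp only [Finsupp.coe_zero, Pi.zero_apply, Finsupp.add_apply, divOf_apply, poleDiv_apply]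
      omega
    have h1 := Finsupp.le_def.1 (Reduction.push_nonneg (R := R) h0) Q
    have h2 := Finsupp.le_def.1 (Reduction.push_nonneg (R := R) (poleDiv_nonneg hF x)) Q
    rw [Reduction.push_add, Finsupp.add_apply, Reduction.push_divOf hF hx hx0] at h1
    simp only [Finsupp.coe_zero, Pi.zero_apply] at h1 h2
    rw [poleDiv_apply]
    omega
  have hd : Divisor.degree (R.push (poleDiv hF x) - poleDiv hk xb) ≤ 0 := by
    rw [map_sub, Reduction.degree_push hF hk, degree_poleDiv hF hxK, degree_poleDiv hk hxb]
    omega
  refine Finsupp.ext fun Q => ?_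
  have hnn : 0 ≤ R.push (poleDiv hF x) - poleDiv hk xb := sub_nonneg.2 hle
  have h0 : Divisor.degree (R.push (poleDiv hF x) - poleDiv hk xb) = 0 :=
    le_antisymm hd (degree_nonneg hk hnn)
  rw [degree_eq_sum hk] at h0
  by_contra hne
  have h3 := (Finset.sum_eq_zero_iff_of_nonneg fun Q _ => Finsupp.le_def.1 hnn Q).1 h0 Q
    (Finsupp.mem_support_iff.2 (by rw [Finsupp.sub_apply]; exact sub_ne_zero.2 hne))
  rw [Finsupp.sub_apply] at h3
  omega

/-- The pole over a simple pole. -/
theorem exists_pole {x : F} {xb : Fk} (hx : R.Red x xb) (hxK : Transcendental K x)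
    (hxb : Transcendental k xb)
    (hdeg : Module.finrank (IntermediateField.adjoin K {x}) F ≤
      Module.finrank (IntermediateField.adjoin k {xb}) Fk)
    {Q : Place k Fk} (hQ : Q.ord xb = -1) :
    ∃ P : Place K F, R.spl P = Q ∧ P.ord x = -1 ∧ ∀ P', R.spl P' = Q → P' ≠ P → P'.ord x = 0 := by
  classical
  have hx0 : xb ≠ 0 := fun h => hxb (h ▸ isAlgebraic_zero)
  have hB : R.push (poleDiv hF x) Q = 1 := by
    rw [push_poleDiv hF hk hx hxK hxb hdeg, poleDiv_apply, hQ]; rfl
  have hZ : (0 : Divisor K F) ≤ divOf hF x + poleDiv hF x := Finsupp.le_def.2 fun P => by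
    simp only [Finsupp.coe_zero, Pi.zero_apply, Finsupp.add_apply, divOf_apply, poleDiv_apply]
    omega
  have hZQ : R.push (divOf hF x + poleDiv hF x) Q = 0 := by
    rw [Reduction.push_add, Finsupp.add_apply, Reduction.push_divOf hF hx hx0, hB, hQ]; rfl
  have hnopos : ∀ P', R.spl P' = Q → P'.ord x ≤ 0 := by
    intro P' hP'
    have hle : Finsupp.single P' ((divOf hF x + poleDiv hF x) P') ≤ divOf hF x + poleDiv hF x := by
      refine Finsupp.le_def.2 fun w => ?_
      rcases eq_or_ne w P' with rfl | hw
      · rw [Finsupp.single_eq_same]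
      · rw [Finsupp.single_eq_of_ne hw]; exact Finsupp.le_def.1 hZ w
    have h := Finsupp.le_def.1 (Reduction.push_nonneg (R := R) (sub_nonneg.2 hle)) Q
    rw [push_sub, Finsupp.sub_apply, hZQ, Reduction.push_single, hP', Finsupp.single_eq_same] at h
    have h2 := Finsupp.le_def.1 hZ P'
    simp only [Finsupp.coe_zero, Pi.zero_apply, Finsupp.add_apply, divOf_apply, poleDiv_apply] at h h2
    omega
  obtain ⟨P, hP, hPQ⟩ : ∃ P ∈ (poleDiv hF x).support, R.spl P = Q := by
    by_contra hno
    push Not at hno
    rw [Reduction.push_apply, Finset.sum_eq_zero (fun P hP => if_neg (hno P hP))] at hB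
    exact zero_ne_one hB
  have huniq : ∀ P', R.spl P' = Q → P' ≠ P → P'.ord x = 0 ∧ P.ord x = -1 := by
    intro P' hP' hne
    have hle : Finsupp.single P (poleDiv hF x P) + Finsupp.single P' (poleDiv hF x P') ≤
        poleDiv hF x := by
      refine Finsupp.le_def.2 fun w => ?_
      rw [Finsupp.add_apply]
      rcases eq_or_ne w P with rfl | hw
      · rw [Finsupp.single_eq_same, Finsupp.single_eq_of_ne (Ne.symm hne), add_zero]
      · rw [Finsupp.single_eq_of_ne hw, zero_add]
        rcases eq_or_ne w P' with rfl | hw'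
        · rw [Finsupp.single_eq_same]
        · rw [Finsupp.single_eq_of_ne hw']; exact Finsupp.le_def.1 (poleDiv_nonneg hF x) w
    have h := Finsupp.le_def.1 (Reduction.push_nonneg (R := R) (sub_nonneg.2 hle)) Q
    rw [push_sub, Finsupp.sub_apply, hB, Reduction.push_add, Reduction.push_single,
      Reduction.push_single, hPQ, hP', Finsupp.add_apply, Finsupp.single_eq_same,
      Finsupp.single_eq_same] at h
    have h2 := hnopos P' hP'
    have h3 := Finsupp.mem_support_iff.1 hP
    simp only [Finsupp.coe_zero, Pi.zero_apply, poleDiv_apply] at h h3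
    omega
  refine ⟨P, hPQ, ?_, fun P' h1 h2 => (huniq P' h1 h2).1⟩
  have hle : Finsupp.single P (poleDiv hF x P) ≤ poleDiv hF x := Finsupp.le_def.2 fun w => by
    rcases eq_or_ne w P with rfl | hw
    · rw [Finsupp.single_eq_same]
    · rw [Finsupp.single_eq_of_ne hw]; exact Finsupp.le_def.1 (poleDiv_nonneg hF x) w
  have h := Finsupp.le_def.1 (Reduction.push_nonneg (R := R) (sub_nonneg.2 hle)) Q
  rw [push_sub, Finsupp.sub_apply, hB, Reduction.push_single, hPQ, Finsupp.single_eq_same] at h
  have h3 := Finsupp.mem_support_iff.1 hP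
  simp only [Finsupp.coe_zero, Pi.zero_apply, poleDiv_apply] at h h3
  omega

/-- **Coefficient functionals.** -/
theorem exists_coeffMaps {x : F} {xb : Fk} (hx : R.Red x xb) (hxK : Transcendental K x)
    (hxb : Transcendental k xb)
    (hdeg : Module.finrank (IntermediateField.adjoin K {x}) F ≤
      Module.finrank (IntermediateField.adjoin k {xb}) Fk)
    {Q : Place k Fk} (hQ : Q.ord xb = -1) (m : ℕ) {T : Set (SemilinearAut K F)}
    (hTx : ∀ τ ∈ T, τ • x = x)
    (hTspl : ∀ τ ∈ T, ∀ P : Place K F, R.spl (τ • P) = R.spl P) :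
    ∃ (d : ℕ) (co : Fin d → (riemannRochSpace (m • poleDiv hF x) →ₗ[K] K)),
      (∀ (f : riemannRochSpace (m • poleDiv hF x)) r, R.Red (f : F) r → ∀ n, co n f ∈ A) ∧
      (∀ (f : riemannRochSpace (m • poleDiv hF x)) r, R.Red (f : F) r →
        (∀ n, A.valuation (co n f) < 1) → r = 0) ∧
      ∀ τ ∈ T, ∀ f g : riemannRochSpace (m • poleDiv hF x), (g : F) = τ • (f : F) →
        ∀ n, co n g = SemilinearAut.baseAut τ (co n f) := by
  classical
  obtain ⟨P, hPQ, hPx, hoth⟩ := exists_pole hF hk hx hxK hxb hdeg hQ
  have hxb0 : xb ≠ 0 := fun h => hxb (h ▸ isAlgebraic_zero)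
  have hxne : x ≠ 0 := hx.ne_zero hxb0
  set u := x⁻¹ with hu
  have hu0 : u ≠ 0 := inv_ne_zero hxne
  have hPu : P.ord u = 1 := by rw [hu, P.ord_inv, hPx]; rfl
  have hur : R.Red u xb⁻¹ := by
    obtain ⟨t, ht, hte⟩ := Reduction.mem_of_mul_mem hx hxb0 (g := u)
      (by rw [hu, mul_inv_cancel₀ hxne]; exact Reduction.red_one)
    rwa [eq_inv_of_mul_eq_one_right hte] at ht
  set D := m • poleDiv hF x
  set Db := m • poleDiv hk xb
  have hDb : R.push D = Db := by
    simp only [D, Db]
    rw [show R.push (m • poleDiv hF x) = m • R.push (poleDiv hF x) from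
      map_nsmul (Finsupp.mapDomain.addMonoidHom R.spl) m _, push_poleDiv hF hk hx hxK hxb hdeg]
  have hDP : D P = m := by simp [D, poleDiv_apply, hPx]
  have hDQ : Db Q = m := by simp [Db, poleDiv_apply, hQ]
  set d := (Divisor.degree Db).toNat + 1
  let g : F → F := fun f => f * u ^ m
  let rem : ℕ → F → (ℕ → K) → F := fun n f c => g f - ∑ i ∈ Finset.range n, c i • u ^ i
  have hord : ∀ n : ℕ, AtLeast P n (u ^ n) := fun n => Or.inr (by rw [place_ord_pow, hPu]; simp)
  have hg0 : ∀ f ∈ riemannRochSpace D, AtLeast P 0 (g f) := fun f hf => by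
    have := (FA.Curve.mem_riemannRochSpace.1 hf P).mul (hord m)
    rwa [hDP, neg_add_cancel] at this
  -- existence, with integrality on reductions
  have hex : ∀ n : ℕ, ∀ f ∈ riemannRochSpace D, ∃ c : ℕ → K, AtLeast P n (rem n f c) ∧
      ∀ r, R.Red f r → (∀ i < n, c i ∈ A) ∧ ∃ s, R.Red (rem n f c * x ^ n) s ∧
        Reduction.NoPole R Q (rem n f c * x ^ n) := by
    intro n
    induction n with
    | zero =>
      intro f hf
      refine ⟨0, by simpa [rem] using hg0 f hf, fun r hr => ⟨by simp, r * xb⁻¹ ^ m, ?_, ?_⟩⟩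
      · simpa [rem, g] using hr.mul (hur.pow m)
      · intro P' hP'
        simp only [rem, g, Finset.range_zero, Finset.sum_empty, sub_zero, pow_zero, mul_one]
        rcases eq_or_ne P' P with rfl | hne
        · exact hg0 f hf
        · have h1 := (FA.Curve.mem_riemannRochSpace.1 hf P').mul (atLeast_ord (v := P') (u ^ m))
          refine h1.mono ?_
          have h4 : D P' = 0 := by simp [D, poleDiv_apply, hoth P' hP' hne]
          rw [h4, place_ord_pow, hu, P'.ord_inv, hoth P' hP' hne]
          simp
    | succ n ih =>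
      intro f hf
      obtain ⟨c, hc, hcr⟩ := ih f hf
      have h0 : AtLeast P 0 (rem n f c * x ^ n) := by
        have := hc.mul (atLeast_ord (v := P) (x ^ n))
        refine this.mono ?_
        rw [place_ord_pow, hPx]; simp
      obtain ⟨a, ha⟩ := exists_hasValue hF h0
      set c' : ℕ → K := fun i => if i = n then a else c i
      have hsum : ∑ i ∈ Finset.range n, c' i • u ^ i = ∑ i ∈ Finset.range n, c i • u ^ i :=
        Finset.sum_congr rfl fun i hi => by
          simp only [c', if_neg (Finset.mem_range.1 hi).ne]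
      have hrem : rem (n + 1) f c' = (rem n f c * x ^ n - algebraMap K F a) * u ^ n := by
        simp only [rem, Finset.sum_range_succ, hsum, c', if_pos]
        rw [sub_mul, mul_assoc, ← mul_pow, hu, mul_inv_cancel₀ hxne, one_pow, mul_one,
          ← Algebra.smul_def, sub_add_eq_sub_sub]
      refine ⟨c', ?_, fun r hr => ?_⟩
      · rw [hrem, Nat.cast_add, Nat.cast_one, add_comm]
        exact AtLeast.mul ha (hord n)
      · obtain ⟨hcA, s, hs, hnp⟩ := hcr r hr
        obtain ⟨haA, -⟩ := Reduction.hasValue_red hF hs hnp hPQ ha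
        refine ⟨fun i hi => ?_, (s - algebraMap k Fk (R.π ⟨a, haA⟩)) * xb, ?_, ?_⟩
        · simp only [c']
          split_ifs with h
          · exact haA
          · exact hcA i (by omega)
        · have e : rem (n + 1) f c' * x ^ (n + 1) = (rem n f c * x ^ n - algebraMap K F a) * x := by
            rw [hrem, pow_succ, mul_assoc, ← mul_assoc (u ^ n), ← mul_pow, hu,
              inv_mul_cancel₀ hxne, one_pow, one_mul]
          rw [e]
          exact (hs.sub (Reduction.red_const ⟨a, haA⟩)).mul hx
        · intro P' hP'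
          have e : rem (n + 1) f c' * x ^ (n + 1) = (rem n f c * x ^ n - algebraMap K F a) * x := by
            rw [hrem, pow_succ, mul_assoc, ← mul_assoc (u ^ n), ← mul_pow, hu,
              inv_mul_cancel₀ hxne, one_pow, one_mul]
          rw [e]
          rcases eq_or_ne P' P with rfl | hne
          · have := AtLeast.mul ha (atLeast_ord (v := P') x)
            rwa [hPx] at this
          · have := ((hnp P' hP').sub (atLeast_algebraMap a)).mul (atLeast_ord (v := P') x)
            rwa [hoth P' hP' hne, add_zero] at this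
  choose! c hc hcr using hex d
  -- uniqueness
  have huniq : ∀ (f : F) (a b : ℕ → K), AtLeast P d (rem d f a) → AtLeast P d (rem d f b) →
      ∀ i < d, a i = b i := by
    intro f a b ha hb i
    induction i using Nat.strong_induction_on with
    | _ i ih =>
      intro hi
      by_contra hne
      have h1 : AtLeast P d (∑ l ∈ Finset.range d, (b l - a l) • u ^ l) := by
        have := ha.sub hb
        simp only [rem, sub_sub_sub_cancel_left] at this
        simpa [sub_smul, Finset.sum_sub_distrib] using this
      have h2 : AtLeast P ((i : ℤ) + 1) ((b i - a i) • u ^ i) := by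
        have h3 : AtLeast P ((i : ℤ) + 1)
            (∑ l ∈ (Finset.range d).erase i, (b l - a l) • u ^ l) := atLeast_sum fun l hl => by
          rcases lt_or_ge l i with hlt | hge
          · rw [ih l hlt (by omega), sub_self, zero_smul]; exact atLeast_zero
          · have hne' := Finset.ne_of_mem_erase hl
            rw [Algebra.smul_def]
            exact ((hord l).mono (by omega)).smul _
        have h4 := (h1.mono (show ((i : ℤ) + 1) ≤ d by omega)).sub h3
        rwa [← Finset.add_sum_erase _ _ (Finset.mem_range.2 hi), add_sub_cancel_right] at h4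
      have hba : algebraMap K F (b i - a i) ≠ 0 :=
        (_root_.map_ne_zero _).2 (sub_ne_zero.2 (Ne.symm hne))
      rw [Algebra.smul_def, atLeast_iff (mul_ne_zero hba (pow_ne_zero i hu0)),
        P.ord_mul hba (pow_ne_zero i hu0), place_ord_algebraMap, place_ord_pow, hPu] at h2
      omega
  let co : Fin d → (riemannRochSpace D →ₗ[K] K) := fun n =>
    { toFun := fun f => c f n
      map_add' := fun f f' => by
        refine huniq ((f : F) + f') _ (fun i => c f i + c f' i) (hc _ (f + f').2) ?_ n n.2
        have := (hc _ f.2).add (hc _ f'.2)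
        simp only [rem, g, add_mul, add_smul, Finset.sum_add_distrib] at this ⊢
        convert this using 1
        abel
      map_smul' := fun a f => by
        refine huniq (a • (f : F)) _ (fun i => a * c f i) (hc _ (a • f).2) ?_ n n.2
        have := (hc _ f.2).smul a
        rw [← Algebra.smul_def] at this
        simp only [rem, g, smul_mul_assoc, mul_smul, ← Finset.smul_sum, ← smul_sub] at this ⊢
        exact this }
  refine ⟨d, co, fun f r hr n => (hcr _ f.2 r hr).1 n n.2, fun f r hr hlt => ?_, ?_⟩
  · obtain ⟨hA, s, hs, hnp⟩ := hcr _ f.2 r hr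
    have hsum : R.Red (∑ i ∈ Finset.range d, c f i • u ^ i) 0 := by
      rw [← Finset.sum_const_zero (s := Finset.range d) (M := Fk)]
      refine red_finsetSum _ fun i hi => ?_
      have hi' := Finset.mem_range.1 hi
      have h := red_smul (hur.pow i) (hA i hi')
      rwa [(R.π_eq_zero ⟨c f i, hA i hi'⟩).2 (hlt ⟨i, hi'⟩), zero_smul] at h
    have hrem : R.Red (rem d f (c f)) (r * xb⁻¹ ^ m) := by
      have := (hr.mul (hur.pow m)).sub hsum
      rwa [sub_zero] at this
    have hs' : r * xb⁻¹ ^ m * xb ^ d = s := (hrem.mul (hx.pow d)).unique hs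
    by_contra hr0
    have hord_s : 0 ≤ Q.ord s := by
      have hs0 : s ≠ 0 := by
        rw [← hs']
        exact mul_ne_zero (mul_ne_zero hr0 (pow_ne_zero _ (inv_ne_zero hxb0))) (pow_ne_zero _ hxb0)
      have := Reduction.sum_le_ord hF hs hs0 hnp ∅ (by simp)
      simpa using this
    rw [← hs', Q.ord_mul (mul_ne_zero hr0 (pow_ne_zero _ (inv_ne_zero hxb0))) (pow_ne_zero _ hxb0),
      Q.ord_mul hr0 (pow_ne_zero _ (inv_ne_zero hxb0)), place_ord_pow, place_ord_pow, Q.ord_inv, hQ]
      at hord_s
    have hmem : r ∈ riemannRochSpace (Db - Finsupp.single Q (d : ℤ)) := by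
      rw [FA.Curve.mem_riemannRochSpace]
      intro w
      rcases eq_or_ne w Q with rfl | hw
      · refine Or.inr ?_
        rw [Finsupp.sub_apply, Finsupp.single_eq_same, hDQ]
        omega
      · rw [Finsupp.sub_apply, Finsupp.single_eq_of_ne hw, sub_zero, ← hDb]
        exact FA.Curve.mem_riemannRochSpace.1
          (Reduction.red_mem_riemannRochSpace hF hr f.2) w
    have hdeg0 : Divisor.degree (Db - Finsupp.single Q (d : ℤ)) < 0 := by
      rw [map_sub, Divisor.degree_single, hk.deg_eq_one]
      simp only [d]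
      push_cast
      omega
    have h0 := ell_eq_zero_of_degree_neg hk hdeg0
    haveI := finite_riemannRochSpace hk (Db - Finsupp.single Q (d : ℤ))
    have hpos : 0 < Module.finrank k (riemannRochSpace (Db - Finsupp.single Q (d : ℤ))) :=
      Module.finrank_pos_iff_exists_ne_zero.2 ⟨⟨r, hmem⟩, fun h => hr0 (congrArg Subtype.val h)⟩
    simp only [ell] at h0
    omega
  · intro τ hτ f f' hff' n
    have hτP : τ • P = P := by
      by_contra hne
      have h1 := hoth _ ((hTspl τ hτ P).trans hPQ) hne
      rw [← hTx τ hτ, SemilinearAut.ord_smul, hPx] at h1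
      omega
    refine huniq (f' : F) _ (fun i => SemilinearAut.baseAut τ (c f i)) (hc _ f'.2) ?_ n n.2
    have hτu : τ • u = u := by rw [hu, smul_inv'', hTx τ hτ]
    have e : rem d f' (fun i => SemilinearAut.baseAut τ (c f i)) = τ • rem d (f : F) (c f) := by
      simp only [rem, g, hff', smul_sub, smul_mul', smul_pow', hτu, Finset.smul_sum]
      congr 1
      exact Finset.sum_congr rfl fun i _ => by
        rw [Algebra.smul_def, Algebra.smul_def, smul_mul', SemilinearAut.smul_algebraMap, smul_pow',
          hτu]
    rw [e]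
    rcases hc _ f.2 with h | h
    · exact Or.inl (by rw [h, smul_zero])
    · refine Or.inr ?_
      rw [← hτP, SemilinearAut.ord_smul]
      exact h

end FA.FlatModel
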