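import Fermat.Agent.FlatModel.Kernel
import Fermat.Agent.CurveRed.Basic
import Fermat.Agent.Curve.Riemann

/-!
# Families of functions over a congruence ring and colon spaces

`SRed` is a family of functions which is a combination over the ring of integral functions, with
its common reduction.  `SFam` is a family of subspaces spanned by combinations of a fixed family
with coefficients in the ring and independent reductions.  A colon space of constant dimension,
upstairs and downstairs, is such a family.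
-/

set_option autoImplicit false

noncomputable section

namespace FA.FlatModel

open AlgebraicCurve FA.Curve FA.CurveRed

section ColonAlg

variable {K F : Type*} [Field K] [Field F] [Algebra K F] {ι ι' J : Type*} [Fintype ι] [Fintype ι']
  [Fintype J] [DecidableEq J] (z : ι → F) (z' : ι' → F) (φ : J → F) (s : F)

/-- The system of equations of a colon space. -/
def colonMap : (ι ⊕ (J × ι') → K) →ₗ[K] (J → F) :=
  Fintype.linearCombination K fun m j =>
    Sum.elim (fun i => z i * φ j) (fun jl => if jl.1 = j then -(s * z' jl.2) else 0) m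

theorem colonMap_apply (v : ι ⊕ (J × ι') → K) (j : J) :
    colonMap z z' φ s v j =
      (∑ i, v (Sum.inl i) • z i) * φ j - s * ∑ l, v (Sum.inr (j, l)) • z' l := by
  rw [colonMap, Fintype.linearCombination_apply, Finset.sum_apply, Fintype.sum_sum_type,
    Fintype.sum_prod_type, Finset.sum_mul, Finset.mul_sum, sub_eq_add_neg,
    ← Finset.sum_neg_distrib]
  simp only [Pi.smul_apply, Sum.elim_inl, Sum.elim_inr, smul_ite, smul_zero, smul_neg]
  congr 1
  · exact Finset.sum_congr rfl fun i _ => (smul_mul_assoc _ _ _).symm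
  · rw [Finset.sum_eq_single j (fun j' _ hj' => Finset.sum_eq_zero fun l _ => if_neg hj')
      (fun h => absurd (Finset.mem_univ j) h)]
    exact Finset.sum_congr rfl fun l _ => by rw [if_pos rfl, mul_smul_comm]

/-- The projection of a solution. -/
def colonProj : (ι ⊕ (J × ι') → K) →ₗ[K] F :=
  Fintype.linearCombination K z ∘ₗ LinearMap.funLeft K K Sum.inl

omit [DecidableEq J] [Fintype ι'] [Fintype J] in
theorem colonProj_apply (v : ι ⊕ (J × ι') → K) :
    colonProj (K := K) (ι' := ι') (J := J) z v = ∑ i, v (Sum.inl i) • z i := rfl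

variable {z z' φ s} (hz : LinearIndependent K z) (hz' : LinearIndependent K z') (hs : s ≠ 0)
  {U : Submodule K F}
  (hU : ∀ w, w ∈ U ↔ w ∈ Submodule.span K (Set.range z) ∧
    ∀ j, ∃ y ∈ Submodule.span K (Set.range z'), w * φ j = s * y)

include hU in
theorem map_ker_colon :
    (LinearMap.ker (colonMap (K := K) z z' φ s)).map (colonProj (K := K) (ι' := ι') (J := J) z) = U := by
  refine le_antisymm ?_ fun w hw => ?_
  · rintro _ ⟨v, hv, rfl⟩
    rw [hU, colonProj_apply]
    refine ⟨(Submodule.mem_span_range_iff_exists_fun K).2 ⟨_, rfl⟩, fun j => ?_⟩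
    refine ⟨_, (Submodule.mem_span_range_iff_exists_fun K).2 ⟨fun l => v (Sum.inr (j, l)), rfl⟩, ?_⟩
    have h := congrFun (LinearMap.mem_ker.1 hv) j
    rw [colonMap_apply, Pi.zero_apply, sub_eq_zero] at h
    exact h
  · obtain ⟨hwz, hwy⟩ := (hU w).1 hw
    obtain ⟨a, ha⟩ := (Submodule.mem_span_range_iff_exists_fun K).1 hwz
    choose y hy hyw using hwy
    choose b hb using fun j => (Submodule.mem_span_range_iff_exists_fun K).1 (hy j)
    refine ⟨Sum.elim a fun jl => b jl.1 jl.2, LinearMap.mem_ker.2 (funext fun j => ?_), ?_⟩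
    · rw [colonMap_apply, Pi.zero_apply]
      simp only [Sum.elim_inl, Sum.elim_inr]
      rw [ha, hb, hyw, sub_self]
    · simpa [colonProj_apply] using ha

include hz hz' hs in
theorem disjoint_ker_colon : Disjoint (LinearMap.ker (colonMap (K := K) z z' φ s))
    (LinearMap.ker (colonProj (K := K) (ι' := ι') (J := J) z)) := by
  rw [Submodule.disjoint_def]
  intro v hv hv'
  rw [LinearMap.mem_ker, colonProj_apply] at hv'
  have h1 := Fintype.linearIndependent_iff.1 hz _ hv'
  funext m
  rcases m with i | ⟨j, l⟩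
  · exact h1 i
  · have h := congrFun (LinearMap.mem_ker.1 hv) j
    rw [colonMap_apply, Pi.zero_apply, hv', zero_mul, zero_sub, neg_eq_zero, mul_eq_zero] at h
    exact Fintype.linearIndependent_iff.1 hz' (fun l => v (Sum.inr (j, l))) (h.resolve_left hs) l

include hz hz' hs hU in
theorem finrank_ker_colon :
    Module.finrank K (LinearMap.ker (colonMap (K := K) z z' φ s)) = Module.finrank K U := by
  have h : U = LinearMap.range ((colonProj (K := K) (ι' := ι') (J := J) z).domRestrict
      (LinearMap.ker (colonMap (K := K) z z' φ s))) := by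
    rw [LinearMap.range_domRestrict, map_ker_colon hU]
  rw [h, LinearMap.finrank_range_of_inj]
  rw [← LinearMap.ker_eq_bot, Submodule.eq_bot_iff]
  intro v hv
  have hv' : colonProj (K := K) (ι' := ι') (J := J) z (v : ι ⊕ (J × ι') → K) = 0 :=
    LinearMap.mem_ker.1 hv
  exact Subtype.ext (Submodule.disjoint_def.1 (disjoint_ker_colon hz hz' hs) _ v.2
    (LinearMap.mem_ker.2 hv'))

end ColonAlg

/-- Solving equations in the coordinates of an independent family. -/
theorem ker_eq_ker_coord {K F : Type*} [Field K] [Field F] [Algebra K F] {S : Type*} [CommRing S]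
    (ev : S →+* K) {μ J : Type*} [Fintype μ] {m : ℕ} {e : Fin m → F}
    (he : LinearIndependent K e) (E : J × μ → Fin m → S) (T : (μ → K) →ₗ[K] (J → F))
    (hT : ∀ v j, T v j = ∑ x, v x • ∑ q, ev (E (j, x) q) • e q) :
    LinearMap.ker T = LinearMap.ker
      ((Matrix.of fun (jq : J × Fin m) x => E (jq.1, x) jq.2).map ev).mulVecLin := by
  refine Submodule.ext fun v => ?_
  simp only [LinearMap.mem_ker, Matrix.mulVecLin_apply, funext_iff, Prod.forall, Pi.zero_apply]
  refine forall_congr' fun j => ?_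
  rw [hT]
  simp only [Finset.smul_sum, smul_smul]
  rw [Finset.sum_comm]
  simp only [← Finset.sum_smul]
  refine ⟨fun h q => ?_, fun h => Finset.sum_eq_zero fun q _ => ?_⟩
  · have := Fintype.linearIndependent_iff.1 he _ h q
    rw [← this]
    simp only [Matrix.mulVec, dotProduct, Matrix.map_apply, Matrix.of_apply]
    exact Finset.sum_congr rfl fun x _ => mul_comm _ _
  · have := h q
    simp only [Matrix.mulVec, dotProduct, Matrix.map_apply, Matrix.of_apply] at this
    rw [show (∑ x, v x * ev (E (j, x) q)) = 0 by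
      rw [← this]; exact Finset.sum_congr rfl fun x _ => mul_comm _ _, zero_smul]

section Families

variable {K F k Fk : Type*} [Field K] [Field F] [Algebra K F] [Field k] [Field Fk] [Algebra k Fk]
  {A : ValuationSubring K} {R : Reduction K F k Fk A}

theorem red_smul {f : F} {r : Fk} (h : R.Red f r) {c : K} (hc : c ∈ A) :
    R.Red (c • f) (R.π ⟨c, hc⟩ • r) := by
  rw [Algebra.smul_def, Algebra.smul_def]
  exact (Reduction.red_const ⟨c, hc⟩).mul h

theorem red_finsetSum {μ : Type*} (t : Finset μ) {f : μ → F} {r : μ → Fk}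
    (h : ∀ i ∈ t, R.Red (f i) (r i)) : R.Red (∑ i ∈ t, f i) (∑ i ∈ t, r i) := by
  classical
  induction t using Finset.induction with
  | empty => simpa using Reduction.red_zero
  | @insert a t ha ih =>
    rw [Finset.sum_insert ha, Finset.sum_insert ha]
    exact (h a (Finset.mem_insert_self a t)).add (ih fun i hi => h i (Finset.mem_insert_of_mem hi))

theorem exists_max_red {μ : Type*} [Fintype μ] {e : μ → F} {eb : μ → Fk}
    (he : ∀ i, R.Red (e i) (eb i)) (hli : LinearIndependent k eb) (c : μ → K) (hc : ∃ i, c i ≠ 0) :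
    ∃ (j : μ) (r : Fk), c j ≠ 0 ∧ (∀ i, A.valuation (c i) ≤ A.valuation (c j)) ∧ r ≠ 0 ∧
      R.Red ((c j)⁻¹ • ∑ i, c i • e i) r := by
  classical
  obtain ⟨i₀, hi₀⟩ := hc
  obtain ⟨j, -, hj⟩ := Finset.exists_max_image Finset.univ (fun i => A.valuation (c i))
    ⟨i₀, Finset.mem_univ _⟩
  have hj0 : c j ≠ 0 := fun h0 => hi₀ (by
    have h1 := hj i₀ (Finset.mem_univ _)
    rw [h0, map_zero] at h1
    exact (map_eq_zero A.valuation).1 (le_antisymm h1 zero_le))
  have hA : ∀ i, (c j)⁻¹ * c i ∈ A := fun i => (A.valuation_le_one_iff _).1 (by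
    rw [← div_eq_inv_mul, map_div₀]
    exact div_le_one_of_le₀ (hj i (Finset.mem_univ _)) zero_le)
  refine ⟨j, ∑ i, R.π ⟨_, hA i⟩ • eb i, hj0, fun i => hj i (Finset.mem_univ _), fun h0 => ?_, ?_⟩
  · have h1 := Fintype.linearIndependent_iff.1 hli _ h0 j
    rw [R.π_eq_zero] at h1
    simp [inv_mul_cancel₀ hj0] at h1
  · rw [Finset.smul_sum]
    simp only [smul_smul]
    exact red_finsetSum _ fun i _ => red_smul (he i) (hA i)

theorem linearIndependent_lifts {μ : Type*} [Fintype μ] {e : μ → F} {eb : μ → Fk}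
    (he : ∀ i, R.Red (e i) (eb i)) (hli : LinearIndependent k eb) : LinearIndependent K e := by
  rw [Fintype.linearIndependent_iff]
  intro c hc
  by_contra hne
  push Not at hne
  obtain ⟨j, r, -, -, hr, hred⟩ := exists_max_red he hli c hne
  rw [hc, smul_zero] at hred
  exact hr ((Reduction.Red.unique Reduction.red_zero hred).symm)

theorem coord_mem {μ : Type*} [Fintype μ] {e : μ → F} {eb : μ → Fk}
    (he : ∀ i, R.Red (e i) (eb i)) (hli : LinearIndependent k eb) (c : μ → K) {f : F} {fb : Fk}
    (hf : f = ∑ i, c i • e i) (hfr : R.Red f fb) (i : μ) : c i ∈ A := by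
  rcases eq_or_ne (c i) 0 with h | h
  · rw [h]; exact zero_mem A
  obtain ⟨j, r, hj0, hj, hr, hred⟩ := exists_max_red he hli c ⟨i, h⟩
  refine (A.valuation_le_one_iff _).1 ((hj i).trans ?_)
  by_contra hgt
  rw [not_le] at hgt
  have hinv : (c j)⁻¹ ∈ A := (A.valuation_le_one_iff _).1 (by
    rw [map_inv₀]; exact inv_le_one_of_one_le₀ hgt.le)
  have h2 := red_smul hfr hinv
  rw [← hf] at hred
  have h3 := Reduction.Red.unique hred h2
  rw [show R.π ⟨(c j)⁻¹, hinv⟩ = 0 by
    rw [R.π_eq_zero]
    show A.valuation (c j)⁻¹ < 1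
    rw [map_inv₀]; exact inv_lt_one_of_one_lt₀ hgt, zero_smul] at h3
  exact hr h3

variable [IsAlgClosed K] [IsAlgClosed k] (hF : IsFunctionField K F) (hk : IsFunctionField k Fk)

include hF hk in
/-- Finitely many integral functions are integral combinations of functions with independent
reductions. -/
theorem exists_int_basis {μ : Type*} [Fintype μ] (f : μ → F) (fb : μ → Fk)
    (hf : ∀ i, R.Red (f i) (fb i)) :
    ∃ (m : ℕ) (e : Fin m → F) (eb : Fin m → Fk) (c : μ → Fin m → A),
      (∀ q, R.Red (e q) (eb q)) ∧ LinearIndependent k eb ∧ ∀ i, f i = ∑ q, (c i q : K) • e q := by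
  classical
  set D : Divisor K F := ∑ i, poleDiv hF (f i)
  set V := Submodule.span K (Set.range f)
  have hV : V ≤ riemannRochSpace D := by
    rw [Submodule.span_le, Set.range_subset_iff]
    intro i
    rw [SetLike.mem_coe, FA.Curve.mem_riemannRochSpace]
    intro v
    refine (atLeast_ord (f i)).mono ?_
    have h1 : poleDiv hF (f i) v ≤ D v := Finsupp.le_def.1
      (Finset.single_le_sum (f := fun i => poleDiv hF (f i)) (fun i _ => poleDiv_nonneg hF _)
        (Finset.mem_univ i)) v
    rw [poleDiv_apply] at h1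
    omega
  haveI := finite_riemannRochSpace hF D
  haveI : Module.Finite K V := Submodule.finiteDimensional_of_le hV
  obtain ⟨e, eb, heV, he, hli⟩ := Reduction.exists_lift_basis hF hk (R := R) D _ V hV rfl
  have hspan : Submodule.span K (Set.range e) = V :=
    Submodule.eq_of_le_of_finrank_eq (Submodule.span_le.2 (Set.range_subset_iff.2 heV))
      (by rw [finrank_span_eq_card (linearIndependent_lifts he hli), Fintype.card_fin])
  have hc : ∀ i, ∃ c : Fin (Module.finrank K V) → K, f i = ∑ q, c q • e q := fun i => by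
    have hi : f i ∈ V := Submodule.subset_span ⟨i, rfl⟩
    rw [← hspan] at hi
    obtain ⟨c, hc⟩ := (Submodule.mem_span_range_iff_exists_fun K).1 hi
    exact ⟨c, hc.symm⟩
  choose c hc using hc
  exact ⟨_, e, eb, fun i q => ⟨c i q, coord_mem he hli (c i) (hc i) (hf i) q⟩, he, hli, hc⟩

variable {P S : Type*} [CommRing S] (L : LocData K k R.π P S)

/-- A family of integral functions over the ring, with its reduction. -/
def SRed (φ : P → F) (r : Fk) : Prop :=
  ∃ (n : ℕ) (c : Fin n → S) (f : Fin n → F) (fb : Fin n → Fk), (∀ i, R.Red (f i) (fb i)) ∧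
    (∀ p, φ p = ∑ i, L.ev p (c i) • f i) ∧ r = ∑ i, L.res (c i) • fb i

/-- A family of subspaces spanned over the ring inside the span of `z`. -/
def SFam {ι : Type*} [Fintype ι] (z : ι → F) (zb : ι → Fk) (U : P → Submodule K F)
    (Ub : Submodule k Fk) : Prop :=
  ∃ (d : ℕ) (a : Fin d → ι → S),
    (∀ p, Submodule.span K (Set.range fun n => ∑ i, L.ev p (a n i) • z i) = U p) ∧
    LinearIndependent k (fun n => ∑ i, L.res (a n i) • zb i) ∧
    Submodule.span k (Set.range fun n => ∑ i, L.res (a n i) • zb i) = Ub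

variable {L}

omit [IsAlgClosed K] [IsAlgClosed k] in
theorem SRed.of_fintype {μ : Type*} [Fintype μ] (c : μ → S) (f : μ → F) (fb : μ → Fk)
    (hf : ∀ i, R.Red (f i) (fb i)) :
    SRed L (fun p => ∑ i, L.ev p (c i) • f i) (∑ i, L.res (c i) • fb i) := by
  let e := (Fintype.equivFin μ).symm
  exact ⟨_, c ∘ e, f ∘ e, fb ∘ e, fun i => hf _,
    fun p => (e.sum_comp fun i => L.ev p (c i) • f i).symm,
    (e.sum_comp fun i => L.res (c i) • fb i).symm⟩

omit [IsAlgClosed K] [IsAlgClosed k] in
theorem SRed.red {φ : P → F} {r : Fk} (h : SRed L φ r) (p : P) : R.Red (φ p) r := by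
  obtain ⟨n, c, f, fb, hf, hφ, rfl⟩ := h
  rw [hφ]
  refine red_finsetSum _ fun i _ => ?_
  obtain ⟨hm, he⟩ := L.ev_res p (c i)
  rw [← he]
  exact red_smul (hf i) hm

omit [IsAlgClosed K] [IsAlgClosed k] in
theorem SRed.const {f : F} {r : Fk} (h : R.Red f r) : SRed L (fun _ => f) r :=
  ⟨1, fun _ => 1, fun _ => f, fun _ => r, fun _ => h, fun p => by simp, by simp⟩

omit [IsAlgClosed K] [IsAlgClosed k] in
theorem SRed.congr {φ φ' : P → F} {r r' : Fk} (h : SRed L φ r) (hφ : ∀ p, φ p = φ' p)
    (hr : r = r') : SRed L φ' r' := by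
  rw [← funext hφ, ← hr]; exact h

omit [IsAlgClosed K] [IsAlgClosed k] in
theorem SRed.mul {φ ψ : P → F} {r t : Fk} (h : SRed L φ r) (h' : SRed L ψ t) :
    SRed L (fun p => φ p * ψ p) (r * t) := by
  obtain ⟨n, c, f, fb, hf, hφ, rfl⟩ := h
  obtain ⟨m, d, g, gb, hg, hψ, rfl⟩ := h'
  refine (SRed.of_fintype (L := L) (fun il : Fin n × Fin m => c il.1 * d il.2)
    (fun il => f il.1 * g il.2) (fun il => fb il.1 * gb il.2)
    fun il => (hf il.1).mul (hg il.2)).congr (fun p => ?_) ?_
  · rw [hφ, hψ, Finset.sum_mul_sum, Fintype.sum_prod_type]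
    exact Finset.sum_congr rfl fun i _ => Finset.sum_congr rfl fun l _ => by
      rw [map_mul, smul_mul_smul_comm]
  · rw [Finset.sum_mul_sum, Fintype.sum_prod_type]
    exact Finset.sum_congr rfl fun i _ => Finset.sum_congr rfl fun l _ => by
      rw [map_mul, smul_mul_smul_comm]

omit [IsAlgClosed K] [IsAlgClosed k] in
theorem SRed.neg {φ : P → F} {r : Fk} (h : SRed L φ r) : SRed L (fun p => -φ p) (-r) :=
  ((SRed.const (Reduction.red_one.neg)).mul h).congr (fun p => by simp) (by simp)

omit [IsAlgClosed K] [IsAlgClosed k] in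
theorem SRed.zero : SRed L (fun _ : P => (0 : F)) (0 : Fk) := SRed.const Reduction.red_zero

include hF hk in
/-- Finitely many families in the coordinates of functions with independent reductions. -/
theorem SRed.exists_coord {μ : Type*} [Fintype μ] (Φ : μ → P → F) (r : μ → Fk)
    (h : ∀ x, SRed L (Φ x) (r x)) :
    ∃ (m : ℕ) (e : Fin m → F) (eb : Fin m → Fk) (E : μ → Fin m → S),
      (∀ q, R.Red (e q) (eb q)) ∧ LinearIndependent k eb ∧
      (∀ x p, Φ x p = ∑ q, L.ev p (E x q) • e q) ∧ ∀ x, r x = ∑ q, L.res (E x q) • eb q := by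
  classical
  choose n c f fb hf hΦ hr using h
  obtain ⟨m, e, eb, a, he, hli, hfe⟩ := exists_int_basis hF hk (R := R)
    (fun y : Σ x, Fin (n x) => f y.1 y.2) (fun y => fb y.1 y.2) fun y => hf _ _
  have hfb : ∀ y : Σ x, Fin (n x), fb y.1 y.2 = ∑ q, R.π (a y q) • eb q := fun y =>
    Reduction.Red.unique (hf y.1 y.2) (by
      rw [hfe y]
      exact red_finsetSum _ fun q _ => red_smul (he q) (a y q).2)
  refine ⟨m, e, eb, fun x q => ∑ i, c x i * L.const (a ⟨x, i⟩ q), he, hli, fun x p => ?_, fun x => ?_⟩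
  · rw [hΦ x p]
    simp only [map_sum, map_mul, L.ev_const, Finset.sum_smul, mul_smul]
    rw [Finset.sum_comm]
    exact Finset.sum_congr rfl fun i _ => by rw [← Finset.smul_sum, ← hfe ⟨x, i⟩]
  · rw [hr x]
    simp only [map_sum, map_mul, L.res_const, Finset.sum_smul, mul_smul]
    rw [Finset.sum_comm]
    exact Finset.sum_congr rfl fun i _ => by rw [← Finset.smul_sum, ← hfb ⟨x, i⟩]

variable {ι ι' : Type*} [Fintype ι] [Fintype ι'] {z : ι → F} {zb : ι → Fk} {z' : ι' → F}
  {zb' : ι' → Fk}

include hF hk in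
/-- **Colon spaces of constant dimension form a family.** -/
theorem sFam_colon {J : Type*} [Fintype J] (hz : ∀ i, R.Red (z i) (zb i))
    (hzli : LinearIndependent k zb) (hz' : ∀ l, R.Red (z' l) (zb' l))
    (hz'li : LinearIndependent k zb') {φ : J → P → F} {φb : J → Fk}
    (hφ : ∀ j, SRed L (φ j) (φb j)) {s : P → F} {sb : Fk} (hs : SRed L s sb) (hsb : sb ≠ 0)
    {U : P → Submodule K F} {Ub : Submodule k Fk}
    (hU : ∀ p w, w ∈ U p ↔ w ∈ Submodule.span K (Set.range z) ∧
      ∀ j, ∃ y ∈ Submodule.span K (Set.range z'), w * φ j p = s p * y)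
    (hUb : ∀ w, w ∈ Ub ↔ w ∈ Submodule.span k (Set.range zb) ∧
      ∀ j, ∃ y ∈ Submodule.span k (Set.range zb'), w * φb j = sb * y)
    {d : ℕ} (hd : ∀ p, Module.finrank K (U p) = d) (hdb : Module.finrank k Ub = d) :
    SFam L z zb U Ub := by
  classical
  let μ := ι ⊕ (J × ι')
  let Φ : J × μ → P → F := fun x p => Sum.elim (fun i => z i * φ x.1 p)
    (fun jl => if jl.1 = x.1 then -(s p * z' jl.2) else 0) x.2
  let r : J × μ → Fk := fun x => Sum.elim (fun i => zb i * φb x.1)
    (fun jl => if jl.1 = x.1 then -(sb * zb' jl.2) else 0) x.2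
  have hΦ : ∀ x, SRed L (Φ x) (r x) := by
    rintro ⟨j, i | ⟨j', l⟩⟩
    · exact (SRed.const (hz i)).mul (hφ j)
    · by_cases hj : j' = j
      · exact ((hs.mul (SRed.const (hz' l))).neg).congr (fun p => by simp [Φ, hj]) (by simp [r, hj])
      · exact SRed.zero.congr (fun p => by simp [Φ, hj]) (by simp [r, hj])
  obtain ⟨m, e, eb, E, he, hli, hΦe, hre⟩ := SRed.exists_coord hF hk Φ r hΦ
  let M : Matrix (J × Fin m) μ S := Matrix.of fun jq x => E (jq.1, x) jq.2
  have hKp : ∀ p, LinearMap.ker (colonMap z z' (fun j => φ j p) (s p)) =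
      LinearMap.ker (M.map (L.ev p)).mulVecLin := fun p =>
    ker_eq_ker_coord (L.ev p) (linearIndependent_lifts he hli) E _ fun v j => by
      rw [colonMap, Fintype.linearCombination_apply, Finset.sum_apply]
      exact Finset.sum_congr rfl fun x _ => by
        rw [Pi.smul_apply, ← hΦe (j, x) p]
  have hKb : LinearMap.ker (colonMap zb zb' φb sb) = LinearMap.ker (M.map L.res).mulVecLin :=
    ker_eq_ker_coord L.res hli E _ fun v j => by
      rw [colonMap, Fintype.linearCombination_apply, Finset.sum_apply]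
      exact Finset.sum_congr rfl fun x _ => by rw [Pi.smul_apply, ← hre (j, x)]
  have hzK := linearIndependent_lifts hz hzli
  have hz'K := linearIndependent_lifts hz' hz'li
  have hs0 : ∀ p, s p ≠ 0 := fun p => (hs.red p).ne_zero hsb
  obtain ⟨a, ha, hali, hab⟩ := L.exists_kernel R.π_eq_zero M d
    (fun p => by rw [← hKp, finrank_ker_colon hzK hz'K (hs0 p) (hU p), hd p])
    (by rw [← hKb, finrank_ker_colon hzli hz'li hsb hUb, hdb])
  refine ⟨d, fun n i => a n (Sum.inl i), fun p => ?_, ?_, ?_⟩
  · rw [← map_ker_colon (z' := z') (φ := fun j => φ j p) (s := s p) (hU p), hKp, ← ha,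
      Submodule.map_span, ← Set.range_comp]
    rfl
  · rw [← hKb] at hab
    refine (hali.map (f := colonProj (K := k) (ι' := ι') (J := J) zb) ?_)
    rw [hab]
    exact disjoint_ker_colon hzli hz'li hsb
  · rw [← map_ker_colon (z' := zb') (φ := φb) (s := sb) hUb, hKb, ← hab, Submodule.map_span,
      ← Set.range_comp]
    rfl

end Families

end FA.FlatModel
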