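import Fermat.Agent.FlatModel.Echelon

/-!
# Integral functions on a finite group of classes, closed under the addition

For a configuration of effective divisors `D x` in the classes `E + x` whose reductions have one
section, the echelon coordinates of the spaces `L(A₀ - D x)`, extended by zero outside the residue
class, generate a lattice of functions closed under the addition map.
-/

set_option autoImplicit false
set_option linter.style.haveILetI false
set_option linter.unusedSectionVars false
set_option maxHeartbeats 800000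

noncomputable section

namespace FA.FlatModel

open AlgebraicCurve FA.Curve FA.CurveRed FA.ModField

variable {K F k Fk : Type*} [Field K] [IsAlgClosed K] [Field F] [Algebra K F] [Field k]
  [IsAlgClosed k] [Field Fk] [Algebra k Fk] {A : ValuationSubring K}

/-- Divisors representing a finite group of classes with nonspecial reduction. -/
structure Cfg (R : Reduction K F k Fk A) (hF : IsFunctionField K F) (hk : IsFunctionField k Fk)
    (V : Type*) [AddCommGroup V] where
  /-- the threshold -/
  c : ℕ
  genus_eq : FA.Curve.genus K F = FA.Curve.genus k Fk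
  hc : ∀ D : Divisor K F, (c : ℤ) ≤ Divisor.degree D →
    ell D = Divisor.degree D + 1 - FA.Curve.genus K F
  hc' : ∀ D : Divisor k Fk, (c : ℤ) ≤ Divisor.degree D →
    ell D = Divisor.degree D + 1 - FA.Curve.genus k Fk
  /-- the embedding divisor -/
  A₀ : Divisor K F
  A₀_nonneg : 0 ≤ A₀
  deg_A₀ : (c : ℤ) + 2 * FA.Curve.genus K F + 1 ≤ Divisor.degree A₀
  /-- the dimension of the ambient space -/
  n : ℕ
  /-- the ambient basis -/
  zA : Fin n → F
  /-- its reduction -/
  zAb : Fin n → Fk
  red_zA : ∀ i, R.Red (zA i) (zAb i)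
  indep_zAb : LinearIndependent k zAb
  span_zA : Submodule.span K (Set.range zA) = riemannRochSpace A₀
  span_zAb : Submodule.span k (Set.range zAb) = riemannRochSpace (R.push A₀)
  /-- the base divisor -/
  E : Divisor K F
  E_nonneg : 0 ≤ E
  deg_E : Divisor.degree E = FA.Curve.genus K F
  /-- the representatives -/
  D : V → Divisor K F
  D_nonneg : ∀ x, 0 ≤ D x
  deg_D : ∀ x, Divisor.degree (D x) = FA.Curve.genus K F
  D_inj : Function.Injective D
  good : ∀ x y, ell (R.push (D x) + R.push (D y) - R.push E) ≤ 1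
  D_add : ∀ x y, ∃ f : F, f ≠ 0 ∧ D (x + y) = D x + D y - E + divOf hF f

namespace Cfg

variable {R : Reduction K F k Fk A} {hF : IsFunctionField K F} {hk : IsFunctionField k Fk}
  {V : Type*} [AddCommGroup V] (G : Cfg R hF hk V)

/-- Echelon data of a residue class. -/
structure Echelon (x₀ : V) where
  /-- the dimension -/
  d : ℕ
  d_pos : 0 < d
  /-- the pivots -/
  J : Fin d → Fin G.n
  /-- the coordinates -/
  a : V → Fin d → Fin G.n → K
  /-- their residues -/
  ab : Fin d → Fin G.n → k
  ab_piv : ∀ m m', ab m (J m') = if m = m' then 1 else 0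
  ab_li : LinearIndependent k fun m => ∑ i, ab m i • G.zAb i
  ab_span : Submodule.span k (Set.range fun m => ∑ i, ab m i • G.zAb i) =
    riemannRochSpace (R.push G.A₀ - R.push (G.D x₀))
  a_piv : ∀ x, R.push (G.D x) = R.push (G.D x₀) →
    ∀ m m', a x m (J m') = if m = m' then 1 else 0
  a_span : ∀ x, R.push (G.D x) = R.push (G.D x₀) →
    Submodule.span K (Set.range fun m => ∑ i, a x m i • G.zA i) = riemannRochSpace (G.A₀ - G.D x)
  a_res : ∀ x, R.push (G.D x) = R.push (G.D x₀) → ∀ m i, ∃ h : a x m i ∈ A, R.π ⟨_, h⟩ = ab m i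

theorem indep_zA : LinearIndependent K G.zA := linearIndependent_lifts G.red_zA G.indep_zAb

theorem exists_echelon (x₀ : V) : Nonempty (G.Echelon x₀) := by
  classical
  have hg := G.genus_eq
  have hdA := G.deg_A₀
  have hbig : ∀ x, (G.c : ℤ) ≤ Divisor.degree (G.A₀ - G.D x) := fun x => by
    rw [map_sub, G.deg_D]; omega
  -- the reduced space
  obtain ⟨d, e₀, r₀, he₀, hli₀, hs₀, hsb₀⟩ := exists_basis_large hF hk hg G.hc G.hc' _ (hbig x₀)
  rw [push_sub] at hsb₀
  have hdim : ∀ {n : ℕ} {e : Fin n → F} {r : Fin n → Fk} {x : V},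
      (∀ i, R.Red (e i) (r i)) → LinearIndependent k r →
      Submodule.span K (Set.range e) = riemannRochSpace (G.A₀ - G.D x) →
      (n : ℤ) = Divisor.degree G.A₀ + 1 - 2 * FA.Curve.genus K F := by
    intro n e r x he hli hs
    have h1 := G.hc _ (hbig x)
    rw [ell, ← hs, finrank_span_eq_card (linearIndependent_lifts he hli), Fintype.card_fin,
      map_sub, G.deg_D] at h1
    omega
  have hd := hdim he₀ hli₀ hs₀
  -- coordinates of reductions
  have hco : ∀ {n : ℕ} {r : Fin n → Fk} {x : V},
      Submodule.span k (Set.range r) = riemannRochSpace (R.push G.A₀ - R.push (G.D x)) →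
      ∃ M : Fin n → Fin G.n → k, ∀ m, r m = ∑ i, M m i • G.zAb i := by
    intro n r x hs
    have h : ∀ m, r m ∈ Submodule.span k (Set.range G.zAb) := fun m => by
      rw [G.span_zAb]
      exact riemannRochSpace_mono (sub_le_self _ (Reduction.push_nonneg (G.D_nonneg x)))
        (by rw [← hs]; exact Submodule.subset_span ⟨m, rfl⟩)
    choose M hM using fun m => (Submodule.mem_span_range_iff_exists_fun k).1 (h m)
    exact ⟨M, fun m => (hM m).symm⟩
  obtain ⟨Mb, hMb⟩ := hco hsb₀
  have hMli : LinearIndependent k Mb := by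
    rw [show r₀ = Fintype.linearCombination k G.zAb ∘ Mb from funext fun m => hMb m] at hli₀
    exact hli₀.of_comp
  obtain ⟨J, hJ⟩ := exists_pivots Mb hMli
  set B : Matrix (Fin d) (Fin d) k := Matrix.of fun m m' => Mb m (J m')
  set ab : Matrix (Fin d) (Fin G.n) k := B⁻¹ * Matrix.of Mb
  have habJ : ∀ m m', ab m (J m') = if m = m' then 1 else 0 := fun m m' => by
    have h := congrFun (congrFun (Matrix.nonsing_inv_mul B hJ) m) m'
    rw [Matrix.one_apply] at h
    rw [← h]
    rfl
  have habsum : ∀ m, ∑ i, ab m i • G.zAb i = ∑ l, B⁻¹ m l • r₀ l := fun m => by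
    simp only [ab, Matrix.mul_apply, Matrix.of_apply, Finset.sum_smul, mul_smul]
    rw [Finset.sum_comm]
    exact Finset.sum_congr rfl fun l _ => by rw [← Finset.smul_sum, ← hMb l]
  have habspan : Submodule.span k (Set.range fun m => ∑ i, ab m i • G.zAb i) =
      riemannRochSpace (R.push G.A₀ - R.push (G.D x₀)) := by
    rw [← hsb₀]
    refine le_antisymm (Submodule.span_le.2 (Set.range_subset_iff.2 fun m => ?_))
      (Submodule.span_le.2 (Set.range_subset_iff.2 fun l => ?_))
    · rw [SetLike.mem_coe, habsum]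
      exact Submodule.sum_mem _ fun l _ => Submodule.smul_mem _ _ (Submodule.subset_span ⟨l, rfl⟩)
    · rw [SetLike.mem_coe, Submodule.mem_span_range_iff_exists_fun]
      refine ⟨fun m => B l m, ?_⟩
      simp only [habsum, Finset.smul_sum, smul_smul]
      rw [Finset.sum_comm]
      simp only [← Finset.sum_smul, ← Matrix.mul_apply, Matrix.mul_nonsing_inv B hJ,
        Matrix.one_apply, ite_smul, one_smul, zero_smul, Finset.sum_ite_eq, Finset.mem_univ, if_true]
  have hablin : LinearIndependent k fun m => ∑ i, ab m i • G.zAb i := by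
    rw [linearIndependent_iff_card_eq_finrank_span, Set.finrank, habspan, ← hsb₀,
      finrank_span_eq_card hli₀]
  -- lifting at a point of the class
  have hlift : ∀ x, R.push (G.D x) = R.push (G.D x₀) → ∃ a : Fin d → Fin G.n → K,
      (∀ m m', a m (J m') = if m = m' then 1 else 0) ∧
      Submodule.span K (Set.range fun m => ∑ i, a m i • G.zA i) =
        riemannRochSpace (G.A₀ - G.D x) ∧ ∀ m i, ∃ h : a m i ∈ A, R.π ⟨_, h⟩ = ab m i := by
    intro x hx
    obtain ⟨n, e, r, he, hli, hs, hsb⟩ := exists_basis_large hF hk hg G.hc G.hc' _ (hbig x)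
    rw [push_sub, hx] at hsb
    obtain rfl : n = d := by have := hdim he hli hs; omega
    have hc : ∀ m, ∃ c : Fin G.n → K, e m = ∑ i, c i • G.zA i := fun m => by
      have h : e m ∈ Submodule.span K (Set.range G.zA) := by
        rw [G.span_zA]
        exact riemannRochSpace_mono (sub_le_self _ (G.D_nonneg x))
          (by rw [← hs]; exact Submodule.subset_span ⟨m, rfl⟩)
      obtain ⟨c, hc⟩ := (Submodule.mem_span_range_iff_exists_fun K).1 h
      exact ⟨c, hc.symm⟩
    choose c hc using hc
    let C : Matrix (Fin n) (Fin G.n) A := Matrix.of fun m i =>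
      ⟨c m i, coord_mem G.red_zA G.indep_zAb (c m) (hc m) (he m) i⟩
    have hCr : ∀ m, r m = ∑ i, R.π (C m i) • G.zAb i := fun m =>
      Reduction.Red.unique (he m) (by
        rw [hc m]; exact red_finsetSum _ fun i _ => red_smul (G.red_zA i) (C m i).2)
    -- express in the echelon rows
    have hG : ∀ m, ∃ g : Fin n → k, r m = ∑ l, g l • r₀ l := fun m => by
      have : r m ∈ Submodule.span k (Set.range r₀) := by
        rw [hsb₀, ← hsb]; exact Submodule.subset_span ⟨m, rfl⟩
      obtain ⟨g, hg'⟩ := (Submodule.mem_span_range_iff_exists_fun k).1 this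
      exact ⟨g, hg'.symm⟩
    choose Gm hGm using hG
    have hCG : C.map R.π = Matrix.of Gm * Matrix.of Mb := by
      ext m i
      have h2 : ∑ i, (R.π (C m i) - ∑ l, Gm m l * Mb l i) • G.zAb i = 0 := by
        simp only [sub_smul, Finset.sum_sub_distrib, Finset.sum_smul, mul_smul, ← hCr]
        rw [Finset.sum_comm, sub_eq_zero, hGm m]
        exact Finset.sum_congr rfl fun l _ => by rw [← Finset.smul_sum, ← hMb l]
      exact sub_eq_zero.1 (Fintype.linearIndependent_iff.1 G.indep_zAb _ h2 i)
    have hGu : IsUnit (Matrix.of Gm).det := by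
      rw [← Matrix.isUnit_iff_isUnit_det, ← Matrix.linearIndependent_rows_iff_isUnit]
      rw [show r = Fintype.linearCombination k r₀ ∘ Gm from funext fun m => hGm m] at hli
      exact hli.of_comp
    let CJ : Matrix (Fin n) (Fin n) A := Matrix.of fun m m' => C m (J m')
    have hCJ : CJ.map R.π = Matrix.of Gm * B := by
      ext m m'
      exact congrFun (congrFun hCG m) (J m')
    have hu : IsUnit CJ.det := isUnit_of_map_ne_zero R.π_eq_zero (by
      rw [RingHom.map_det, RingHom.mapMatrix_apply, hCJ, Matrix.det_mul]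
      exact (hGu.mul hJ).ne_zero)
    let a : Matrix (Fin n) (Fin G.n) A := CJ⁻¹ * C
    have ha : ∀ m, ∑ i, (a m i : K) • G.zA i = ∑ l, ((CJ⁻¹ m l : A) : K) • e l := fun m => by
      simp only [a, Matrix.mul_apply, AddSubmonoidClass.coe_finsetSum, MulMemClass.coe_mul,
        Finset.sum_smul, mul_smul]
      rw [Finset.sum_comm]
      exact Finset.sum_congr rfl fun l _ => by rw [← Finset.smul_sum, hc l]; rfl
    refine ⟨fun m i => a m i, fun m m' => ?_, ?_, fun m i => ⟨(a m i).2, ?_⟩⟩
    · have h := congrFun (congrFun (Matrix.nonsing_inv_mul CJ hu) m) m'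
      rw [Matrix.one_apply] at h
      have h' : a m (J m') = if m = m' then 1 else 0 := by rw [← h]; rfl
      show ((a m (J m') : A) : K) = _
      rw [h']
      split_ifs <;> rfl
    · rw [← hs]
      refine le_antisymm (Submodule.span_le.2 (Set.range_subset_iff.2 fun m => ?_))
        (Submodule.span_le.2 (Set.range_subset_iff.2 fun l => ?_))
      · rw [SetLike.mem_coe, ha]
        exact Submodule.sum_mem _ fun l _ => Submodule.smul_mem _ _ (Submodule.subset_span ⟨l, rfl⟩)
      · rw [SetLike.mem_coe, Submodule.mem_span_range_iff_exists_fun]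
        refine ⟨fun m => (CJ l m : K), ?_⟩
        simp only [ha, Finset.smul_sum, smul_smul]
        rw [Finset.sum_comm]
        simp only [← Finset.sum_smul]
        rw [Finset.sum_eq_single l (fun l' _ hl' => ?_) fun h => absurd (Finset.mem_univ l) h]
        · have h := congrArg (fun x : A => (x : K))
            (congrFun (congrFun (Matrix.mul_nonsing_inv CJ hu) l) l)
          simp only [Matrix.mul_apply, Matrix.one_apply_eq, AddSubmonoidClass.coe_finsetSum,
            MulMemClass.coe_mul, OneMemClass.coe_one] at h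
          rw [h, one_smul]
        · have h := congrArg (fun x : A => (x : K))
            (congrFun (congrFun (Matrix.mul_nonsing_inv CJ hu) l) l')
          simp only [Matrix.mul_apply, Matrix.one_apply_ne' hl', AddSubmonoidClass.coe_finsetSum,
            MulMemClass.coe_mul, ZeroMemClass.coe_zero] at h
          rw [h, zero_smul]
    · show R.π (a m i) = ab m i
      rw [show R.π (a m i) = (a.map R.π) m i from rfl]
      have h1 : (CJ⁻¹).map R.π = (Matrix.of Gm * B)⁻¹ := by
        refine (Matrix.inv_eq_left_inv ?_).symm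
        rw [← hCJ, ← Matrix.map_mul, Matrix.nonsing_inv_mul CJ hu, Matrix.map_one _ (map_zero _) (map_one _)]
      simp only [a, Matrix.map_mul, h1, hCG, Matrix.mul_inv_rev, Matrix.mul_assoc]
      rw [← Matrix.mul_assoc (Matrix.of Gm)⁻¹, Matrix.nonsing_inv_mul _ hGu, Matrix.one_mul]
  choose a ha₁ ha₂ ha₃ using hlift
  exact ⟨{ d := d, d_pos := by omega, J := J
           a := fun x => if h : R.push (G.D x) = R.push (G.D x₀) then a x h else 0
           ab := fun m i => ab m i, ab_piv := habJ, ab_li := hablin, ab_span := habspan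
           a_piv := fun x h => by simp only [dif_pos h]; exact ha₁ x h
           a_span := fun x h => by simp only [dif_pos h]; exact ha₂ x h
           a_res := fun x h => by simp only [dif_pos h]; exact ha₃ x h }⟩

/-- The chosen echelon data. -/
def ech (x₀ : V) : G.Echelon x₀ := (G.exists_echelon x₀).some

open Classical in
/-- The generating functions. -/
def gen (γ : Σ x₀ : V, Fin (G.ech x₀).d × Fin G.n) (x : V) : K :=
  if R.push (G.D x) = R.push (G.D γ.1) then (G.ech γ.1).a x γ.2.1 γ.2.2 else 0

theorem gen_mem (γ : Σ x₀ : V, Fin (G.ech x₀).d × Fin G.n) (x : V) : G.gen γ x ∈ A := by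
  rw [gen]
  split_ifs with h
  · exact ((G.ech γ.1).a_res x h _ _).1
  · exact zero_mem A

theorem gen_separates {x y : V} (h : ∀ γ, G.gen γ x = G.gen γ y) : x = y := by
  classical
  let E' := G.ech x
  have hc : R.push (G.D y) = R.push (G.D x) := by
    by_contra hne
    have := h ⟨x, ⟨0, E'.d_pos⟩, E'.J ⟨0, E'.d_pos⟩⟩
    simp only [gen, if_pos, if_neg hne] at this
    rw [E'.a_piv x rfl, if_pos rfl] at this
    exact one_ne_zero this
  have hU : riemannRochSpace (G.A₀ - G.D x) = riemannRochSpace (G.A₀ - G.D y) := by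
    rw [← E'.a_span x rfl, ← E'.a_span y hc]
    congr 2
    funext m
    refine Finset.sum_congr rfl fun i _ => ?_
    have := h ⟨x, m, i⟩
    simp only [gen, if_pos hc] at this
    exact congrArg (· • G.zA i) this
  refine G.D_inj (Finsupp.ext fun v => ?_)
  have hdA := G.deg_A₀
  have hattain : ∀ z, ∃ w ∈ riemannRochSpace (G.A₀ - G.D z), w ≠ 0 ∧ v.ord w = -(G.A₀ - G.D z) v := by
    intro z
    haveI := finite_riemannRochSpace hF (G.A₀ - G.D z)
    obtain ⟨j, hj, hjv⟩ := (gen_of_span hF (Q := G.A₀ - G.D z)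
      (u := fun w : riemannRochSpace (G.A₀ - G.D z) => (w : F)) (by simp) G.hc (by
        rw [map_sub, G.deg_D]; omega)).2 v
    exact ⟨(j : F), j.2, hj, hjv⟩
  obtain ⟨w, hw, hw0, hwv⟩ := hattain x
  obtain ⟨w', hw', hw'0, hw'v⟩ := hattain y
  rw [hU] at hw
  rw [← hU] at hw'
  have h1 := (atLeast_iff hw0).1 (FA.Curve.mem_riemannRochSpace.1 hw v)
  have h2 := (atLeast_iff hw'0).1 (FA.Curve.mem_riemannRochSpace.1 hw' v)
  rw [Finsupp.sub_apply] at h1 h2 hwv hw'v
  omega

/-- Semilinear symmetries preserving the classes permute the coordinates. -/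
theorem gen_map (σK : K →+* K) (σF : F →+* F)
    (hσ : ∀ (a : K) (f : F), σF (a • f) = σK a • σF f) (act : V → V)
    (hz : ∀ i, σF (G.zA i) = G.zA i)
    (hU : ∀ x, ∀ f ∈ riemannRochSpace (G.A₀ - G.D x), σF f ∈ riemannRochSpace (G.A₀ - G.D (act x)))
    (hcls : ∀ x, R.push (G.D (act x)) = R.push (G.D x))
    (γ : Σ x₀ : V, Fin (G.ech x₀).d × Fin G.n) (x : V) :
    σK (G.gen γ x) = G.gen γ (act x) := by
  classical
  simp only [gen, hcls]
  split_ifs with h
  · let E' := G.ech γ.1
    have h' : R.push (G.D (act x)) = R.push (G.D γ.1) := (hcls x).trans h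
    have heq := echelon_unique G.indep_zA (a := E'.a (act x))
      (b := fun m i => σK (E'.a x m i)) (E'.a_piv _ h')
      (fun m m' => by rw [E'.a_piv x h]; split_ifs <;> simp) fun m => by
        rw [E'.a_span _ h']
        have hm := hU x (∑ i, E'.a x m i • G.zA i)
          (E'.a_span x h ▸ Submodule.subset_span ⟨m, rfl⟩)
        simpa only [map_sum, hσ, hz] using hm
    exact (congrFun (congrFun heq γ.2.1) γ.2.2).symm
  · exact map_zero σK

/-- The functions on pairs generated by the two pullbacks. -/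
def pairAlg : Subalgebra A (V × V → K) :=
  Algebra.adjoin A
    (Set.range (fun γ (p : V × V) => G.gen γ p.1) ∪ Set.range fun γ (p : V × V) => G.gen γ p.2)

theorem fst_mem (γ : Σ x₀ : V, Fin (G.ech x₀).d × Fin G.n) :
    (fun p : V × V => G.gen γ p.1) ∈ G.pairAlg :=
  Algebra.subset_adjoin (Or.inl ⟨γ, rfl⟩)

theorem snd_mem (γ : Σ x₀ : V, Fin (G.ech x₀).d × Fin G.n) :
    (fun p : V × V => G.gen γ p.2) ∈ G.pairAlg :=
  Algebra.subset_adjoin (Or.inr ⟨γ, rfl⟩)

variable [Finite V]

include hk in
/-- The addition map pulls the generators into the algebra of pairs. -/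
theorem gen_add_mem (γ : Σ x₀ : V, Fin (G.ech x₀).d × Fin G.n) :
    (fun p : V × V => G.gen γ (p.1 + p.2)) ∈ G.pairAlg := by
  classical
  haveI := Fintype.ofFinite V
  set Φf := fun p : V × V => G.gen γ (p.1 + p.2) with hΦf
  let cls : V × V → Divisor k Fk × Divisor k Fk := fun p => (R.push (G.D p.1), R.push (G.D p.2))
  have hloc : ∀ p₁ : V × V, ∃ t ∈ G.pairAlg, ∀ p, cls p = cls p₁ → Φf p = t p := by
    intro p₁
    let C := {p : V × V // cls p = cls p₁}
    haveI : Nonempty C := ⟨⟨p₁, rfl⟩⟩
    have hp₁ : ∀ p : C, R.push (G.D p.1.1) = R.push (G.D p₁.1) := fun p => (Prod.mk.inj p.2).1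
    have hp₂ : ∀ p : C, R.push (G.D p.1.2) = R.push (G.D p₁.2) := fun p => (Prod.mk.inj p.2).2
    let res : (V × V → K) →ₐ[A] (C → K) :=
      AlgHom.pi fun p : C => Pi.evalAlgHom A (fun _ : V × V => K) p.1
    set S := G.pairAlg.map res
    have hcong : ∀ (f : C → V), (∀ p q : C, R.push (G.D (f p)) = R.push (G.D (f q))) →
        ∀ δ, (fun p : C => G.gen δ (f p)) ∈ congAlg R.π C := by
      intro f hf δ
      refine ⟨fun p => G.gen_mem δ _, fun p q hp hq => ?_⟩
      by_cases hd : R.push (G.D (f p)) = R.push (G.D δ.1)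
      · obtain ⟨h1, e1⟩ := (G.ech δ.1).a_res (f p) hd δ.2.1 δ.2.2
        obtain ⟨h2, e2⟩ := (G.ech δ.1).a_res (f q) ((hf q p).trans hd) δ.2.1 δ.2.2
        simp only [gen, if_pos hd, if_pos ((hf q p).trans hd)]
        rw [e1, e2]
      · simp only [gen, if_neg hd, if_neg fun h => hd ((hf p q).trans h)]
    have hS : S ≤ congAlg R.π C := by
      rw [Subalgebra.map_le]
      refine Algebra.adjoin_le ?_
      rintro _ (⟨δ, rfl⟩ | ⟨δ, rfl⟩)
      · exact hcong (fun p => p.1.1) (fun p q => (hp₁ p).trans (hp₁ q).symm) δ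
      · exact hcong (fun p => p.1.2) (fun p q => (hp₂ p).trans (hp₂ q).symm) δ
    let L := locData R.π_surjective R.π_eq_zero (Classical.arbitrary C) S hS
    have hfam : ∀ (f : C → V) (x₁ : V), (∀ p, R.push (G.D (f p)) = R.push (G.D x₁)) →
        (∀ δ, (fun p : C => G.gen δ (f p)) ∈ S) →
        SFam L G.zA G.zAb (fun p => riemannRochSpace (G.A₀ - G.D (f p)))
          (riemannRochSpace (R.push G.A₀ - R.push (G.D x₁))) := by
      intro f x₁ hf hmem
      let E' := G.ech x₁
      let a : Fin E'.d → Fin G.n → S := fun m i => ⟨_, hmem ⟨x₁, m, i⟩⟩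
      have hev : ∀ p m i, L.ev p (a m i) = E'.a (f p) m i := fun p m i => by
        show G.gen ⟨x₁, m, i⟩ (f p) = _
        simp only [gen, if_pos (hf p), E']
      have hres : ∀ m i, L.res (a m i) = E'.ab m i := fun m i => by
        let p : C := Classical.arbitrary C
        obtain ⟨h1, e1⟩ := L.ev_res p (a m i)
        obtain ⟨h2, e2⟩ := E'.a_res (f p) (hf p) m i
        rw [← e1, ← e2]
        congr 1
        exact Subtype.ext (hev p m i)
      refine ⟨E'.d, a, fun p => ?_, ?_, ?_⟩
      · simp only [hev]; exact E'.a_span _ (hf p)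
      · simp only [hres]; exact E'.ab_li
      · simp only [hres]; exact E'.ab_span
    have hdA := G.deg_A₀
    obtain ⟨D₃b, hD₃b, d, a, ha, hali, hasp⟩ := sFam_add hF hk G.genus_eq G.hc G.hc' G.A₀_nonneg
      (by omega) G.red_zA G.indep_zAb G.span_zA G.span_zAb
      (D₁ := fun p : C => G.D p.1.1) (D₂ := fun p : C => G.D p.1.2)
      (D₃ := fun p : C => G.D (p.1.1 + p.1.2)) (D₁b := R.push (G.D p₁.1))
      (D₂b := R.push (G.D p₁.2)) (L := L) G.E_nonneg G.deg_E (fun p => G.D_nonneg _)
      (fun p => G.D_nonneg _) (fun p => G.deg_D _) (fun p => G.deg_D _) hp₁ hp₂ (G.good _ _)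
      (fun p => G.D_nonneg _) (fun p => G.D_add _ _)
      (hfam (fun p => p.1.1) p₁.1 hp₁ fun δ => ⟨_, G.fst_mem δ, rfl⟩)
      (hfam (fun p => p.1.2) p₁.2 hp₂ fun δ => ⟨_, G.snd_mem δ, rfl⟩)
    by_cases hD : D₃b = R.push (G.D γ.1)
    swap
    · exact ⟨0, zero_mem _, fun p hp => by
        simp only [Φf, gen, Pi.zero_apply]
        rw [if_neg]
        exact fun h => hD ((hD₃b ⟨p, hp⟩).symm.trans h)⟩
    set E' := G.ech γ.1
    subst hD
    obtain rfl : d = E'.d := by
      have h := congrArg (fun W : Submodule k Fk => Module.finrank k W) (hasp.trans E'.ab_span.symm)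
      simpa [finrank_span_eq_card hali, finrank_span_eq_card E'.ab_li] using h
    let aJ : Matrix (Fin E'.d) (Fin E'.d) S := Matrix.of fun m m' => a m (E'.J m')
    have hG : ∀ m, ∃ g : Fin E'.d → k, ∀ i, L.res (a m i) = ∑ l, g l * E'.ab l i := fun m => by
      have hm : (∑ i, L.res (a m i) • G.zAb i) ∈
          Submodule.span k (Set.range fun l => ∑ i, E'.ab l i • G.zAb i) := by
        rw [E'.ab_span, ← hasp]; exact Submodule.subset_span ⟨m, rfl⟩
      obtain ⟨g, hg⟩ := (Submodule.mem_span_range_iff_exists_fun k).1 hm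
      refine ⟨g, fun i => ?_⟩
      have h2 : ∑ i, (L.res (a m i) - ∑ l, g l * E'.ab l i) • G.zAb i = 0 := by
        simp only [sub_smul, Finset.sum_sub_distrib, Finset.sum_smul, mul_smul]
        rw [Finset.sum_comm, sub_eq_zero, ← hg]
        simp only [Finset.smul_sum]
      exact sub_eq_zero.1 (Fintype.linearIndependent_iff.1 G.indep_zAb _ h2 i)
    choose g hg using hG
    have hgu : IsUnit (Matrix.of g).det := by
      rw [← Matrix.isUnit_iff_isUnit_det, ← Matrix.linearIndependent_rows_iff_isUnit]
      rw [show (fun m => ∑ i, L.res (a m i) • G.zAb i) =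
          Fintype.linearCombination k (fun l => ∑ i, E'.ab l i • G.zAb i) ∘ g from funext fun m => by
        show _ = ∑ l, g m l • ∑ i, E'.ab l i • G.zAb i
        simp only [hg, Finset.sum_smul, mul_smul, Finset.smul_sum]
        exact Finset.sum_comm] at hali
      exact hali.of_comp
    have hu : IsUnit aJ.det := L.isUnit _ (by
      rw [RingHom.map_det, RingHom.mapMatrix_apply, show aJ.map L.res = Matrix.of g from
        Matrix.ext fun m m' => by
          show L.res (a m (E'.J m')) = g m m'
          rw [hg]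
          simp [E'.ab_piv]]
      exact hgu.ne_zero)
    let a' : Matrix (Fin E'.d) (Fin G.n) S := aJ⁻¹ * Matrix.of a
    obtain ⟨t, ht, hte⟩ := (a' γ.2.1 γ.2.2).2
    refine ⟨t, ht, fun p hp => ?_⟩
    have hcl := hD₃b ⟨p, hp⟩
    have heq := echelon_unique G.indep_zA (a := E'.a (p.1 + p.2))
      (b := fun m i => L.ev ⟨p, hp⟩ (a' m i)) (E'.a_piv _ hcl)
      (fun m m' => by
        have h := congrArg (L.ev ⟨p, hp⟩) (congrFun (congrFun (Matrix.nonsing_inv_mul aJ hu) m) m')
        rw [Matrix.one_apply] at h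
        refine h.trans ?_
        split_ifs <;> simp) fun m => by
        rw [E'.a_span _ hcl]
        have h := ha ⟨p, hp⟩
        simp only at h
        show _ ∈ riemannRochSpace (G.A₀ - G.D (p.1 + p.2))
        rw [← h, Submodule.mem_span_range_iff_exists_fun]
        refine ⟨fun l => L.ev ⟨p, hp⟩ (aJ⁻¹ m l), ?_⟩
        simp only [a', Matrix.mul_apply, Matrix.of_apply, map_sum, map_mul, Finset.sum_smul,
          mul_smul, Finset.smul_sum]
        exact Finset.sum_comm
    simp only [Φf, gen, if_pos hcl]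
    refine (congrFun (congrFun heq γ.2.1) γ.2.2).trans ?_
    exact (congrFun hte ⟨p, hp⟩).symm
  -- glue the pieces
  choose t ht hte using hloc
  let ind : V → V → K := fun x₁ => G.gen ⟨x₁, ⟨0, (G.ech x₁).d_pos⟩, (G.ech x₁).J ⟨0, (G.ech x₁).d_pos⟩⟩
  have hind : ∀ x₁ x, ind x₁ x = if R.push (G.D x) = R.push (G.D x₁) then 1 else 0 := by
    intro x₁ x
    simp only [ind, gen]
    split_ifs with h
    · rw [(G.ech x₁).a_piv x h, if_pos rfl]
    · rfl
  set Cs := Finset.univ.image cls
  have hrep : ∀ c : Cs, ∃ p, cls p = c := fun c => by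
    obtain ⟨p, -, hp⟩ := Finset.mem_image.1 c.2
    exact ⟨p, hp⟩
  choose rep hrep using hrep
  have hsum : Φf = ∑ c : Cs,
      (fun p : V × V => ind (rep c).1 p.1) * (fun p : V × V => ind (rep c).2 p.2) * t (rep c) := by
    funext p
    simp only [Finset.sum_apply, Pi.mul_apply, hind]
    rw [Finset.sum_eq_single ⟨cls p, Finset.mem_image_of_mem _ (Finset.mem_univ p)⟩
      (fun c _ hc => ?_) fun h => absurd (Finset.mem_univ _) h]
    · have h := hrep ⟨cls p, Finset.mem_image_of_mem _ (Finset.mem_univ p)⟩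
      obtain ⟨h1, h2⟩ := Prod.mk.inj h
      rw [if_pos h1.symm, if_pos h2.symm, one_mul, one_mul]
      exact hte _ p h.symm
    · have : ¬ (R.push (G.D p.1) = R.push (G.D (rep c).1) ∧
          R.push (G.D p.2) = R.push (G.D (rep c).2)) := fun h => hc (Subtype.ext (by
        rw [← hrep c]; exact (Prod.ext h.1 h.2).symm))
      rcases not_and_or.1 this with h | h <;> simp [h]
  rw [hsum]
  exact sum_mem fun c _ => mul_mem (mul_mem (G.fst_mem _) (G.snd_mem _)) (ht _)

end Cfg

end FA.FlatModel
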