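import Mathlib.RingTheory.Valuation.ValuationSubring
import Mathlib.LinearAlgebra.Matrix.NonsingularInverse
import Mathlib.LinearAlgebra.Matrix.ToLin
import Mathlib.LinearAlgebra.Dimension.Constructions
import Mathlib.LinearAlgebra.FiniteDimensional.Lemmas

/-!
# Kernels over a ring with a residue map and evaluations

`LocData` is a ring with evaluations at the points of a residue class and a common residue map.
A matrix whose kernel has the same dimension at every point and modulo the maximal ideal has a
kernel spanned by vectors over the ring with independent residues.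
-/

set_option autoImplicit false

noncomputable section

namespace FA.FlatModel

open Matrix

/-- A ring with evaluations at the points of one residue class. -/
structure LocData (K : Type*) [Field K] (k : Type*) [Field k] {A : ValuationSubring K}
    (π : A →+* k) (P S : Type*) [CommRing S] where
  /-- the evaluations -/
  ev : P → S →+* K
  /-- the residue map -/
  res : S →+* k
  res_surjective : Function.Surjective res
  /-- the constants -/
  const : A →+* S
  ev_const : ∀ p a, ev p (const a) = a
  res_const : ∀ a, res (const a) = π a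
  ev_res : ∀ p s, ∃ h : ev p s ∈ A, π ⟨ev p s, h⟩ = res s
  isUnit : ∀ s, res s ≠ 0 → IsUnit s

namespace LocData

variable {K : Type*} [Field K] {k : Type*} [Field k] {A : ValuationSubring K} {π : A →+* k}
  {P S : Type*} [CommRing S] (L : LocData K k π P S) (hπ0 : ∀ a : A, π a = 0 ↔ A.valuation a < 1)

include hπ0 in
theorem ev_ne_zero {s : S} (hs : L.res s ≠ 0) (p : P) : L.ev p s ≠ 0 := fun h => by
  obtain ⟨h1, h2⟩ := L.ev_res p s
  refine hs ?_
  rw [← h2, hπ0]
  simp [h]

include hπ0 in
/-- Vectors with independent residues are independent at every point. -/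
theorem linearIndependent_ev {ι μ : Type*} [Fintype ι] [Fintype μ] (v : ι → μ → S)
    (h : LinearIndependent k fun i m => L.res (v i m)) (p : P) :
    LinearIndependent K fun i m => L.ev p (v i m) := by
  classical
  rw [Fintype.linearIndependent_iff]
  intro c hc
  by_contra hne
  push Not at hne
  obtain ⟨i₀, hi₀⟩ := hne
  obtain ⟨j, -, hj⟩ := Finset.exists_max_image Finset.univ (fun i => A.valuation (c i))
    ⟨i₀, Finset.mem_univ _⟩
  have hj0 : c j ≠ 0 := fun h0 => hi₀ (by
    have h1 := hj i₀ (Finset.mem_univ _)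
    rw [h0, map_zero] at h1
    exact (map_eq_zero A.valuation).1 (le_antisymm h1 zero_le))
  have hA : ∀ i, c i / c j ∈ A := fun i => (A.valuation_le_one_iff _).1 (by
    rw [map_div₀]
    exact div_le_one_of_le₀ (hj i (Finset.mem_univ _)) zero_le)
  have h1 := Fintype.linearIndependent_iff.1 h (fun i => π ⟨_, hA i⟩) ?_ j
  · rw [hπ0] at h1
    simp [div_self hj0] at h1
  funext m
  choose e he using fun i => L.ev_res p (v i m)
  have h2 : (∑ i, (⟨_, hA i⟩ : A) * ⟨_, e i⟩ : A) = 0 := Subtype.ext (by
    have h3 := congrFun hc m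
    simp only [Finset.sum_apply, Pi.smul_apply, smul_eq_mul, Pi.zero_apply] at h3
    rw [ZeroMemClass.coe_zero, ← mul_zero ((c j)⁻¹), ← h3, Finset.mul_sum,
      AddSubmonoidClass.coe_finsetSum]
    exact Finset.sum_congr rfl fun i _ => by
      rw [MulMemClass.coe_mul]
      show c i / c j * L.ev p (v i m) = _
      ring)
  have h4 := congrArg π h2
  rw [map_sum, map_zero] at h4
  simp only [Finset.sum_apply, Pi.smul_apply, smul_eq_mul, Pi.zero_apply]
  rw [← h4]
  exact Finset.sum_congr rfl fun i _ => by rw [map_mul, he i]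

theorem ev_mulVec {ρ μ : Type*} [Fintype μ] (M : Matrix ρ μ S) (v : μ → S) (p : P) :
    M.map (L.ev p) *ᵥ (fun m => L.ev p (v m)) = fun i => L.ev p ((M *ᵥ v) i) := by
  funext i
  exact (RingHom.map_mulVec (L.ev p) M v i).symm

include hπ0 in
/-- **Kernels of constant dimension are defined over the ring.** -/
theorem exists_kernel {ρ μ : Type*} [Fintype ρ] [Fintype μ] (M : Matrix ρ μ S) (d : ℕ)
    (hgen : ∀ p, Module.finrank K (LinearMap.ker (M.map (L.ev p)).mulVecLin) = d)
    (hres : Module.finrank k (LinearMap.ker (M.map L.res).mulVecLin) = d) :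
    ∃ a : Fin d → μ → S,
      (∀ p, Submodule.span K (Set.range fun i m => L.ev p (a i m)) =
        LinearMap.ker (M.map (L.ev p)).mulVecLin) ∧
      LinearIndependent k (fun i m => L.res (a i m)) ∧
      Submodule.span k (Set.range fun i m => L.res (a i m)) =
        LinearMap.ker (M.map L.res).mulVecLin := by
  classical
  set Mb := M.map L.res with hMb
  set f := Mb.mulVecLin with hf
  -- a basis of the image, a projection to it and a section
  set r := Module.finrank k (LinearMap.range f)
  let b := Module.finBasis k (LinearMap.range f)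
  obtain ⟨q, hq⟩ := (LinearMap.range f).subtype.exists_leftInverse_of_injective
    (Submodule.ker_subtype _)
  let g : (μ → k) →ₗ[k] (Fin r → k) := (b.equivFun.toLinearMap ∘ₗ q) ∘ₗ f
  have hgf : ∀ x, g x = b.equivFun ⟨f x, LinearMap.mem_range_self f x⟩ := fun x => by
    show b.equivFun (q (f x)) = _
    congr 1
    exact LinearMap.congr_fun hq ⟨f x, LinearMap.mem_range_self f x⟩
  have hgs : Function.Surjective g := fun y => by
    obtain ⟨x, hx⟩ := (b.equivFun.symm y).2
    refine ⟨x, ?_⟩
    rw [hgf, show (⟨f x, LinearMap.mem_range_self f x⟩ : LinearMap.range f) = b.equivFun.symm y from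
      Subtype.ext hx, LinearEquiv.apply_symm_apply]
  obtain ⟨σ, hσ⟩ := g.exists_rightInverse_of_surjective (LinearMap.range_eq_top.2 hgs)
  choose sec hsec using L.res_surjective
  let T : Matrix (Fin r) ρ S := (LinearMap.toMatrix' (b.equivFun.toLinearMap ∘ₗ q)).map sec
  let Sg : Matrix μ (Fin r) S := (LinearMap.toMatrix' σ).map sec
  have hT : T.map L.res = LinearMap.toMatrix' (b.equivFun.toLinearMap ∘ₗ q) := by
    ext i j; exact hsec _
  have hSg : Sg.map L.res = LinearMap.toMatrix' σ := by
    ext i j; exact hsec _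
  set B : Matrix (Fin r) (Fin r) S := T * M * Sg with hBdef
  have hB : B.map L.res = 1 := by
    rw [hBdef, Matrix.map_mul, Matrix.map_mul, hT, hSg, ← hMb,
      ← LinearMap.toMatrix'_toLin' Mb, Matrix.toLin'_apply', ← hf, ← LinearMap.toMatrix'_comp,
      ← LinearMap.toMatrix'_comp]
    rw [show ((b.equivFun.toLinearMap ∘ₗ q) ∘ₗ f) ∘ₗ σ = LinearMap.id from hσ,
      LinearMap.toMatrix'_id]
  have hBdet : IsUnit B.det := L.isUnit _ (by
    rw [RingHom.map_det, RingHom.mapMatrix_apply, hB, Matrix.det_one]
    exact one_ne_zero)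
  let bk := Module.finBasisOfFinrankEq k (LinearMap.ker f) hres
  let κ : Fin d → μ → S := fun i m => sec ((bk i : μ → k) m)
  let a : Fin d → μ → S := fun i => κ i - Sg *ᵥ (B⁻¹ *ᵥ ((T * M) *ᵥ κ i))
  have ha0 : ∀ i, (T * M) *ᵥ a i = 0 := fun i => by
    simp only [a]
    rw [Matrix.mulVec_sub, Matrix.mulVec_mulVec _ (T * M) Sg, ← hBdef, Matrix.mulVec_mulVec _ B B⁻¹,
      Matrix.mul_nonsing_inv _ hBdet, Matrix.one_mulVec, sub_self]
  have hares : (fun i m => L.res (a i m)) = fun i => (bk i : μ → k) := by
    funext i m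
    have h0 : ∀ j, L.res (((T * M) *ᵥ κ i) j) = 0 := fun j => by
      rw [RingHom.map_mulVec, Matrix.map_mul, hT, show L.res ∘ κ i = (bk i : μ → k) from
        funext fun m => hsec _, ← Matrix.mulVec_mulVec, show M.map L.res *ᵥ (bk i : μ → k) = 0 from
        (bk i).2, Matrix.mulVec_zero]
      rfl
    simp only [a, Pi.sub_apply, map_sub]
    rw [show L.res (κ i m) = (bk i : μ → k) m from hsec _, RingHom.map_mulVec,
      show L.res ∘ (B⁻¹ *ᵥ ((T * M) *ᵥ κ i)) = 0 from funext fun j => by
        show L.res _ = 0
        rw [RingHom.map_mulVec, show L.res ∘ ((T * M) *ᵥ κ i) = 0 from funext h0, Matrix.mulVec_zero]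
        rfl, Matrix.mulVec_zero, Pi.zero_apply, sub_zero]
  have hli : LinearIndependent k fun i m => L.res (a i m) := by
    rw [hares]
    exact bk.linearIndependent.map' (LinearMap.ker f).subtype (Submodule.ker_subtype _)
  refine ⟨a, fun p => ?_, hli, ?_⟩
  swap
  · rw [hares, show (fun i => (bk i : μ → k)) = (LinearMap.ker f).subtype ∘ bk from rfl,
      Set.range_comp, Submodule.span_image, bk.span_eq, Submodule.map_top, Submodule.range_subtype]
  -- at a point
  set Mp := (M.map (L.ev p)).mulVecLin
  set Tp := (T.map (L.ev p)).mulVecLin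
  have hTM : Tp ∘ₗ Mp = ((T * M).map (L.ev p)).mulVecLin := by
    rw [Matrix.map_mul, Matrix.mulVecLin_mul]
  have hsurj : Function.Surjective (Tp ∘ₗ Mp) := fun y => by
    have hBp : IsUnit (B.map (L.ev p)).det := by
      rw [← RingHom.mapMatrix_apply, ← RingHom.map_det]
      exact hBdet.map (L.ev p)
    refine ⟨Sg.map (L.ev p) *ᵥ ((B.map (L.ev p))⁻¹ *ᵥ y), ?_⟩
    rw [hTM, Matrix.mulVecLin_apply, Matrix.mulVec_mulVec, ← Matrix.map_mul, ← hBdef,
      Matrix.mulVec_mulVec, Matrix.mul_nonsing_inv _ hBp, Matrix.one_mulVec]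
  have hr : Module.finrank k (LinearMap.range f) + d = Fintype.card μ := by
    have h1 := LinearMap.finrank_range_add_finrank_ker f
    rw [Module.finrank_fintype_fun_eq_card, hres] at h1
    exact h1
  have hker : Module.finrank K (LinearMap.ker (Tp ∘ₗ Mp)) = d := by
    have h1 := LinearMap.finrank_range_add_finrank_ker (Tp ∘ₗ Mp)
    rw [LinearMap.range_eq_top.2 hsurj, finrank_top, Module.finrank_fintype_fun_eq_card,
      Module.finrank_fintype_fun_eq_card, Fintype.card_fin] at h1
    omega
  have heq : LinearMap.ker Mp = LinearMap.ker (Tp ∘ₗ Mp) :=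
    Submodule.eq_of_le_of_finrank_eq (LinearMap.ker_le_ker_comp Mp Tp) (by rw [hker, hgen p])
  have hle : Submodule.span K (Set.range fun i m => L.ev p (a i m)) ≤ LinearMap.ker (Tp ∘ₗ Mp) := by
    rw [Submodule.span_le, Set.range_subset_iff]
    intro i
    rw [SetLike.mem_coe, LinearMap.mem_ker, hTM, Matrix.mulVecLin_apply, L.ev_mulVec, ha0]
    funext j
    exact map_zero _
  rw [heq]
  refine Submodule.eq_of_le_of_finrank_eq hle ?_
  rw [hker, finrank_span_eq_card (L.linearIndependent_ev hπ0 a hli p), Fintype.card_fin]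

end LocData

end FA.FlatModel
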