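import Fermat.Agent.FlatModel.Colon
import Fermat.Agent.Curve.Genus
import Fermat.Agent.ModField.Curve

/-!
# Riemann-Roch spaces: generators, colon spaces, uniqueness, semicontinuity
-/

set_option autoImplicit false
set_option linter.style.haveILetI false
set_option linter.unusedSectionVars false

noncomputable section

namespace FA.FlatModel

open AlgebraicCurve FA.Curve FA.CurveRed FA.ModField

section Field

variable {K F : Type*} [Field K] [IsAlgClosed K] [Field F] [Algebra K F]
  (hF : IsFunctionField K F)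

/-- The family attains the bound of `L(Q)` at every place. -/
def Gen {J : Type*} (Q : Divisor K F) (u : J → F) : Prop :=
  (∀ j, u j ∈ riemannRochSpace Q) ∧ ∀ v : Place K F, ∃ j, u j ≠ 0 ∧ v.ord (u j) = -Q v

theorem Gen.mul {J J' : Type*} {Q Q' : Divisor K F} {u : J → F} {u' : J' → F} (h : Gen Q u)
    (h' : Gen Q' u') : Gen (Q + Q') fun x : J × J' => u x.1 * u' x.2 := by
  refine ⟨fun x => ?_, fun v => ?_⟩
  · rw [FA.Curve.mem_riemannRochSpace]
    intro v
    rw [Finsupp.add_apply, neg_add]
    exact (FA.Curve.mem_riemannRochSpace.1 (h.1 x.1) v).mul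
      (FA.Curve.mem_riemannRochSpace.1 (h'.1 x.2) v)
  · obtain ⟨j, hj, hjv⟩ := h.2 v
    obtain ⟨j', hj', hj'v⟩ := h'.2 v
    refine ⟨(j, j'), mul_ne_zero hj hj', ?_⟩
    rw [v.ord_mul hj hj', hjv, hj'v, Finsupp.add_apply]
    ring

include hF

/-- A spanning family of a space of large degree attains the bound. -/
theorem gen_of_span {J : Type*} {Q : Divisor K F} {u : J → F}
    (hu : Submodule.span K (Set.range u) = riemannRochSpace Q) {c : ℤ}
    (hc : ∀ D : Divisor K F, c ≤ Divisor.degree D →
      ell D = Divisor.degree D + 1 - FA.Curve.genus K F)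
    (hdeg : c + 1 ≤ Divisor.degree Q) : Gen Q u := by
  have hmem : ∀ j, u j ∈ riemannRochSpace Q := fun j => hu ▸ Submodule.subset_span ⟨j, rfl⟩
  refine ⟨hmem, fun v => ?_⟩
  have h1 := hc Q (by omega)
  have hd : Divisor.degree (Q - Finsupp.single v 1) = Divisor.degree Q - 1 := by
    simp [hF.deg_eq_one]
  have h2 := hc (Q - Finsupp.single v 1) (by omega)
  by_contra hno
  push Not at hno
  have hle : riemannRochSpace Q ≤ riemannRochSpace (Q - Finsupp.single v 1) := by
    rw [← hu, Submodule.span_le, Set.range_subset_iff]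
    intro j
    rw [SetLike.mem_coe, FA.Curve.mem_riemannRochSpace]
    intro w
    have h := FA.Curve.mem_riemannRochSpace.1 (hmem j) w
    rcases eq_or_ne (u j) 0 with h0 | h0
    · exact Or.inl h0
    rw [atLeast_iff h0] at h ⊢
    rcases eq_or_ne w v with rfl | hw
    · rw [Finsupp.sub_apply, Finsupp.single_eq_same]
      have := hno j h0
      omega
    · rw [Finsupp.sub_apply, Finsupp.single_eq_of_ne hw]
      omega
  haveI := finite_riemannRochSpace hF (Q - Finsupp.single v 1)
  have := Submodule.finrank_mono hle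
  simp only [ell] at h1 h2
  omega

/-- Colon spaces of Riemann-Roch spaces. -/
theorem mem_colon_iff {J : Type*} {Q X Y : Divisor K F} {u : J → F} (hu : Gen Q u) {s : F}
    (hs : s ≠ 0) (hle : Y - Q - divOf hF s ≤ X) (w : F) :
    w ∈ riemannRochSpace (Y - Q - divOf hF s) ↔
      w ∈ riemannRochSpace X ∧ ∀ j, ∃ y ∈ riemannRochSpace Y, w * u j = s * y := by
  refine ⟨fun hw => ⟨riemannRochSpace_mono hle hw, fun j => ⟨s⁻¹ * (w * u j), ?_, ?_⟩⟩,
    fun hw => ?_⟩
  · rw [FA.Curve.mem_riemannRochSpace]
    intro v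
    have h1 := ((atLeast_ord (v := v) s⁻¹).mul ((FA.Curve.mem_riemannRochSpace.1 hw v).mul
      (FA.Curve.mem_riemannRochSpace.1 (hu.1 j) v)))
    refine h1.mono ?_
    simp only [Finsupp.sub_apply, divOf_apply, v.ord_inv]
    omega
  · rw [mul_inv_cancel_left₀ hs]
  · rw [FA.Curve.mem_riemannRochSpace]
    intro v
    rcases eq_or_ne w 0 with rfl | hw0
    · exact atLeast_zero
    obtain ⟨j, hj, hjv⟩ := hu.2 v
    obtain ⟨y, hy, he⟩ := hw.2 j
    have hy0 : y ≠ 0 := fun h => mul_ne_zero hw0 hj (by rw [he, h, mul_zero])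
    have h1 := congrArg v.ord he
    rw [v.ord_mul hw0 hj, v.ord_mul hs hy0] at h1
    have h2 := (atLeast_iff hy0).1 (FA.Curve.mem_riemannRochSpace.1 hy v)
    rw [atLeast_iff hw0]
    simp only [Finsupp.sub_apply, divOf_apply]
    omega

/-- An effective divisor in a class with one section is unique. -/
theorem eq_of_ell_le_one {D Dx Dy : Divisor K F} (hD : ell D ≤ 1) (hx : 0 ≤ Dx) (hy : 0 ≤ Dy)
    {f g : F} (hf : f ≠ 0) (hg : g ≠ 0) (hfx : Dx = D + divOf hF f) (hgy : Dy = D + divOf hF g) :
    Dx = Dy := by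
  have hmem : ∀ {w : F} {E : Divisor K F}, 0 ≤ E → w ≠ 0 → E = D + divOf hF w →
      w ∈ riemannRochSpace D := by
    intro w E hE hw he
    rw [FA.Curve.mem_riemannRochSpace]
    intro v
    rw [atLeast_iff hw]
    have := Finsupp.le_def.1 hE v
    rw [he, Finsupp.coe_zero, Pi.zero_apply, Finsupp.add_apply, divOf_apply] at this
    omega
  haveI := finite_riemannRochSpace hF D
  have h1 : Module.finrank K (riemannRochSpace D) ≤ 1 := by
    simp only [ell] at hD; omega
  obtain ⟨w, hw⟩ := (finrank_le_one_iff (K := K) (V := riemannRochSpace D)).1 h1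
  obtain ⟨a, ha⟩ := hw ⟨f, hmem hx hf hfx⟩
  obtain ⟨b, hb⟩ := hw ⟨g, hmem hy hg hgy⟩
  have ha' : f = algebraMap K F a * (w : F) := by
    rw [← Algebra.smul_def]; exact (congrArg Subtype.val ha).symm
  have hb' : g = algebraMap K F b * (w : F) := by
    rw [← Algebra.smul_def]; exact (congrArg Subtype.val hb).symm
  have hw0 : (w : F) ≠ 0 := fun h => hf (by rw [ha', h, mul_zero])
  rw [hfx, hgy]
  congr 1
  ext v
  rw [divOf_apply, divOf_apply, ha', hb',
    v.ord_mul (fun h => hf (by rw [ha', h, zero_mul])) hw0,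
    v.ord_mul (fun h => hg (by rw [hb', h, zero_mul])) hw0, place_ord_algebraMap,
    place_ord_algebraMap]

theorem divOf_mul {f g : F} (hf : f ≠ 0) (hg : g ≠ 0) :
    divOf hF (f * g) = divOf hF f + divOf hF g :=
  Finsupp.ext fun v => by simp [divOf_apply, v.ord_mul hf hg]

theorem nonneg_divOf_add {D : Divisor K F} {f : F} (hf : f ≠ 0) (h : f ∈ riemannRochSpace D) :
    0 ≤ divOf hF f + D := Finsupp.le_def.2 fun v => by
  have := (atLeast_iff hf).1 (FA.Curve.mem_riemannRochSpace.1 h v)
  rw [Finsupp.coe_zero, Pi.zero_apply, Finsupp.add_apply, divOf_apply]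
  omega

end Field

section Red

variable {K F k Fk : Type*} [Field K] [IsAlgClosed K] [Field F] [Algebra K F] [Field k]
  [IsAlgClosed k] [Field Fk] [Algebra k Fk] {A : ValuationSubring K}
  {R : Reduction K F k Fk A} (hF : IsFunctionField K F) (hk : IsFunctionField k Fk)

include hF hk

theorem push_divOf' {f : F} {r : Fk} (h : R.Red f r) (hr : r ≠ 0) :
    R.push (divOf hF f) = divOf hk r :=
  Finsupp.ext fun Q => by rw [Reduction.push_divOf hF h hr Q, divOf_apply]

/-- The dimension can only rise under specialisation. -/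
theorem ell_le_ell_push (D : Divisor K F) : ell D ≤ ell (R.push D) := by
  haveI := finite_riemannRochSpace hk (R.push D)
  obtain ⟨e, eb, heV, he, hli⟩ := Reduction.exists_lift_basis hF hk (R := R) D _
    (riemannRochSpace D) le_rfl rfl
  have h := (LinearIndependent.of_comp (riemannRochSpace (R.push D)).subtype
    (v := fun i => (⟨eb i, Reduction.red_mem_riemannRochSpace hF (he i) (heV i)⟩ :
      riemannRochSpace (R.push D))) hli).fintype_card_le_finrank
  rw [Fintype.card_fin] at h
  simp only [ell]
  exact_mod_cast h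

/-- A common threshold for Riemann's equality in both fibres. -/
theorem exists_common_threshold (R : Reduction K F k Fk A)
    (hg : FA.Curve.genus K F ≤ FA.Curve.genus k Fk) :
    FA.Curve.genus K F = FA.Curve.genus k Fk ∧ ∃ c : ℕ,
      (∀ D : Divisor K F, (c : ℤ) ≤ Divisor.degree D →
        ell D = Divisor.degree D + 1 - FA.Curve.genus K F) ∧
      ∀ D : Divisor k Fk, (c : ℤ) ≤ Divisor.degree D →
        ell D = Divisor.degree D + 1 - FA.Curve.genus k Fk := by
  obtain ⟨c, hc⟩ := exists_threshold hF
  obtain ⟨c', hc'⟩ := exists_threshold hk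
  haveI := infinite_places hF
  obtain ⟨P⟩ := Infinite.nonempty (Place K F)
  have hd : ∀ m : ℕ, Divisor.degree (Finsupp.single P (m : ℤ)) = m := fun m => by
    simp [hF.deg_eq_one]
  refine ⟨le_antisymm hg ?_, c.toNat + c'.toNat, fun D hD => hc D (by omega),
    fun D hD => hc' D (by omega)⟩
  set D := Finsupp.single P ((c.toNat + c'.toNat : ℕ) : ℤ)
  have h1 := hc D (by rw [hd]; omega)
  have h2 := hc' (R.push D) (by rw [Reduction.degree_push hF hk, hd]; omega)
  have h3 := ell_le_ell_push hF hk (R := R) D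
  rw [Reduction.degree_push hF hk] at h2
  omega

/-- A basis with independent reductions spanning both spaces. -/
theorem exists_basis_pair (D : Divisor K F) (h : ell (R.push D) ≤ ell D) :
    ∃ (n : ℕ) (z : Fin n → F) (zb : Fin n → Fk), (∀ i, R.Red (z i) (zb i)) ∧
      LinearIndependent k zb ∧ Submodule.span K (Set.range z) = riemannRochSpace D ∧
      Submodule.span k (Set.range zb) = riemannRochSpace (R.push D) := by
  haveI := finite_riemannRochSpace hF D
  haveI := finite_riemannRochSpace hk (R.push D)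
  obtain ⟨e, eb, heV, he, hli⟩ := Reduction.exists_lift_basis hF hk (R := R) D _
    (riemannRochSpace D) le_rfl rfl
  refine ⟨_, e, eb, he, hli, ?_, ?_⟩
  · refine Submodule.eq_of_le_of_finrank_le (Submodule.span_le.2 (Set.range_subset_iff.2 heV)) ?_
    have hli' : LinearIndependent K e := linearIndependent_lifts he hli
    rw [finrank_span_eq_card hli', Fintype.card_fin]
  · refine Submodule.eq_of_le_of_finrank_le (Submodule.span_le.2 (Set.range_subset_iff.2 fun i =>
      Reduction.red_mem_riemannRochSpace hF (he i) (heV i))) ?_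
    rw [finrank_span_eq_card hli, Fintype.card_fin]
    exact Int.ofNat_le.1 h

end Red

end FA.FlatModel
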