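import Fermat.Agent.FlatModel.Generators
import Fermat.Agent.FlatModel.Avoid
import Fermat.Agent.FlatModel.Coeff
import Fermat.Prelude.Def_AlgebraicCurve_BaseChangeGalois

/-!
# Configurations invariant under a set of semilinear automorphisms

For a set `T` of semilinear automorphisms acting trivially on reductions and fixing a lift of
every residue, a finite group of classes carries an invariant configuration, hence integral
generators commuting with `T` and closed under addition.
-/

set_option autoImplicit false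
set_option linter.style.haveILetI false
set_option linter.unusedSectionVars false
set_option maxHeartbeats 800000

noncomputable section

namespace FA.FlatModel

open AlgebraicCurve FA.Curve FA.CurveRed FA.ModField

variable {K F k Fk : Type*} [Field K] [IsAlgClosed K] [Field F] [Algebra K F] [Field k]
  [IsAlgClosed k] [Field Fk] [Algebra k Fk] {A : ValuationSubring K}
  {R : Reduction K F k Fk A} (hF : IsFunctionField K F) (hk : IsFunctionField k Fk)

theorem smul_smul' (τ : SemilinearAut K F) (a : K) (f : F) :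
    τ • (a • f) = SemilinearAut.baseAut τ a • (τ • f) := by
  rw [Algebra.smul_def, Algebra.smul_def, smul_mul', SemilinearAut.smul_algebraMap]

theorem smul_mem_riemannRochSpace (τ : SemilinearAut K F) {D : Divisor K F} {f : F}
    (hf : f ∈ riemannRochSpace D) : τ • f ∈ riemannRochSpace (τ • D) := by
  rw [FA.Curve.mem_riemannRochSpace] at hf ⊢
  intro v
  rcases hf (τ⁻¹ • v) with h | h
  · exact Or.inl (by rw [h, smul_zero])
  · refine Or.inr ?_
    rw [← smul_inv_smul τ v, SemilinearAut.ord_smul, SemilinearAut.divisor_smul_apply_smul]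
    exact h

include hF hk

/-- Automorphisms acting trivially on reductions preserve specialisations. -/
theorem push_smul (hg : FA.Curve.genus K F ≤ FA.Curve.genus k Fk) {τ : SemilinearAut K F}
    (hτ : ∀ f r, R.Red f r → R.Red (τ • f) r) (D : Divisor K F) :
    R.push (τ • D) = R.push D := by
  obtain ⟨hgeq, c, hc, hc'⟩ := exists_common_threshold hF hk R hg
  have big : ∀ D : Divisor K F, (c : ℤ) + 1 ≤ Divisor.degree D → R.push (τ • D) = R.push D := by
    intro D hD
    obtain ⟨n, z, zb, hz, hli, hs, hsb⟩ := exists_basis_large hF hk hgeq hc hc' D (by omega)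
    have hmem : ∀ i, zb i ∈ riemannRochSpace (R.push (τ • D)) := fun i =>
      Reduction.red_mem_riemannRochSpace hF (hτ _ _ (hz i))
        (smul_mem_riemannRochSpace τ (hs ▸ Submodule.subset_span ⟨i, rfl⟩))
    have hgen := gen_of_span hk hsb hc' (by rw [Reduction.degree_push hF hk]; omega)
    have hle : ∀ Q, R.push D Q ≤ R.push (τ • D) Q := fun Q => by
      obtain ⟨i, hi, hiv⟩ := hgen.2 Q
      have := (atLeast_iff hi).1 (FA.Curve.mem_riemannRochSpace.1 (hmem i) Q)
      omega
    have hnn : 0 ≤ R.push (τ • D) - R.push D :=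
      sub_nonneg.2 (Finsupp.le_def.2 hle)
    have hdeg : Divisor.degree (R.push (τ • D) - R.push D) = 0 := by
      rw [map_sub, Reduction.degree_push hF hk, Reduction.degree_push hF hk,
        SemilinearAut.degree_smul, sub_self]
    rw [degree_eq_sum hk] at hdeg
    refine Finsupp.ext fun Q => le_antisymm ?_ (hle Q)
    by_contra hlt
    rw [not_le] at hlt
    have hpos := Finsupp.le_def.1 hnn
    have h0 := (Finset.sum_eq_zero_iff_of_nonneg fun Q _ => hpos Q).1 hdeg Q
      (Finsupp.mem_support_iff.2 (by rw [Finsupp.sub_apply]; omega))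
    rw [Finsupp.sub_apply] at h0
    omega
  haveI := infinite_places hF
  obtain ⟨P⟩ := Infinite.nonempty (Place K F)
  set M : Divisor K F := Finsupp.single P ((c : ℤ) + 1 + (Divisor.degree D).natAbs)
  have hdM : Divisor.degree M = (c : ℤ) + 1 + (Divisor.degree D).natAbs := by
    simp [M, hF.deg_eq_one]
  have h1 := big (D + M) (by rw [map_add, hdM]; omega)
  rw [smul_add, Reduction.push_add, Reduction.push_add, big M (by rw [hdM]; omega)] at h1
  exact add_right_cancel h1

variable {T : Set (SemilinearAut K F)}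

/-- A basis with independent reductions fixed by `T`. -/
theorem exists_fixed_basis {D : Divisor K F} {d : ℕ}
    (co : Fin d → (riemannRochSpace D →ₗ[K] K))
    (hint : ∀ (f : riemannRochSpace D) r, R.Red (f : F) r → ∀ m, co m f ∈ A)
    (hsep : ∀ (f : riemannRochSpace D) r, R.Red (f : F) r →
      (∀ m, A.valuation (co m f) < 1) → r = 0)
    (hequiv : ∀ τ ∈ T, ∀ f g : riemannRochSpace D, (g : F) = τ • (f : F) →
      ∀ m, co m g = SemilinearAut.baseAut τ (co m f))
    (hD : ∀ τ ∈ T, τ • D = D) (h : ell (R.push D) ≤ ell D) :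
    ∃ (n : ℕ) (z : Fin n → F) (zb : Fin n → Fk), (∀ i, R.Red (z i) (zb i)) ∧
      LinearIndependent k zb ∧ Submodule.span K (Set.range z) = riemannRochSpace D ∧
      Submodule.span k (Set.range zb) = riemannRochSpace (R.push D) ∧
      ∀ τ ∈ T, ∀ i, τ • z i = z i := by
  classical
  obtain ⟨n, e, eb, he, hli, hs, hsb⟩ := exists_basis_pair hF hk D h
  let e' : Fin n → riemannRochSpace D := fun i => ⟨e i, hs ▸ Submodule.subset_span ⟨i, rfl⟩⟩
  let C : Fin n → Fin d → A := fun i m => ⟨co m (e' i), hint (e' i) _ (he i) m⟩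
  -- pivots
  obtain ⟨κ, a, -, hsp, hκ⟩ := exists_linearIndependent' (K := k) fun m i => R.π (C i m)
  have htop : Submodule.span k (Set.range fun m i => R.π (C i m)) = ⊤ := by
    by_contra hne
    obtain ⟨φ, hφ, hle⟩ := Submodule.exists_le_ker_of_lt_top _ (lt_top_iff_ne_top.mpr hne)
    refine hφ (LinearMap.pi_ext' fun i => LinearMap.ext_ring ?_)
    choose b hb using fun i => R.π_surjective (φ (Pi.single i 1))
    have hf : R.Red ((∑ i, (b i : K) • e' i : riemannRochSpace D) : F)
        (∑ i, φ (Pi.single i 1) • eb i) := by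
      rw [AddSubmonoidClass.coe_finsetSum]
      exact red_finsetSum _ fun i _ => by
        rw [Submodule.coe_smul, ← hb i]; exact red_smul (he i) (b i).2
    have h0 : ∑ i, φ (Pi.single i 1) • eb i = 0 := hsep _ _ hf fun m => by
      have hker : φ (fun i => R.π (C i m)) = 0 := hle (Submodule.subset_span ⟨m, rfl⟩)
      rw [pi_eq_sum_univ' (fun i => R.π (C i m)), map_sum] at hker
      have h1 : R.π (∑ i, b i * C i m) = 0 := by
        rw [← hker, map_sum]
        exact Finset.sum_congr rfl fun i _ => by rw [map_mul, hb, map_smul, smul_eq_mul, mul_comm]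
      rw [R.π_eq_zero] at h1
      convert h1 using 2
      rw [AddSubmonoidClass.coe_finsetSum, map_sum]
      exact Finset.sum_congr rfl fun i _ => by rw [map_smul, smul_eq_mul, MulMemClass.coe_mul]
    simpa using Fintype.linearIndependent_iff.1 hli _ h0 i
  rw [htop] at hsp
  let B : Module.Basis κ k (Fin n → k) := Module.Basis.mk hκ hsp.ge
  let ee : Fin n ≃ κ := (Pi.basisFun k (Fin n)).indexEquiv B
  let J : Fin n → Fin d := a ∘ ee
  let CJ : Matrix (Fin n) (Fin n) A := Matrix.of fun i l => C i (J l)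
  have hu : IsUnit CJ.det := isUnit_of_map_ne_zero R.π_eq_zero (by
    rw [RingHom.map_det, RingHom.mapMatrix_apply, ← Matrix.det_transpose]
    refine IsUnit.ne_zero ((Matrix.isUnit_iff_isUnit_det _).1
      (Matrix.linearIndependent_rows_iff_isUnit.1 ?_))
    have h1 := hκ.comp ee ee.injective
    rw [show ((CJ.map R.π).transpose).row = (fun m i => R.π (C i m)) ∘ a ∘ ee from rfl]
    exact h1)
  let z : Fin n → F := fun l => ∑ i, ((CJ⁻¹ l i : A) : K) • e i
  let zb : Fin n → Fk := fun l => ∑ i, R.π (CJ⁻¹ l i) • eb i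
  let z' : Fin n → riemannRochSpace D := fun l => ∑ i, ((CJ⁻¹ l i : A) : K) • e' i
  have hzz : ∀ l, (z' l : F) = z l := fun l => by
    simp only [z', z, AddSubmonoidClass.coe_finsetSum, Submodule.coe_smul]
    rfl
  have hz : ∀ l, R.Red (z l) (zb l) := fun l =>
    red_finsetSum _ fun i _ => red_smul (he i) (CJ⁻¹ l i).2
  have hcz : ∀ l l', co (J l') (z' l) = if l = l' then 1 else 0 := fun l l' => by
    have h1 := congrArg (fun x : A => (x : K))
      (congrFun (congrFun (Matrix.nonsing_inv_mul CJ hu) l) l')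
    simp only [Matrix.mul_apply, AddSubmonoidClass.coe_finsetSum, MulMemClass.coe_mul,
      Matrix.one_apply] at h1
    simp only [z', map_sum, map_smul, smul_eq_mul]
    refine h1.trans ?_
    split_ifs <;> rfl
  have hspz : Submodule.span K (Set.range z) = riemannRochSpace D := by
    rw [← hs]
    refine le_antisymm (Submodule.span_le.2 (Set.range_subset_iff.2 fun l =>
      Submodule.sum_mem _ fun i _ => Submodule.smul_mem _ _ (Submodule.subset_span ⟨i, rfl⟩)))
      (Submodule.span_le.2 (Set.range_subset_iff.2 fun i => ?_))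
    rw [SetLike.mem_coe, Submodule.mem_span_range_iff_exists_fun]
    refine ⟨fun l => (CJ i l : K), ?_⟩
    simp only [z, Finset.smul_sum, smul_smul]
    rw [Finset.sum_comm, Finset.sum_eq_single i (fun i' _ hi' => ?_)
      fun h => absurd (Finset.mem_univ i) h]
    · have h1 := congrArg (fun x : A => (x : K))
        (congrFun (congrFun (Matrix.mul_nonsing_inv CJ hu) i) i)
      simp only [Matrix.mul_apply, Matrix.one_apply_eq, AddSubmonoidClass.coe_finsetSum,
        MulMemClass.coe_mul, OneMemClass.coe_one] at h1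
      rw [← Finset.sum_smul, h1, one_smul]
    · have h1 := congrArg (fun x : A => (x : K))
        (congrFun (congrFun (Matrix.mul_nonsing_inv CJ hu) i) i')
      simp only [Matrix.mul_apply, Matrix.one_apply_ne' hi', AddSubmonoidClass.coe_finsetSum,
        MulMemClass.coe_mul, ZeroMemClass.coe_zero] at h1
      rw [← Finset.sum_smul, h1, zero_smul]
  have hzbspan : Submodule.span k (Set.range zb) = riemannRochSpace (R.push D) := by
    rw [← hsb]
    refine le_antisymm (Submodule.span_le.2 (Set.range_subset_iff.2 fun l =>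
      Submodule.sum_mem _ fun i _ => Submodule.smul_mem _ _ (Submodule.subset_span ⟨i, rfl⟩)))
      (Submodule.span_le.2 (Set.range_subset_iff.2 fun i => ?_))
    rw [SetLike.mem_coe, Submodule.mem_span_range_iff_exists_fun]
    refine ⟨fun l => R.π (CJ i l), ?_⟩
    simp only [zb, Finset.smul_sum, smul_smul, ← map_mul]
    rw [Finset.sum_comm, Finset.sum_eq_single i (fun i' _ hi' => ?_)
      fun h => absurd (Finset.mem_univ i) h]
    · have h1 := congrFun (congrFun (Matrix.mul_nonsing_inv CJ hu) i) i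
      simp only [Matrix.mul_apply, Matrix.one_apply_eq] at h1
      rw [← Finset.sum_smul, ← map_sum, h1, map_one, one_smul]
    · have h1 := congrFun (congrFun (Matrix.mul_nonsing_inv CJ hu) i) i'
      simp only [Matrix.mul_apply, Matrix.one_apply_ne' hi'] at h1
      rw [← Finset.sum_smul, ← map_sum, h1, map_zero, zero_smul]
  have hzbli : LinearIndependent k zb := by
    rw [linearIndependent_iff_card_eq_finrank_span, Set.finrank, hzbspan, ← hsb,
      finrank_span_eq_card hli]
  refine ⟨n, z, zb, hz, hzbli, hspz, hzbspan, fun τ hτ l => ?_⟩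
  have hmem : τ • z l ∈ riemannRochSpace D := by
    rw [← hD τ hτ]
    exact smul_mem_riemannRochSpace τ (hspz ▸ Submodule.subset_span ⟨l, rfl⟩)
  have hmem' : τ • z l ∈ Submodule.span K (Set.range z) := by rw [hspz]; exact hmem
  obtain ⟨g, hg⟩ := (Submodule.mem_span_range_iff_exists_fun K).1 hmem'
  have hgl : ∀ l', g l' = if l = l' then 1 else 0 := fun l' => by
    have h1 := hequiv τ hτ (z' l) (∑ m, g m • z' m) (by
      rw [AddSubmonoidClass.coe_finsetSum, hzz, ← hg]
      exact Finset.sum_congr rfl fun m _ => by rw [Submodule.coe_smul, hzz]) (J l')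
    rw [hcz, map_sum, Finset.sum_eq_single l' (fun m _ hm => by
      rw [map_smul, hcz, if_neg hm, smul_zero]) fun h => absurd (Finset.mem_univ l') h,
      map_smul, hcz, if_pos rfl, smul_eq_mul, mul_one] at h1
    rw [h1]
    split_ifs <;> simp
  rw [← hg]
  simp [hgl]

/-- Places outside a finite set lift to fixed places. -/
theorem exists_fixed_lift (hg : FA.Curve.genus K F ≤ FA.Curve.genus k Fk)
    (hT : ∀ τ ∈ T, ∀ f r, R.Red f r → R.Red (τ • f) r)
    (hres : ∀ b : k, ∃ a : A, R.π a = b ∧ ∀ τ ∈ T, SemilinearAut.baseAut τ (a : K) = a)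
    {c : ℕ} (hc' : ∀ D : Divisor k Fk, (c : ℤ) ≤ Divisor.degree D →
      ell D = Divisor.degree D + 1 - FA.Curve.genus k Fk)
    {A₀ : Divisor K F} (hA₀ : 0 ≤ A₀) (hdeg : (c : ℤ) + 2 ≤ Divisor.degree A₀)
    (hTA : ∀ τ ∈ T, τ • A₀ = A₀) {n : ℕ} {z : Fin n → F} {zb : Fin n → Fk}
    (hz : ∀ i, R.Red (z i) (zb i)) (hzs : Submodule.span K (Set.range z) = riemannRochSpace A₀)
    (hzbs : Submodule.span k (Set.range zb) = riemannRochSpace (R.push A₀))
    (hfix : ∀ τ ∈ T, ∀ i, τ • z i = z i) {Q : Place k Fk} (hQ : Q ∉ (R.push A₀).support) :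
    ∃ P, R.spl P = Q ∧ ∀ τ ∈ T, τ • P = P := by
  classical
  set Ab := R.push A₀ with hAb
  have hAQ : Ab Q = 0 := Finsupp.notMem_support_iff.1 hQ
  have hd : Divisor.degree (Ab - Finsupp.single Q 1) = Divisor.degree A₀ - 1 := by
    rw [map_sub, hAb, Reduction.degree_push hF hk, Divisor.degree_single, hk.deg_eq_one]; simp
  haveI := finite_riemannRochSpace hk (Ab - Finsupp.single Q 1)
  obtain ⟨r, hr, hr0, hrQ⟩ : ∃ r ∈ riemannRochSpace (Ab - Finsupp.single Q 1),
      r ≠ 0 ∧ Q.ord r = 1 := by
    have hg := gen_of_span hk (Q := Ab - Finsupp.single Q 1)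
      (u := fun w : riemannRochSpace (Ab - Finsupp.single Q 1) => (w : Fk)) (by simp) hc'
      (by rw [hd]; omega)
    obtain ⟨w, hw, hwQ⟩ := hg.2 Q
    refine ⟨w, w.2, hw, ?_⟩
    rw [hwQ, Finsupp.sub_apply, hAQ, Finsupp.single_eq_same]
    ring
  have hr' : r ∈ Submodule.span k (Set.range zb) := by
    rw [hzbs]
    exact riemannRochSpace_mono (sub_le_self _ (Finsupp.single_nonneg.2 zero_le_one)) hr
  obtain ⟨b, hb⟩ := (Submodule.mem_span_range_iff_exists_fun k).1 hr'
  choose a ha hafix using fun i => hres (b i)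
  set f := ∑ i, (a i : K) • z i
  have hfr : R.Red f r := by
    rw [← hb]
    exact red_finsetSum _ fun i _ => by rw [← ha i]; exact red_smul (hz i) (a i).2
  have hf0 : f ≠ 0 := hfr.ne_zero hr0
  have hfL : f ∈ riemannRochSpace A₀ := by
    rw [← hzs]
    exact Submodule.sum_mem _ fun i _ => Submodule.smul_mem _ _ (Submodule.subset_span ⟨i, rfl⟩)
  set Z := divOf hF f + A₀
  have hZ : 0 ≤ Z := nonneg_divOf_add hF hf0 hfL
  have hZQ : R.push Z Q = 1 := by
    rw [Reduction.push_add, Finsupp.add_apply, Reduction.push_divOf hF hfr hr0, ← hAb, hAQ, hrQ,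
      add_zero]
  have hsum : ∑ P ∈ Z.support, (if R.spl P = Q then Z P else 0) = 1 := by
    rw [← hZQ, Reduction.push_apply]
  obtain ⟨P, hP, hPQ⟩ : ∃ P ∈ Z.support, R.spl P = Q := by
    by_contra hno
    push Not at hno
    rw [Finset.sum_eq_zero fun P hP => if_neg (hno P hP)] at hsum
    exact zero_ne_one hsum
  have huniq : ∀ P' ∈ Z.support, R.spl P' = Q → P' = P := by
    intro P' hP' hP'Q
    by_contra hne
    have hpos : ∀ w ∈ Z.support, 1 ≤ Z w := fun w hw => by
      have := Finsupp.le_def.1 hZ w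
      have := Finsupp.mem_support_iff.1 hw
      simp only [Finsupp.coe_zero, Pi.zero_apply] at *
      omega
    have h2 : ∑ w ∈ ({P, P'} : Finset _), (if R.spl w = Q then Z w else 0) ≤ 1 := by
      rw [← hsum]
      refine Finset.sum_le_sum_of_subset_of_nonneg (by
        intro w hw; rcases Finset.mem_insert.1 hw with rfl | hw
        · exact hP
        · exact Finset.mem_singleton.1 hw ▸ hP') fun w hw _ => ?_
      split_ifs
      · exact le_trans zero_le_one (hpos w hw)
      · exact le_rfl
    rw [Finset.sum_pair (Ne.symm hne), if_pos hPQ, if_pos hP'Q] at h2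
    have := hpos P hP
    have := hpos P' hP'
    omega
  refine ⟨P, hPQ, fun τ hτ => ?_⟩
  have hτf : τ • f = f := by
    simp only [f, Finset.smul_sum]
    exact Finset.sum_congr rfl fun i _ => by rw [smul_smul', hfix τ hτ, hafix i τ hτ]
  have hτZ : Z (τ • P) = Z P := by
    simp only [Z, Finsupp.add_apply, divOf_apply]
    conv_lhs => rw [← hτf, ← hTA τ hτ]
    rw [SemilinearAut.ord_smul, SemilinearAut.divisor_smul_apply_smul]
  refine huniq _ ?_ ?_
  · rw [Finsupp.mem_support_iff, hτZ]; exact Finsupp.mem_support_iff.1 hP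
  · have h1 := push_smul hF hk hg (hT τ hτ) (Finsupp.single P 1)
    rw [SemilinearAut.smul_single, Reduction.push_single, Reduction.push_single, hPQ] at h1
    exact (Finsupp.single_left_inj one_ne_zero).1 h1

/-- **Generators for a finite group of classes.** -/
theorem exists_generators (hg : FA.Curve.genus K F ≤ FA.Curve.genus k Fk)
    (hT : ∀ τ ∈ T, ∀ f r, R.Red f r → R.Red (τ • f) r)
    (hres : ∀ b : k, ∃ a : A, R.π a = b ∧ ∀ τ ∈ T, SemilinearAut.baseAut τ (a : K) = a)
    {x : F} {xb : Fk} (hx : R.Red x xb) (hxK : Transcendental K x) (hxb : Transcendental k xb)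
    (hdeg : Module.finrank (IntermediateField.adjoin K {x}) F ≤
      Module.finrank (IntermediateField.adjoin k {xb}) Fk)
    {Q₀ : Place k Fk} (hQ₀ : Q₀.ord xb = -1) (hTx : ∀ τ ∈ T, τ • x = x)
    {V : Type} [AddCommGroup V] [Finite V] (ι : V →+ Pic0 K F) (hι : Function.Injective ι) :
    ∃ (Γ : Type) (_ : Finite Γ) (φ : Γ → V → K), (∀ γ x, φ γ x ∈ A) ∧
      (∀ x y, (∀ γ, φ γ x = φ γ y) → x = y) ∧
      (∀ γ, (fun z : V × V => φ γ (z.1 + z.2)) ∈ Algebra.adjoin A
        (Set.range (fun γ (z : V × V) => φ γ z.1) ∪ Set.range fun γ (z : V × V) => φ γ z.2)) ∧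
      ∀ τ ∈ T, ∀ act : V → V, (∀ x, ι (act x) = τ • ι x) →
        ∀ γ x, SemilinearAut.baseAut τ (φ γ x) = φ γ (act x) := by
  classical
  obtain ⟨hgeq, c, hc, hc'⟩ := exists_common_threshold hF hk R hg
  set g := FA.Curve.genus K F with hgdef
  set B₀ := poleDiv hF x with hB₀def
  have hB₀ : 0 ≤ B₀ := poleDiv_nonneg hF x
  have hB₀d : 0 < Divisor.degree B₀ := by
    rw [hB₀def, degree_poleDiv hF hxK]
    haveI := hF.finiteDimensional hxK
    exact_mod_cast Module.finrank_pos
  have hTB : ∀ τ ∈ T, τ • B₀ = B₀ := fun τ hτ => Finsupp.ext fun v => by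
    rw [SemilinearAut.divisor_smul_apply, hB₀def, poleDiv_apply, poleDiv_apply]
    conv_rhs => rw [← smul_inv_smul τ v, ← hTx τ hτ]
    rw [SemilinearAut.ord_smul]
  have hspl : ∀ τ ∈ T, ∀ P : Place K F, R.spl (τ • P) = R.spl P := fun τ hτ P => by
    have h1 := push_smul hF hk hg (hT τ hτ) (Finsupp.single P 1)
    rw [SemilinearAut.smul_single, Reduction.push_single, Reduction.push_single] at h1
    exact (Finsupp.single_left_inj one_ne_zero).1 h1
  set A₀ := (c + 2 * g + 2) • B₀ with hA₀def
  obtain ⟨d, co, hco1, hco2, hco3⟩ :=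
    exists_coeffMaps hF hk hx hxK hxb hdeg hQ₀ (c + 2 * g + 2) hTx hspl
  have hA₀ : 0 ≤ A₀ := nsmul_nonneg hB₀ _
  have hdA : (c : ℤ) + 2 * g + 2 ≤ Divisor.degree A₀ := by
    rw [hA₀def, map_nsmul, nsmul_eq_mul]
    push_cast
    nlinarith
  have hTA : ∀ τ ∈ T, τ • A₀ = A₀ := fun τ hτ => by
    rw [hA₀def]
    exact (map_nsmul (DistribSMul.toAddMonoidHom (Divisor K F) τ) _ B₀).trans
      (congrArg _ (hTB τ hτ))
  obtain ⟨n, z, zb, hz, hzli, hzs, hzbs, hzfix⟩ := exists_fixed_basis hF hk (D := A₀) co hco1 hco2 hco3 hTA (by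
    rw [hc _ (by omega), hc' (R.push A₀) (by rw [Reduction.degree_push hF hk]; omega),
      Reduction.degree_push hF hk, hgeq])
  choose D₀ hD₀ using fun x : V => Pic0.mk_surjective (ι x)
  have hd0 : ∀ x, Divisor.degree (D₀ x : Divisor K F) = 0 := fun x => (D₀ x).2
  obtain ⟨Eb, hEb0, hEbd, hEbs, hEbell⟩ := exists_general hk
    (fun x => R.push (D₀ x : Divisor K F))
    (fun x => (Reduction.degree_push hF hk _).trans (hd0 x)) (Finset.finite_toSet (R.push A₀).support)
  choose lft hlft hlfix using fun Q : {Q // Q ∈ Eb.support} =>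
    exists_fixed_lift hF hk hg hT hres hc' hA₀ (by omega) hTA hz hzs hzbs hzfix (hEbs Q.1 Q.2)
  set E : Divisor K F := ∑ Q : {Q // Q ∈ Eb.support}, Finsupp.single (lft Q) (Eb Q.1)
  have hE : 0 ≤ E := Finset.sum_nonneg fun Q _ =>
    Finsupp.single_nonneg.2 (Finsupp.le_def.1 hEb0 Q.1)
  have hEpush : R.push E = Eb := by
    rw [show R.push E = ∑ Q : {Q // Q ∈ Eb.support}, R.push (Finsupp.single (lft Q) (Eb Q.1)) from
      Finsupp.mapDomain_finsetSum]
    simp only [Reduction.push_single, hlft]
    rw [Finset.sum_coe_sort Eb.support fun Q => Finsupp.single Q (Eb Q)]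
    exact Finsupp.sum_single Eb
  have hdE : Divisor.degree E = g := by
    rw [← Reduction.degree_push hF hk (R := R) E, hEpush, hEbd, hgeq]
  have hEfix : ∀ τ ∈ T, τ • E = E := fun τ hτ => by
    simp only [E, Finset.smul_sum]
    exact Finset.sum_congr rfl fun Q _ => by rw [SemilinearAut.smul_single, hlfix Q τ hτ]
  have hup : ∀ x, ell (E + (D₀ x : Divisor K F)) ≤ 1 := fun x => by
    refine (ell_le_ell_push hF hk (R := R) _).trans ?_
    rw [Reduction.push_add, hEpush]
    exact hEbell x
  have hex : ∀ x, ∃ f : F, f ≠ 0 ∧ 0 ≤ E + (D₀ x : Divisor K F) + divOf hF f := fun x =>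
    exists_effective_of_ell_pos hF (by
      have := riemann_inequality hF (E + (D₀ x : Divisor K F))
      rw [map_add, hdE, hd0] at this
      omega)
  choose fD hfD hDnn using hex
  set D : V → Divisor K F := fun x => E + (D₀ x : Divisor K F) + divOf hF (fD x)
  have hclass : ∀ {x : V} {Z : Divisor.degZero (K := K) (F := F)}, Pic0.mk Z = ι x →
      ∃ f : F, f ≠ 0 ∧ (Z : Divisor K F) = D₀ x + divOf hF f := by
    intro x Z hZ
    rw [← hD₀, Pic0.mk, Pic0.mk, QuotientAddGroup.eq, AddSubgroup.mem_addSubgroupOf] at hZ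
    obtain ⟨f, hf, hfv⟩ := hZ
    refine ⟨f⁻¹, inv_ne_zero hf, Finsupp.ext fun v => ?_⟩
    have := hfv v
    simp only [AddSubgroup.coe_add, AddSubgroup.coe_neg, Finsupp.add_apply, Finsupp.neg_apply] at this
    rw [Finsupp.add_apply, divOf_apply, v.ord_inv]
    omega
  have hinj : Function.Injective D := by
    intro x y hxy
    refine hι ?_
    rw [← hD₀ x, ← hD₀ y, Pic0.mk, Pic0.mk, QuotientAddGroup.eq, AddSubgroup.mem_addSubgroupOf]
    refine ⟨fD x * (fD y)⁻¹, mul_ne_zero (hfD x) (inv_ne_zero (hfD y)), fun v => ?_⟩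
    have := congrArg (fun D : Divisor K F => D v) hxy
    simp only [D, Finsupp.add_apply, divOf_apply] at this
    simp only [AddSubgroup.coe_add, AddSubgroup.coe_neg, Finsupp.add_apply, Finsupp.neg_apply]
    rw [v.ord_mul (hfD x) (inv_ne_zero (hfD y)), v.ord_inv]
    omega
  have hadd : ∀ x y, ∃ f : F, f ≠ 0 ∧
      (D₀ x : Divisor K F) + D₀ y = D₀ (x + y) + divOf hF f := fun x y =>
    hclass (x := x + y) (Z := D₀ x + D₀ y) (by rw [Pic0.mk_add, hD₀, hD₀, map_add])
  have hgood : ∀ x y, ell (R.push (D x) + R.push (D y) - R.push E) ≤ 1 := by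
    intro x y
    obtain ⟨f, hf, he⟩ := hadd x y
    have key : ∀ u : F, u ≠ 0 → ∃ w : Fk, w ≠ 0 ∧ R.push (divOf hF u) = divOf hk w := by
      intro u hu
      obtain ⟨a, u', hau, hu'⟩ := R.exists_scale u hu
      have hred : R.Red (u' : F) (R.red u') := Reduction.red_of_mem u'
      have ha : algebraMap K F a ≠ 0 := fun h0 => hu (by rw [hau, h0, zero_mul])
      refine ⟨R.red u', hu', ?_⟩
      rw [show divOf hF u = divOf hF (u' : F) from Finsupp.ext fun v => by
        rw [divOf_apply, divOf_apply, hau, v.ord_mul ha (hred.ne_zero hu'), place_ord_algebraMap,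
          zero_add]]
      exact push_divOf' hF hk hred hu'
    obtain ⟨w, hw, hwe⟩ := key (f * (fD x * fD y))
      (mul_ne_zero hf (mul_ne_zero (hfD x) (hfD y)))
    have hkey : D x + D y - E =
        E + (D₀ (x + y) : Divisor K F) + divOf hF (f * (fD x * fD y)) := by
      rw [divOf_mul hF hf (mul_ne_zero (hfD x) (hfD y)), divOf_mul hF (hfD x) (hfD y)]
      calc D x + D y - E = E + ((D₀ x : Divisor K F) + D₀ y) + (divOf hF (fD x) + divOf hF (fD y)) := by
            simp only [D]; abel
        _ = _ := by rw [he]; abel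
    rw [← Reduction.push_add, ← push_sub, hkey, Reduction.push_add, Reduction.push_add, hwe,
      ell_add_divOf hk _ hw, hEpush]
    exact hEbell (x + y)
  let G : Cfg R hF hk V :=
    { c := c, genus_eq := hgeq, hc := hc, hc' := hc', A₀ := A₀, A₀_nonneg := hA₀
      deg_A₀ := by omega
      n := n, zA := z, zAb := zb, red_zA := hz, indep_zAb := hzli, span_zA := hzs
      span_zAb := hzbs, E := E, E_nonneg := hE, deg_E := hdE, D := D, D_nonneg := hDnn
      deg_D := fun x => by simp only [D, map_add, degree_divOf, hdE, hd0]; ring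
      D_inj := hinj, good := hgood
      D_add := fun x y => by
        obtain ⟨f, hf, he⟩ := hadd x y
        refine ⟨fD (x + y) * (f * (fD x * fD y))⁻¹,
          mul_ne_zero (hfD _) (inv_ne_zero (mul_ne_zero hf (mul_ne_zero (hfD x) (hfD y)))),
          Finsupp.ext fun v => ?_⟩
        have h2 := congrArg (fun D : Divisor K F => D v) he
        simp only [Finsupp.add_apply, divOf_apply] at h2
        simp only [D, Finsupp.add_apply, Finsupp.sub_apply, divOf_apply]
        rw [v.ord_mul (hfD _) (inv_ne_zero (mul_ne_zero hf (mul_ne_zero (hfD x) (hfD y)))),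
          v.ord_inv, v.ord_mul hf (mul_ne_zero (hfD x) (hfD y)), v.ord_mul (hfD x) (hfD y)]
        omega }
  refine ⟨Σ x₀ : V, Fin (G.ech x₀).d × Fin G.n, inferInstance, G.gen, G.gen_mem,
    fun x y => G.gen_separates, fun γ => G.gen_add_mem γ, fun τ hτ act hact γ x => ?_⟩
  have hDτ : ∀ x, τ • D x = D (act x) := by
    intro x
    obtain ⟨f, hf, he⟩ := hclass (x := act x)
      (Z := SemilinearAut.degZeroSMulHom τ (D₀ x)) (by
      rw [← SemilinearAut.pic0_smul_mk, hD₀, hact])
    rw [SemilinearAut.coe_degZeroSMulHom] at he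
    have hτd : τ • divOf hF (fD x) = divOf hF (τ • fD x) := Finsupp.ext fun v => by
      rw [SemilinearAut.divisor_smul_apply, divOf_apply, divOf_apply]
      conv_rhs => rw [← smul_inv_smul τ v]
      rw [SemilinearAut.ord_smul]
    have hne : τ • fD x ≠ 0 := fun h0 => hfD x (smul_left_cancel τ (by rw [h0, smul_zero]))
    refine eq_of_ell_le_one hF (hup (act x)) ?_ (hDnn (act x)) (mul_ne_zero hf hne) (hfD (act x))
      ?_ rfl
    · refine Finsupp.le_def.2 fun v => ?_
      rw [Finsupp.coe_zero, Pi.zero_apply, SemilinearAut.divisor_smul_apply]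
      exact Finsupp.le_def.1 (hDnn x) _
    · simp only [D, smul_add, hEfix τ hτ, hτd, divOf_mul hF hf hne, he]
      abel
  exact G.gen_map (SemilinearAut.baseAut τ : K →+* K) (SemilinearAut.toRingAut τ : F →+* F)
    (smul_smul' τ) act (fun i => hzfix τ hτ i)
    (fun x f hf => by
      show τ • f ∈ riemannRochSpace (A₀ - D (act x))
      have := smul_mem_riemannRochSpace τ hf
      rwa [show τ • (G.A₀ - G.D x) = A₀ - D (act x) by
        show τ • (A₀ - D x) = _
        rw [smul_sub, hTA τ hτ, hDτ]] at this)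
    (fun x => by
      show R.push (D (act x)) = R.push (D x)
      rw [← hDτ, push_smul hF hk hg (hT τ hτ)])
    γ x

end FA.FlatModel
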