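import Fermat.Agent.FlatModel.RR

/-!
# The addition of classes on families of subspaces

If the subspaces `L(A₀ - D₁)` and `L(A₀ - D₂)` form families over a congruence ring and the class
`D₁ + D₂ - E` has one section after reduction, then the subspaces `L(A₀ - D₃)` of the effective
divisor in this class form a family too.
-/

set_option autoImplicit false
set_option linter.style.haveILetI false
set_option linter.unusedSectionVars false
set_option maxHeartbeats 1600000

noncomputable section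

namespace FA.FlatModel

open AlgebraicCurve FA.Curve FA.CurveRed FA.ModField

variable {K F k Fk : Type*} [Field K] [IsAlgClosed K] [Field F] [Algebra K F] [Field k]
  [IsAlgClosed k] [Field Fk] [Algebra k Fk] {A : ValuationSubring K}
  {R : Reduction K F k Fk A} (hF : IsFunctionField K F) (hk : IsFunctionField k Fk)
  {P S : Type*} [CommRing S] {L : LocData K k R.π P S}

theorem push_sub (D E : Divisor K F) : R.push (D - E) = R.push D - R.push E :=
  Finsupp.mapDomain_sub

variable {ι : Type*} [Fintype ι] {zA : ι → F} {zAb : ι → Fk}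

/-- The members of a family spanning the subspaces. -/
theorem SFam.exists_members (hz : ∀ i, R.Red (zA i) (zAb i)) {U : P → Submodule K F}
    {Ub : Submodule k Fk} (h : SFam L zA zAb U Ub) :
    ∃ (d : ℕ) (u : Fin d → P → F) (ub : Fin d → Fk), (∀ n, SRed L (u n) (ub n)) ∧
      (∀ p, Submodule.span K (Set.range fun n => u n p) = U p) ∧
      LinearIndependent k ub ∧ Submodule.span k (Set.range ub) = Ub := by
  obtain ⟨d, a, ha, hli, hsp⟩ := h
  exact ⟨d, fun n p => ∑ i, L.ev p (a n i) • zA i, fun n => ∑ i, L.res (a n i) • zAb i,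
    fun n => SRed.of_fintype _ _ _ hz, ha, hli, hsp⟩

include hF hk

/-- A pair of bases for a divisor of large degree. -/
theorem exists_basis_large {c : ℕ}
    (hg : FA.Curve.genus K F = FA.Curve.genus k Fk)
    (hc : ∀ D : Divisor K F, (c : ℤ) ≤ Divisor.degree D →
      ell D = Divisor.degree D + 1 - FA.Curve.genus K F)
    (hc' : ∀ D : Divisor k Fk, (c : ℤ) ≤ Divisor.degree D →
      ell D = Divisor.degree D + 1 - FA.Curve.genus k Fk)
    (D : Divisor K F) (hD : (c : ℤ) ≤ Divisor.degree D) :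
    ∃ (n : ℕ) (z : Fin n → F) (zb : Fin n → Fk), (∀ i, R.Red (z i) (zb i)) ∧
      LinearIndependent k zb ∧ Submodule.span K (Set.range z) = riemannRochSpace D ∧
      Submodule.span k (Set.range zb) = riemannRochSpace (R.push D) := by
  refine exists_basis_pair hF hk D ?_
  rw [hc D hD, hc' (R.push D) (by rw [Reduction.degree_push hF hk]; exact hD),
    Reduction.degree_push hF hk, hg]

/-- **The addition step.** -/
theorem sFam_add [Nonempty P] {c : ℕ}
    (hg : FA.Curve.genus K F = FA.Curve.genus k Fk)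
    (hc : ∀ D : Divisor K F, (c : ℤ) ≤ Divisor.degree D →
      ell D = Divisor.degree D + 1 - FA.Curve.genus K F)
    (hc' : ∀ D : Divisor k Fk, (c : ℤ) ≤ Divisor.degree D →
      ell D = Divisor.degree D + 1 - FA.Curve.genus k Fk)
    {A₀ : Divisor K F} (hA₀ : 0 ≤ A₀)
    (hdeg : (c : ℤ) + FA.Curve.genus K F + 1 ≤ Divisor.degree A₀)
    (hz : ∀ i, R.Red (zA i) (zAb i)) (hzli : LinearIndependent k zAb)
    (hzA : Submodule.span K (Set.range zA) = riemannRochSpace A₀)
    (hzAb : Submodule.span k (Set.range zAb) = riemannRochSpace (R.push A₀))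
    {D₁ D₂ D₃ : P → Divisor K F} {D₁b D₂b : Divisor k Fk} {E : Divisor K F} (hE : 0 ≤ E)
    (hdE : Divisor.degree E = FA.Curve.genus K F) (h₁ : ∀ p, 0 ≤ D₁ p) (h₂ : ∀ p, 0 ≤ D₂ p)
    (hd₁ : ∀ p, Divisor.degree (D₁ p) = FA.Curve.genus K F)
    (hd₂ : ∀ p, Divisor.degree (D₂ p) = FA.Curve.genus K F)
    (hb₁ : ∀ p, R.push (D₁ p) = D₁b) (hb₂ : ∀ p, R.push (D₂ p) = D₂b)
    (hgood : ell (D₁b + D₂b - R.push E) ≤ 1)
    (h₃ : ∀ p, 0 ≤ D₃ p)
    (h₃e : ∀ p, ∃ f : F, f ≠ 0 ∧ D₃ p = D₁ p + D₂ p - E + divOf hF f)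
    (hf₁ : SFam L zA zAb (fun p => riemannRochSpace (A₀ - D₁ p))
      (riemannRochSpace (R.push A₀ - D₁b)))
    (hf₂ : SFam L zA zAb (fun p => riemannRochSpace (A₀ - D₂ p))
      (riemannRochSpace (R.push A₀ - D₂b))) :
    ∃ D₃b : Divisor k Fk, (∀ p, R.push (D₃ p) = D₃b) ∧
      SFam L zA zAb (fun p => riemannRochSpace (A₀ - D₃ p))
        (riemannRochSpace (R.push A₀ - D₃b)) := by
  classical
  obtain ⟨p₀⟩ := ‹Nonempty P›
  set g := FA.Curve.genus K F with hgdef
  set Ab := R.push A₀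
  set Eb := R.push E
  have hdAb : Divisor.degree Ab = Divisor.degree A₀ := Reduction.degree_push hF hk A₀
  have hdEb : Divisor.degree Eb = g := (Reduction.degree_push hF hk E).trans hdE
  have hd₁b : Divisor.degree D₁b = g := by rw [← hb₁ p₀, Reduction.degree_push hF hk, hd₁]
  have hd₂b : Divisor.degree D₂b = g := by rw [← hb₂ p₀, Reduction.degree_push hF hk, hd₂]
  obtain ⟨n₁, u, ub, hu, hus, huli, husb⟩ := hf₁.exists_members hz
  obtain ⟨n₂, v, vb, hv, hvs, hvli, hvsb⟩ := hf₂.exists_members hz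
  -- first members
  have hne : ∀ {n : ℕ} {wb : Fin n → Fk} {D : Divisor k Fk},
      Submodule.span k (Set.range wb) = riemannRochSpace D → (c : ℤ) + 1 ≤ Divisor.degree D →
      ∃ i, wb i ≠ 0 := by
    intro n wb D hsp hD
    obtain ⟨Q⟩ := (infinite_places hk).nonempty
    obtain ⟨i, hi, -⟩ := (gen_of_span hk hsp hc' hD).2 Q
    exact ⟨i, hi⟩
  obtain ⟨i₀, hi₀⟩ := hne husb (by rw [map_sub, hdAb, hd₁b]; omega)
  obtain ⟨j₀, hj₀⟩ := hne hvsb (by rw [map_sub, hdAb, hd₂b]; omega)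
  set s : P → F := fun p => u i₀ p * v j₀ p
  set sb : Fk := ub i₀ * vb j₀
  have hs : SRed L s sb := (hu i₀).mul (hv j₀)
  have hsb : sb ≠ 0 := mul_ne_zero hi₀ hj₀
  have hs0 : ∀ p, s p ≠ 0 := fun p => (hs.red p).ne_zero hsb
  have hu0 : ∀ p, u i₀ p ≠ 0 := fun p => ((hu i₀).red p).ne_zero hi₀
  have hv0 : ∀ p, v j₀ p ≠ 0 := fun p => ((hv j₀).red p).ne_zero hj₀
  -- the residual divisors
  set G : P → Divisor K F := fun p => divOf hF (s p) + (A₀ - D₁ p) + (A₀ - D₂ p)
  set Gb : Divisor k Fk := divOf hk sb + (Ab - D₁b) + (Ab - D₂b)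
  have hG : ∀ p, 0 ≤ G p := fun p => by
    have h1 := nonneg_divOf_add hF (hu0 p)
      (show u i₀ p ∈ riemannRochSpace (A₀ - D₁ p) from hus p ▸ Submodule.subset_span ⟨i₀, rfl⟩)
    have h2 := nonneg_divOf_add hF (hv0 p)
      (show v j₀ p ∈ riemannRochSpace (A₀ - D₂ p) from hvs p ▸ Submodule.subset_span ⟨j₀, rfl⟩)
    have := add_nonneg h1 h2
    refine this.trans_eq ?_
    simp only [G, s, divOf_mul hF (hu0 p) (hv0 p)]
    abel
  have hGb : ∀ p, R.push (G p) = Gb := fun p => by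
    simp only [G, Gb, Reduction.push_add, push_sub, push_divOf' hF hk (hs.red p) hsb, hb₁, hb₂, Ab]
  have hdG : ∀ p, Divisor.degree (G p) = 2 * Divisor.degree A₀ - 2 * g := fun p => by
    simp only [G, map_add, map_sub, degree_divOf, hd₁, hd₂]; ring
  -- the constant spaces
  obtain ⟨n3, z3, z3b, hz3, hz3li, hz3s, hz3b⟩ := exists_basis_large hF hk hg hc hc'
    (A₀ + A₀ + A₀) (by rw [map_add, map_add]; omega)
  obtain ⟨n3', z3', z3b', hz3', hz3li', hz3s', hz3b'⟩ := exists_basis_large hF hk hg hc hc'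
    (A₀ + A₀ + A₀ - E) (by rw [map_sub, map_add, map_add, hdE]; omega)
  obtain ⟨n2, z2, z2b, hz2, hz2li, hz2s, hz2b⟩ := exists_basis_large hF hk hg hc hc'
    (A₀ + A₀) (by rw [map_add]; omega)
  obtain ⟨n2', z2', z2b', hz2', hz2li', hz2s', hz2b'⟩ := exists_basis_large hF hk hg hc hc'
    (A₀ + A₀ - E) (by rw [map_sub, map_add, hdE]; omega)
  simp only [Reduction.push_add, push_sub] at hz3b hz3b' hz2b hz2b'
  -- products
  let φ : Fin n₁ × Fin n₂ → P → F := fun ij p => u ij.1 p * v ij.2 p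
  let φb : Fin n₁ × Fin n₂ → Fk := fun ij => ub ij.1 * vb ij.2
  have hφ : ∀ ij, SRed L (φ ij) (φb ij) := fun ij => (hu ij.1).mul (hv ij.2)
  have hgenp : ∀ p, Gen ((A₀ - D₁ p) + (A₀ - D₂ p)) fun ij => φ ij p := fun p =>
    (gen_of_span hF (hus p) hc (by rw [map_sub, hd₁]; omega)).mul
      (gen_of_span hF (hvs p) hc (by rw [map_sub, hd₂]; omega))
  have hgenb : Gen ((Ab - D₁b) + (Ab - D₂b)) φb :=
    (gen_of_span hk husb hc' (by rw [map_sub, hdAb, hd₁b]; omega)).mul
      (gen_of_span hk hvsb hc' (by rw [map_sub, hdAb, hd₂b]; omega))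
  -- the space `L(3 A₀ - E - G)`
  set Q : P → Divisor K F := fun p => A₀ + A₀ + A₀ - E - G p
  set Qb : Divisor k Fk := Ab + Ab + Ab - Eb - Gb
  have hQ : ∀ p, Q p = (A₀ + A₀ + A₀ - E) - ((A₀ - D₁ p) + (A₀ - D₂ p)) - divOf hF (s p) :=
    fun p => by simp only [Q, G]; abel
  have hQb : Qb = (Ab + Ab + Ab - Eb) - ((Ab - D₁b) + (Ab - D₂b)) - divOf hk sb := by
    simp only [Qb, Gb]; abel
  have hEb : 0 ≤ Eb := Reduction.push_nonneg hE
  have hGb0 : 0 ≤ Gb := hGb p₀ ▸ Reduction.push_nonneg (hG p₀)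
  have hdQ : ∀ p, Divisor.degree (Q p) = Divisor.degree A₀ + g := fun p => by
    simp only [Q, map_sub, map_add, hdG, hdE]; ring
  have hdQb : Divisor.degree Qb = Divisor.degree A₀ + g := by
    rw [← hdQ p₀, ← Reduction.degree_push hF hk (R := R) (Q p₀)]
    simp only [Q, Qb, push_sub, Reduction.push_add, hGb, Ab, Eb]
  obtain ⟨dq, hdq⟩ : ∃ dq : ℕ, (dq : ℤ) = Divisor.degree A₀ + 1 := ⟨_, Int.toNat_of_nonneg (by omega)⟩
  have hfQ : SFam L z3 z3b (fun p => riemannRochSpace (Q p)) (riemannRochSpace Qb) := by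
    refine sFam_colon hF hk hz3 hz3li hz3' hz3li' hφ hs hsb (d := dq) (fun p w => ?_) (fun w => ?_)
      (fun p => ?_) ?_
    · rw [hQ, mem_colon_iff (X := A₀ + A₀ + A₀) hF (hgenp p) (hs0 p) (by
        rw [← hQ]; exact sub_le_iff_le_add.2 ((sub_le_self _ hE).trans (le_add_of_nonneg_right (hG p)))),
        hz3s, hz3s']
    · rw [hQb, mem_colon_iff (X := Ab + Ab + Ab) hk hgenb hsb (by
        rw [← hQb]; exact sub_le_iff_le_add.2 ((sub_le_self _ hEb).trans (le_add_of_nonneg_right hGb0))),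
        hz3b, hz3b']
    · have := hc (Q p) (by rw [hdQ]; omega)
      simp only [ell, hdQ] at this; omega
    · have := hc' Qb (by rw [hdQb]; omega)
      simp only [ell, hdQb] at this; omega
  -- the one dimensional space `L(2 A₀ - E - G)`
  set H : P → Divisor K F := fun p => A₀ + A₀ - E - G p
  set Hb : Divisor k Fk := Ab + Ab - Eb - Gb
  have hHe : ∀ p, H p = (D₁ p + D₂ p - E) + divOf hF (s p)⁻¹ := fun p =>
    Finsupp.ext fun w => by
      simp only [H, G, Finsupp.add_apply, Finsupp.sub_apply, divOf_apply, w.ord_inv]; ring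
  have hHbe : Hb = (D₁b + D₂b - Eb) + divOf hk sb⁻¹ := Finsupp.ext fun w => by
    simp only [Hb, Gb, Finsupp.add_apply, Finsupp.sub_apply, divOf_apply, w.ord_inv]; ring
  have hHb1 : ell Hb ≤ 1 := by rw [hHbe, ell_add_divOf hk _ (inv_ne_zero hsb)]; exact hgood
  have hHpush : ∀ p, R.push (H p) = Hb := fun p => by
    simp only [H, Hb, push_sub, Reduction.push_add, hGb, Ab, Eb]
  have hH1 : ∀ p, ell (H p) ≤ 1 := fun p => by
    refine le_trans ?_ hHb1
    rw [← hHpush p]
    exact ell_le_ell_push hF hk _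
  have hHpos : ∀ p, 1 ≤ ell (H p) := fun p => by
    obtain ⟨f, hf, he⟩ := h₃e p
    rw [hHe, ell_add_divOf hF _ (inv_ne_zero (hs0 p))]
    haveI := finite_riemannRochSpace hF (D₁ p + D₂ p - E)
    have hmem : f ∈ riemannRochSpace (D₁ p + D₂ p - E) := by
      rw [FA.Curve.mem_riemannRochSpace]
      intro w
      rw [atLeast_iff hf]
      have := Finsupp.le_def.1 (h₃ p) w
      rw [he, Finsupp.coe_zero, Pi.zero_apply, Finsupp.add_apply, divOf_apply] at this
      omega
    have hpos : 0 < Module.finrank K (riemannRochSpace (D₁ p + D₂ p - E)) :=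
      Module.finrank_pos_iff_exists_ne_zero.2 ⟨⟨f, hmem⟩, fun h => hf (congrArg Subtype.val h)⟩
    simp only [ell]; omega
  have hfH : SFam L z2 z2b (fun p => riemannRochSpace (H p)) (riemannRochSpace Hb) := by
    refine sFam_colon hF hk hz2 hz2li hz2' hz2li' hφ hs hsb (d := 1) (fun p w => ?_) (fun w => ?_)
      (fun p => ?_) ?_
    · rw [show H p = (A₀ + A₀ - E) - ((A₀ - D₁ p) + (A₀ - D₂ p)) - divOf hF (s p) by
          simp only [H, G]; abel, mem_colon_iff (X := A₀ + A₀) hF (hgenp p) (hs0 p) (by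
        rw [show (A₀ + A₀ - E) - ((A₀ - D₁ p) + (A₀ - D₂ p)) - divOf hF (s p) = A₀ + A₀ - E - G p by
          simp only [G]; abel]
        exact sub_le_iff_le_add.2 ((sub_le_self _ hE).trans (le_add_of_nonneg_right (hG p)))),
        hz2s, hz2s']
    · rw [show Hb = (Ab + Ab - Eb) - ((Ab - D₁b) + (Ab - D₂b)) - divOf hk sb by
          simp only [Hb, Gb]; abel, mem_colon_iff (X := Ab + Ab) hk hgenb hsb (by
        rw [show (Ab + Ab - Eb) - ((Ab - D₁b) + (Ab - D₂b)) - divOf hk sb = Ab + Ab - Eb - Gb by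
          simp only [Gb]; abel]
        exact sub_le_iff_le_add.2 ((sub_le_self _ hEb).trans (le_add_of_nonneg_right hGb0))),
        hz2b, hz2b']
    · have := hH1 p; have := hHpos p; simp only [ell] at *; omega
    · have h1 := hHpos p₀
      have h2 := ell_le_ell_push hF hk (R := R) (H p₀)
      rw [hHpush] at h2
      simp only [ell] at *; omega
  obtain ⟨nh, hh, hhb, hhr, hhs, hhli, hhsb⟩ := hfH.exists_members hz2
  obtain ⟨l₀, hl₀⟩ : ∃ l, hhb l ≠ 0 := by
    rcases nh with _ | nh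
    · exfalso
      rw [Matrix.range_empty, Submodule.span_empty] at hhsb
      have h1 := hHpos p₀
      have h2 := ell_le_ell_push hF hk (R := R) (H p₀)
      rw [hHpush] at h2
      simp only [ell] at h2
      rw [← hhsb, finrank_bot] at h2
      simp only [ell] at h1
      omega
    · exact ⟨0, hhli.ne_zero 0⟩
  set t : P → F := hh l₀
  set tb : Fk := hhb l₀
  have ht0 : ∀ p, t p ≠ 0 := fun p => ((hhr l₀).red p).ne_zero hl₀
  have hD₃ : ∀ p, D₃ p = H p + divOf hF (t p) := fun p => by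
    obtain ⟨f, hf, he⟩ := h₃e p
    refine eq_of_ell_le_one hF (D := H p) (hH1 p) (h₃ p) ?_
      (mul_ne_zero hf (hs0 p)) (ht0 p) ?_ rfl
    · have := nonneg_divOf_add hF (ht0 p)
        (show t p ∈ riemannRochSpace (H p) from hhs p ▸ Submodule.subset_span ⟨l₀, rfl⟩)
      rwa [add_comm] at this
    · rw [he, hHe, divOf_mul hF hf (hs0 p)]
      ext w
      simp only [Finsupp.add_apply, Finsupp.sub_apply, divOf_apply, w.ord_inv]
      ring
  set D₃b : Divisor k Fk := Hb + divOf hk tb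
  have hD₃b : ∀ p, R.push (D₃ p) = D₃b := fun p => by
    rw [hD₃, Reduction.push_add, hHpush, push_divOf' hF hk ((hhr l₀).red p) hl₀]
  refine ⟨D₃b, hD₃b, ?_⟩
  -- the final space
  obtain ⟨nq, q, qb, hq, hqs, hqli, hqsb⟩ := hfQ.exists_members hz3
  have hgenq : ∀ p, Gen (Q p) fun l => q l p := fun p =>
    gen_of_span hF (hqs p) hc (by rw [hdQ]; omega)
  have hgenqb : Gen Qb qb := gen_of_span hk hqsb hc' (by rw [hdQb]; omega)
  have hd₃ : ∀ p, Divisor.degree (D₃ p) = g := fun p => by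
    rw [hD₃, map_add, degree_divOf]
    simp only [H, map_sub, map_add, hdG, hdE]; ring
  have hd₃b : Divisor.degree D₃b = g := by rw [← hD₃b p₀, Reduction.degree_push hF hk, hd₃]
  obtain ⟨da, hda⟩ : ∃ da : ℕ, (da : ℤ) = Divisor.degree A₀ - g + 1 - g :=
    ⟨_, Int.toNat_of_nonneg (by
      have := hc (A₀ - D₃ p₀) (by rw [map_sub, hd₃]; omega)
      have := ell_nonneg (A₀ - D₃ p₀)
      simp only [map_sub, hd₃] at *; omega)⟩
  refine sFam_colon hF hk hz hzli hz2 hz2li hq (hhr l₀) hl₀ (d := da) (fun p w => ?_) (fun w => ?_)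
    (fun p => ?_) ?_
  · rw [show A₀ - D₃ p = (A₀ + A₀) - Q p - divOf hF (t p) by
        rw [hD₃]; simp only [Q, H]; abel, mem_colon_iff (X := A₀) hF (hgenq p) (ht0 p) (by
      rw [show (A₀ + A₀) - Q p - divOf hF (t p) = A₀ - D₃ p by rw [hD₃]; simp only [Q, H]; abel]
      exact sub_le_self _ (h₃ p)), hzA, hz2s]
  · rw [show Ab - D₃b = (Ab + Ab) - Qb - divOf hk tb by
        simp only [Qb, D₃b, Hb]; abel, mem_colon_iff (X := Ab) hk hgenqb hl₀ (by
      rw [show (Ab + Ab) - Qb - divOf hk tb = Ab - D₃b by simp only [Qb, D₃b, Hb]; abel]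
      exact sub_le_self _ (hD₃b p₀ ▸ Reduction.push_nonneg (h₃ p₀))), hzAb, hz2b]
  · have := hc (A₀ - D₃ p) (by rw [map_sub, hd₃]; omega)
    simp only [ell, map_sub, hd₃] at this; omega
  · have := hc' (Ab - D₃b) (by rw [map_sub, hdAb, hd₃b]; omega)
    simp only [ell, map_sub, hdAb, hd₃b] at this; omega

end FA.FlatModel
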